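import Mathlib
import Fermat.Prelude.Def_FLTPrelim_Modularity

set_option autoImplicit false

open UpperHalfPlane Complex Filter Topology Function
open scoped Manifold

namespace Fermat.Agent.S23.QF

/-- Holomorphic, `1`-periodic functions bounded at `i∞`: exactly the functions with a
`q`-expansion in `q = exp (2 π i τ)`. -/
structure IsQFun (F : ℍ → ℂ) : Prop where
  mdiff : MDiff F
  periodic : Periodic (F ∘ ofComplex) (1 : ℂ)
  bdd : IsBoundedAtImInfty F

namespace IsQFun

variable {F G : ℍ → ℂ}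

theorem periodic' (hF : IsQFun F) : Periodic (F ∘ ofComplex) ((1 : ℝ) : ℂ) := by
  simpa using hF.periodic

theorem analyticAt (hF : IsQFun F) : AnalyticAt ℂ (cuspFunction 1 F) 0 :=
  analyticAt_cuspFunction_zero one_pos hF.periodic' hF.mdiff hF.bdd

theorem zero : IsQFun (0 : ℍ → ℂ) :=
  ⟨mdifferentiable_const, fun _ => rfl, zero_form_isBoundedAtImInfty⟩

theorem const (a : ℂ) : IsQFun (fun _ : ℍ => a) :=
  ⟨mdifferentiable_const, fun _ => rfl, const_boundedAtFilter _ a⟩

theorem one : IsQFun (1 : ℍ → ℂ) := const 1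

theorem add (hF : IsQFun F) (hG : IsQFun G) : IsQFun (F + G) :=
  ⟨hF.mdiff.add hG.mdiff, hF.periodic.add hG.periodic, hF.bdd.add hG.bdd⟩

theorem neg (hF : IsQFun F) : IsQFun (-F) :=
  ⟨hF.mdiff.neg, fun z => by simpa using congrArg Neg.neg (hF.periodic z), hF.bdd.neg⟩

theorem sub (hF : IsQFun F) (hG : IsQFun G) : IsQFun (F - G) :=
  ⟨hF.mdiff.sub hG.mdiff, hF.periodic.sub hG.periodic, hF.bdd.sub hG.bdd⟩

theorem mul (hF : IsQFun F) (hG : IsQFun G) : IsQFun (F * G) :=
  ⟨hF.mdiff.mul hG.mdiff, hF.periodic.mul hG.periodic, hF.bdd.mul hG.bdd⟩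

theorem smul (a : ℂ) (hF : IsQFun F) : IsQFun (a • F) := by
  have : a • F = (fun _ : ℍ => a) * F := by ext; simp
  rw [this]
  exact (const a).mul hF

theorem pow (hF : IsQFun F) (n : ℕ) : IsQFun (F ^ n) := by
  induction n with
  | zero => simpa using one
  | succ n ih => rw [pow_succ]; exact ih.mul hF

theorem sum {ι : Type*} (s : Finset ι) {F : ι → ℍ → ℂ} (hF : ∀ i ∈ s, IsQFun (F i)) :
    IsQFun (∑ i ∈ s, F i) := by
  classical
  induction s using Finset.induction_on with
  | empty => simpa using zero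
  | insert a s ha ih =>
    rw [Finset.sum_insert ha]
    exact (hF a (Finset.mem_insert_self a s)).add
      (ih fun i hi => hF i (Finset.mem_insert_of_mem hi))

theorem prod {ι : Type*} (s : Finset ι) {F : ι → ℍ → ℂ} (hF : ∀ i ∈ s, IsQFun (F i)) :
    IsQFun (∏ i ∈ s, F i) := by
  classical
  induction s using Finset.induction_on with
  | empty => simpa using one
  | insert a s ha ih =>
    rw [Finset.prod_insert ha]
    exact (hF a (Finset.mem_insert_self a s)).mul
      (ih fun i hi => hF i (Finset.mem_insert_of_mem hi))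

theorem qExpansion_eq_zero_iff (hF : IsQFun F) : qExpansion 1 F = 0 ↔ F = 0 :=
  UpperHalfPlane.qExpansion_eq_zero_iff one_pos hF.periodic' hF.mdiff hF.bdd

theorem eq_of_qExpansion_eq (hF : IsQFun F) (hG : IsQFun G)
    (h : qExpansion 1 F = qExpansion 1 G) : F = G := by
  have h1 : qExpansion 1 (F - G) = 0 := by
    rw [qExpansion_sub hF.analyticAt hG.analyticAt, h, sub_self]
  exact sub_eq_zero.mp ((hF.sub hG).qExpansion_eq_zero_iff.mp h1)

end IsQFun

theorem qExpansion_pow_of_isQFun {F : ℍ → ℂ} (hF : IsQFun F) (n : ℕ) :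
    qExpansion 1 (F ^ n) = qExpansion 1 F ^ n := by
  induction n with
  | zero => simpa using qExpansion_one 1
  | succ n ih =>
    rw [pow_succ, pow_succ, qExpansion_mul (hF.pow n).analyticAt hF.analyticAt, ih]

theorem qExpansion_sum_of_isQFun {ι : Type*} (s : Finset ι) {F : ι → ℍ → ℂ}
    (hF : ∀ i ∈ s, IsQFun (F i)) :
    qExpansion 1 (∑ i ∈ s, F i) = ∑ i ∈ s, qExpansion 1 (F i) := by
  classical
  induction s using Finset.induction_on with
  | empty => simpa using qExpansion_zero 1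
  | insert a s ha ih =>
    have hs : ∀ i ∈ s, IsQFun (F i) := fun i hi => hF i (Finset.mem_insert_of_mem hi)
    rw [Finset.sum_insert ha, Finset.sum_insert ha,
      qExpansion_add (hF a (Finset.mem_insert_self a s)).analyticAt (IsQFun.sum s hs).analyticAt,
      ih hs]

/-- `F'` has the `σ`-conjugate `q`-expansion of `F`. -/
def IsConj (σ : ℂ →+* ℂ) (F F' : ℍ → ℂ) : Prop :=
  qExpansion 1 F' = (qExpansion 1 F).map σ

theorem isConj_iff_qCoeff (σ : ℂ →+* ℂ) (F F' : ℍ → ℂ) :
    IsConj σ F F' ↔ ∀ n, ModularFormClass.qCoeff F' n = σ (ModularFormClass.qCoeff F n) := by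
  unfold IsConj ModularFormClass.qCoeff
  rw [PowerSeries.ext_iff]
  simp [PowerSeries.coeff_map]

namespace IsConj

variable {σ : ℂ →+* ℂ} {F G F' G' : ℍ → ℂ}

theorem zero : IsConj σ 0 0 := by
  unfold IsConj
  simp [qExpansion_zero]

theorem one : IsConj σ 1 1 := by
  unfold IsConj
  simp [qExpansion_one]

theorem add (hF : IsQFun F) (hG : IsQFun G) (hF' : IsQFun F') (hG' : IsQFun G')
    (h1 : IsConj σ F F') (h2 : IsConj σ G G') : IsConj σ (F + G) (F' + G') := by
  unfold IsConj at *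
  rw [qExpansion_add hF'.analyticAt hG'.analyticAt, qExpansion_add hF.analyticAt hG.analyticAt,
    h1, h2, map_add]

theorem mul (hF : IsQFun F) (hG : IsQFun G) (hF' : IsQFun F') (hG' : IsQFun G')
    (h1 : IsConj σ F F') (h2 : IsConj σ G G') : IsConj σ (F * G) (F' * G') := by
  unfold IsConj at *
  rw [qExpansion_mul hF'.analyticAt hG'.analyticAt, qExpansion_mul hF.analyticAt hG.analyticAt,
    h1, h2, map_mul]

theorem neg (hF : IsQFun F) (hF' : IsQFun F') (h1 : IsConj σ F F') : IsConj σ (-F) (-F') := by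
  unfold IsConj at *
  rw [qExpansion_neg hF'.analyticAt, qExpansion_neg hF.analyticAt, h1, map_neg]

theorem sub (hF : IsQFun F) (hG : IsQFun G) (hF' : IsQFun F') (hG' : IsQFun G')
    (h1 : IsConj σ F F') (h2 : IsConj σ G G') : IsConj σ (F - G) (F' - G') := by
  unfold IsConj at *
  rw [qExpansion_sub hF'.analyticAt hG'.analyticAt, qExpansion_sub hF.analyticAt hG.analyticAt,
    h1, h2, map_sub]

theorem smul (a : ℂ) (hF : IsQFun F) (hF' : IsQFun F') (h1 : IsConj σ F F') :
    IsConj σ (a • F) (σ a • F') := by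
  unfold IsConj at *
  rw [qExpansion_smul hF'.analyticAt, qExpansion_smul hF.analyticAt, h1]
  ext n
  simp [PowerSeries.coeff_map]

theorem pow (hF : IsQFun F) (hF' : IsQFun F') (h1 : IsConj σ F F') (n : ℕ) :
    IsConj σ (F ^ n) (F' ^ n) := by
  unfold IsConj at *
  rw [qExpansion_pow_of_isQFun hF', qExpansion_pow_of_isQFun hF, h1, map_pow]

theorem sum {ι : Type*} (s : Finset ι) {F F' : ι → ℍ → ℂ} (hF : ∀ i ∈ s, IsQFun (F i))
    (hF' : ∀ i ∈ s, IsQFun (F' i)) (h : ∀ i ∈ s, IsConj σ (F i) (F' i)) :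
    IsConj σ (∑ i ∈ s, F i) (∑ i ∈ s, F' i) := by
  unfold IsConj at *
  rw [qExpansion_sum_of_isQFun s hF', qExpansion_sum_of_isQFun s hF, map_sum]
  exact Finset.sum_congr rfl h

theorem eq_zero (hF' : IsQFun F') (h : IsConj σ F F') (h0 : F = 0) : F' = 0 := by
  subst h0
  unfold IsConj at h
  rw [qExpansion_zero, map_zero] at h
  exact hF'.qExpansion_eq_zero_iff.mp h

theorem ne_zero (hF : IsQFun F) (h : IsConj σ F F') (h0 : F ≠ 0) : F' ≠ 0 := by
  intro h'
  subst h'
  unfold IsConj at h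
  rw [qExpansion_zero] at h
  apply h0
  apply hF.qExpansion_eq_zero_iff.mp
  have hinj : Function.Injective (PowerSeries.map σ) :=
    PowerSeries.map_injective σ σ.injective
  exact hinj (by rw [← h, map_zero])

theorem unique (hF' : IsQFun F') (hG' : IsQFun G') (h1 : IsConj σ F F') (h2 : IsConj σ F G') :
    F' = G' :=
  hF'.eq_of_qExpansion_eq hG' (h1.trans h2.symm)

end IsConj

end Fermat.Agent.S23.QF
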