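import Mathlib
import Fermat.Prelude.Thm_CongruenceSubgroup_one_mem_strictPeriods_Gamma0

set_option autoImplicit false

/-!
# The form `Δ(N z)` on `Γ₀(N)` and the distinctness of its `SL(2,ℤ)`-translates
-/

open UpperHalfPlane ModularForm CongruenceSubgroup Matrix Filter Topology
open scoped MatrixGroups ModularForm Manifold Pointwise Real

noncomputable section

namespace Fermat.Agent.S23

local notation "Δ" => ModularForm.discriminant
local notation "𝕢" => Function.Periodic.qParam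

/-- The matrix `diag(N, 1)` as an element of `GL(2, ℝ)`. -/
def alphaN (N : ℕ) [NeZero N] : GL (Fin 2) ℝ :=
  Matrix.GeneralLinearGroup.mkOfDetNeZero !![(N : ℝ), 0; 0, 1]
    (by simp [Matrix.det_fin_two_of, NeZero.ne])

@[simp] theorem val_alphaN (N : ℕ) [NeZero N] :
    ((alphaN N : GL (Fin 2) ℝ) : Matrix (Fin 2) (Fin 2) ℝ) = !![(N : ℝ), 0; 0, 1] := rfl

theorem det_alphaN (N : ℕ) [NeZero N] : (alphaN N).det.val = (N : ℝ) := by
  simp [alphaN, Matrix.GeneralLinearGroup.mkOfDetNeZero, Matrix.det_fin_two_of]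

theorem det_alphaN_pos (N : ℕ) [NeZero N] : 0 < (alphaN N).det.val := by
  rw [det_alphaN]; exact_mod_cast Nat.pos_of_ne_zero (NeZero.ne N)

theorem coe_alphaN_smul (N : ℕ) [NeZero N] (z : ℍ) :
    ((alphaN N • z : ℍ) : ℂ) = (N : ℂ) * z := by
  rw [UpperHalfPlane.coe_smul_of_det_pos (det_alphaN_pos N)]
  simp [UpperHalfPlane.num, UpperHalfPlane.denom]

theorem denom_alphaN (N : ℕ) [NeZero N] (z : ℂ) : UpperHalfPlane.denom (alphaN N) z = 1 := by
  simp [UpperHalfPlane.denom]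

theorem sigma_alphaN (N : ℕ) [NeZero N] (w : ℂ) : UpperHalfPlane.σ (alphaN N) w = w := by
  have h : 0 < N := Nat.pos_of_ne_zero (NeZero.ne N)
  simp [UpperHalfPlane.σ, h]

variable (N : ℕ) [NeZero N]

/-- `Δ(N z)`. -/
def deltaN : ℍ → ℂ := fun z => Δ (alphaN N • z)

theorem deltaN_apply (z : ℍ) : deltaN N z = Δ (alphaN N • z) := rfl

theorem deltaN_ne_zero (z : ℍ) : deltaN N z ≠ 0 := discriminant_ne_zero _

theorem discriminant_slash_alphaN :
    (Δ ∣[(12 : ℤ)] alphaN N) = ((N : ℂ) ^ 11) • deltaN N := by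
  ext z
  rw [ModularForm.slash_apply, sigma_alphaN, denom_alphaN, det_alphaN]
  simp [deltaN_apply, mul_comm]

theorem deltaN_eq_smul_slash :
    deltaN N = ((N : ℂ) ^ 11)⁻¹ • (Δ ∣[(12 : ℤ)] alphaN N) := by
  rw [discriminant_slash_alphaN, smul_smul, inv_mul_cancel₀, one_smul]
  exact pow_ne_zero _ (Nat.cast_ne_zero.mpr (NeZero.ne N))


/-- An explicit element of `SL(2,ℤ)`. -/
def mkSL (a b c d : ℤ) (h : a * d - b * c = 1) : SL(2, ℤ) :=
  ⟨!![a, b; c, d], by rw [Matrix.det_fin_two_of]; exact h⟩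

@[simp] theorem mkSL_val (a b c d : ℤ) (h : a * d - b * c = 1) :
    ((mkSL a b c d h : SL(2, ℤ)) : Matrix (Fin 2) (Fin 2) ℤ) = !![a, b; c, d] := rfl

theorem coe_GL_val (γ : SL(2, ℤ)) :
    ((Matrix.SpecialLinearGroup.mapGL ℝ γ : GL (Fin 2) ℝ) : Matrix (Fin 2) (Fin 2) ℝ) =
      !![((γ 0 0 : ℤ) : ℝ), ((γ 0 1 : ℤ) : ℝ); ((γ 1 0 : ℤ) : ℝ), ((γ 1 1 : ℤ) : ℝ)] := by
  ext i j
  fin_cases i <;> fin_cases j <;> simp

theorem sl_det_eq (γ : SL(2, ℤ)) : γ 0 0 * γ 1 1 - γ 0 1 * γ 1 0 = 1 := by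
  have := γ.2
  rw [Matrix.det_fin_two] at this
  exact this

/-- Conjugating an element of `Γ₀(N)` by `diag(N,1)` gives an element of `SL(2,ℤ)`. -/
theorem exists_conj_of_mem_Gamma0 (γ : SL(2, ℤ)) (hγ : γ ∈ Gamma0 N) :
    ∃ γ' : SL(2, ℤ), Matrix.SpecialLinearGroup.mapGL ℝ γ' * alphaN N =
      alphaN N * Matrix.SpecialLinearGroup.mapGL ℝ γ := by
  rw [Gamma0_mem, ZMod.intCast_zmod_eq_zero_iff_dvd] at hγ
  obtain ⟨c', hc'⟩ := hγ
  have hdet := sl_det_eq γ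
  refine ⟨mkSL (γ 0 0) (N * γ 0 1) c' (γ 1 1) (by rw [hc'] at hdet; linear_combination hdet), ?_⟩
  apply Matrix.GeneralLinearGroup.ext
  intro i j
  rw [Matrix.GeneralLinearGroup.coe_mul, Matrix.GeneralLinearGroup.coe_mul, coe_GL_val, coe_GL_val,
    val_alphaN]
  fin_cases i <;> fin_cases j <;> simp [mkSL, hc', mul_comm]


theorem discriminant_slash_SL (γ : SL(2, ℤ)) :
    Δ ∣[(12 : ℤ)] (Matrix.SpecialLinearGroup.mapGL ℝ γ) = Δ :=
  SlashInvariantFormClass.slash_action_eq CuspForm.discriminant _ ⟨γ, rfl⟩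

theorem discriminant_slash_alphaN_slash_of_mem (γ : SL(2, ℤ)) (hγ : γ ∈ Gamma0 N) :
    (Δ ∣[(12 : ℤ)] alphaN N) ∣[(12 : ℤ)] (Matrix.SpecialLinearGroup.mapGL ℝ γ) =
      Δ ∣[(12 : ℤ)] alphaN N := by
  obtain ⟨γ', hγ'⟩ := exists_conj_of_mem_Gamma0 N γ hγ
  rw [← SlashAction.slash_mul, ← hγ', SlashAction.slash_mul, discriminant_slash_SL]

theorem Gamma0_le_conj :
    (Gamma0 N).map (Matrix.SpecialLinearGroup.mapGL ℝ) ≤
      ConjAct.toConjAct (alphaN N)⁻¹ • (𝒮ℒ : Subgroup (GL (Fin 2) ℝ)) := by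
  rintro _ ⟨γ, hγ, rfl⟩
  obtain ⟨γ', hγ'⟩ := exists_conj_of_mem_Gamma0 N γ hγ
  rw [Subgroup.mem_pointwise_smul_iff_inv_smul_mem, ConjAct.smul_def]
  simp only [map_inv, inv_inv, ConjAct.ofConjAct_toConjAct]
  refine ⟨γ', ?_⟩
  rw [← hγ']
  simp [mul_assoc]

theorem sigma_mapGL (γ : SL(2, ℤ)) (w : ℂ) :
    UpperHalfPlane.σ (Matrix.SpecialLinearGroup.mapGL ℝ γ) w = w := by
  simp [UpperHalfPlane.σ]

theorem deltaN_slash_of_mem (γ : SL(2, ℤ)) (hγ : γ ∈ Gamma0 N) :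
    deltaN N ∣[(12 : ℤ)] (Matrix.SpecialLinearGroup.mapGL ℝ γ) = deltaN N := by
  rw [deltaN_eq_smul_slash, ModularForm.smul_slash, sigma_mapGL,
    discriminant_slash_alphaN_slash_of_mem N γ hγ]

/-- `Δ(N z)` as a cusp form of weight `12` on `Γ₀(N)`. -/
def deltaNForm : CuspForm ((Gamma0 N).map (Matrix.SpecialLinearGroup.mapGL ℝ)) 12 where
  toFun := deltaN N
  slash_action_eq' := by
    rintro _ ⟨γ, hγ, rfl⟩
    exact deltaN_slash_of_mem N γ hγ
  holo' := by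
    show MDiff (deltaN N)
    rw [deltaN_eq_smul_slash]
    exact ((CuspForm.discriminant.holo').slash 12 (alphaN N)).const_smul _
  zero_at_cusps' := by
    intro c hc
    have h1 := (CuspForm.translate CuspForm.discriminant (alphaN N)).zero_at_cusps'
      (hc.mono (Gamma0_le_conj N))
    intro g hg
    have h2 := h1 g hg
    show IsZeroAtImInfty ((deltaN N) ∣[(12 : ℤ)] g)
    rw [deltaN_eq_smul_slash, ModularForm.smul_slash]
    exact Filter.ZeroAtFilter.smul _ h2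


/-- The key analytic input: `Δ` cannot satisfy a non-trivial scaling relation. -/
theorem not_discriminant_scaling (x : ℝ) (hx : 1 < x) (y : ℝ) (w : ℍ → ℍ)
    (hw : ∀ z : ℍ, ((w z : ℍ) : ℂ) = (x : ℂ) ^ 2 * z + x * y)
    (h : ∀ z : ℍ, (x : ℂ) ^ 12 * Δ (w z) = Δ z) : False := by
  set P : ℍ → ℂ := fun z => ∏' n, (1 - eta_q n z) ^ 24 with hP
  have hPlim : Tendsto P atImInfty (𝓝 1) := tendsto_atImInfty_tprod_one_sub_eta_q_pow
  have hΔ : ∀ z : ℍ, Δ z = 𝕢 1 z * P z := discriminant_eq_q_prod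
  have hwim : ∀ z : ℍ, (w z).im = x ^ 2 * z.im := by
    intro z
    have := congrArg Complex.im (hw z)
    simpa [sq, Complex.add_im, Complex.mul_im] using this
  have hwlim : Tendsto w atImInfty atImInfty := by
    rw [atImInfty, tendsto_comap_iff]
    have : (im ∘ w) = fun z : ℍ => x ^ 2 * z.im := funext hwim
    rw [this]
    exact (tendsto_comap.const_mul_atTop (by positivity))
  -- the norm identity
  have hnorm : ∀ z : ℍ, ‖P z‖ = x ^ 12 * Real.exp (-2 * π * (x ^ 2 - 1) * z.im) * ‖P (w z)‖ := by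
    intro z
    have h1 := h z
    rw [hΔ, hΔ] at h1
    have h2 := congrArg norm h1
    rw [norm_mul, norm_mul, norm_mul, Function.Periodic.norm_qParam,
      Function.Periodic.norm_qParam, UpperHalfPlane.coe_im, UpperHalfPlane.coe_im, hwim] at h2
    have hq : Real.exp (-2 * π * z.im / 1) ≠ 0 := (Real.exp_pos _).ne'
    have h3 : ‖P z‖ = ‖(x : ℂ) ^ 12‖ * (Real.exp (-2 * π * (x ^ 2 * z.im) / 1) /
        Real.exp (-2 * π * z.im / 1)) * ‖P (w z)‖ := by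
      generalize Real.exp (-2 * π * (x ^ 2 * z.im) / 1) = E1 at h2 ⊢
      generalize Real.exp (-2 * π * z.im / 1) = E2 at h2 hq ⊢
      field_simp
      linarith
    rw [h3, ← Real.exp_sub]
    congr 2
    · simp [abs_of_pos (lt_trans one_pos hx)]
    · congr 1; ring
  have hexp : Tendsto (fun z : ℍ => Real.exp (-2 * π * (x ^ 2 - 1) * z.im)) atImInfty (𝓝 0) := by
    have hc : 0 < 2 * π * (x ^ 2 - 1) := by
      have : 1 < x ^ 2 := by nlinarith
      have := Real.pi_pos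
      nlinarith
    have : Tendsto (fun z : ℍ => (2 * π * (x ^ 2 - 1)) * z.im) atImInfty atTop :=
      tendsto_comap.const_mul_atTop hc
    refine (Real.tendsto_exp_neg_atTop_nhds_zero.comp this).congr (fun z => ?_)
    simp only [Function.comp]
    congr 1; ring
  have hlim1 : Tendsto (fun z => ‖P z‖) atImInfty (𝓝 1) := by simpa using hPlim.norm
  have hlim2 : Tendsto (fun z => ‖P (w z)‖) atImInfty (𝓝 1) := by
    simpa using (hPlim.comp hwlim).norm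
  have hlim3 : Tendsto (fun z => ‖P z‖) atImInfty (𝓝 (x ^ 12 * 0 * 1)) := by
    rw [funext hnorm]
    exact (hexp.const_mul _).mul hlim2
  have := tendsto_nhds_unique hlim1 hlim3
  simp at this


/-- The matrix `(x y; 0 x⁻¹)` in `GL(2,ℝ)`. -/
def upperGL (x y : ℝ) (hx : x ≠ 0) : GL (Fin 2) ℝ :=
  Matrix.GeneralLinearGroup.mkOfDetNeZero !![x, y; 0, x⁻¹]
    (by simp [Matrix.det_fin_two_of, hx])

@[simp] theorem val_upperGL (x y : ℝ) (hx : x ≠ 0) :
    ((upperGL x y hx : GL (Fin 2) ℝ) : Matrix (Fin 2) (Fin 2) ℝ) = !![x, y; 0, x⁻¹] := rfl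

theorem det_upperGL (x y : ℝ) (hx : x ≠ 0) : (upperGL x y hx).det.val = 1 := by
  simp [upperGL, Matrix.GeneralLinearGroup.mkOfDetNeZero, Matrix.det_fin_two_of, hx]

theorem coe_upperGL_smul (x y : ℝ) (hx : x ≠ 0) (z : ℍ) :
    ((upperGL x y hx • z : ℍ) : ℂ) = (x : ℂ) ^ 2 * z + x * y := by
  rw [UpperHalfPlane.coe_smul_of_det_pos (by rw [det_upperGL]; exact one_pos)]
  simp only [num, val_upperGL, of_apply, cons_val', cons_val_zero, cons_val_fin_one, cons_val_one,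
    denom, Complex.ofReal_zero, zero_mul, Complex.ofReal_inv, zero_add]
  have : (x : ℂ) ≠ 0 := by exact_mod_cast hx
  field_simp

theorem discriminant_slash_upperGL (x y : ℝ) (hx : x ≠ 0) (z : ℍ) :
    (Δ ∣[(12 : ℤ)] upperGL x y hx) z = (x : ℂ) ^ 12 * Δ (upperGL x y hx • z) := by
  rw [ModularForm.slash_apply, det_upperGL]
  have hσ : UpperHalfPlane.σ (upperGL x y hx) = ContinuousAlgEquiv.refl ℝ ℂ := by
    have h1 : (0 : ℝ) < (upperGL x y hx).det.val := by rw [det_upperGL]; exact one_pos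
    unfold UpperHalfPlane.σ
    rw [if_pos h1]
  have : (x : ℂ) ≠ 0 := by exact_mod_cast hx
  simp [hσ, denom, mul_comm]


/-- Bezout data for the Hermite decomposition of `diag(N,1) γ`. -/
theorem exists_hermite_data (γ : SL(2, ℤ)) :
    ∃ (g N₁ c₁ u v : ℤ), 0 < N₁ ∧ (N : ℤ) = g * N₁ ∧ γ 1 0 = g * c₁ ∧
      u * c₁ + v * (γ 1 1 * N₁) = 1 := by
  have hdet := sl_det_eq γ
  set a := γ 0 0
  set b := γ 0 1
  set c := γ 1 0
  set d := γ 1 1
  have hN0 : (N : ℤ) ≠ 0 := by exact_mod_cast NeZero.ne N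
  have hg0 : Int.gcd c N ≠ 0 := by
    intro h0
    rw [Int.gcd_eq_zero_iff] at h0
    exact hN0 h0.2
  obtain ⟨c₁, hc₁⟩ : ((Int.gcd c N : ℕ) : ℤ) ∣ c := Int.gcd_dvd_left c N
  obtain ⟨N₁, hN₁⟩ : ((Int.gcd c N : ℕ) : ℤ) ∣ (N : ℤ) := Int.gcd_dvd_right c N
  have hgpos : (0 : ℤ) < (Int.gcd c N : ℕ) := by exact_mod_cast Nat.pos_of_ne_zero hg0
  have hN₁pos : 0 < N₁ := by
    have hNpos : (0 : ℤ) < N := by exact_mod_cast Nat.pos_of_ne_zero (NeZero.ne N)
    rw [hN₁] at hNpos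
    exact (mul_pos_iff_of_pos_left hgpos).mp hNpos
  -- coprimality
  have hcop1 : IsCoprime c₁ N₁ := by
    have hb := Int.gcd_eq_gcd_ab c N
    refine ⟨Int.gcdA c N, Int.gcdB c N, ?_⟩
    have h3 : ((Int.gcd c N : ℕ) : ℤ) * (Int.gcdA c N * c₁ + Int.gcdB c N * N₁) =
        ((Int.gcd c N : ℕ) : ℤ) * 1 := by
      calc ((Int.gcd c N : ℕ) : ℤ) * (Int.gcdA c N * c₁ + Int.gcdB c N * N₁)
          = (((Int.gcd c N : ℕ) : ℤ) * c₁) * Int.gcdA c N
            + (((Int.gcd c N : ℕ) : ℤ) * N₁) * Int.gcdB c N := by ring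
        _ = c * Int.gcdA c N + N * Int.gcdB c N := by rw [← hc₁, ← hN₁]
        _ = ((Int.gcd c N : ℕ) : ℤ) * 1 := by rw [← hb, mul_one]
    exact mul_left_cancel₀ hgpos.ne' h3
  have hcop2 : IsCoprime c₁ d := by
    have : IsCoprime c d := ⟨-b, a, by linear_combination hdet⟩
    rw [hc₁] at this
    exact this.of_mul_left_right
  obtain ⟨u, v, huv⟩ := hcop2.mul_right hcop1
  exact ⟨(Int.gcd c N : ℕ), N₁, c₁, u, v, hN₁pos, hN₁, hc₁, huv⟩


theorem slash_injective (k : ℤ) (g : GL (Fin 2) ℝ) {f h : ℍ → ℂ}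
    (hfh : f ∣[k] g = h ∣[k] g) : f = h := by
  have := congrArg (fun F => F ∣[k] g⁻¹) hfh
  simpa [← SlashAction.slash_mul] using this

/-- DISTINCTNESS: if `Δ(N z)` is invariant under `γ ∈ SL(2,ℤ)` then `γ ∈ Γ₀(N)`. -/
theorem mem_Gamma0_of_deltaN_slash_eq (γ : SL(2, ℤ))
    (h : deltaN N ∣[(12 : ℤ)] (Matrix.SpecialLinearGroup.mapGL ℝ γ) = deltaN N) :
    γ ∈ Gamma0 N := by
  obtain ⟨g, N₁, c₁, u, v, hN₁pos, hN, hc, huv⟩ := exists_hermite_data N γ
  have hdet := sl_det_eq γ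
  have hN₁R : (N₁ : ℝ) ≠ 0 := by exact_mod_cast hN₁pos.ne'
  -- the matrices
  set τ' : SL(2, ℤ) := mkSL v (-u) c₁ (γ 1 1 * N₁) (by linear_combination huv) with hτ'
  set β : GL (Fin 2) ℝ := upperGL (N₁ : ℝ) ((v * N * γ 0 1 + u * γ 0 0 : ℤ) : ℝ) hN₁R with hβ
  have hmat : alphaN N * Matrix.SpecialLinearGroup.mapGL ℝ γ =
      β * Matrix.SpecialLinearGroup.mapGL ℝ τ' * alphaN N := by
    have hNR : (N : ℝ) = g * N₁ := by exact_mod_cast hN
    have hcR : ((γ 1 0 : ℤ) : ℝ) = g * c₁ := by exact_mod_cast hc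
    have hdetR : ((γ 0 0 : ℤ) : ℝ) * (γ 1 1 : ℤ) - (γ 0 1 : ℤ) * (γ 1 0 : ℤ) = 1 := by
      exact_mod_cast hdet
    have huvR : (u : ℝ) * c₁ + v * ((γ 1 1 : ℤ) * N₁) = 1 := by exact_mod_cast huv
    apply Matrix.GeneralLinearGroup.ext
    intro i j
    rw [Matrix.GeneralLinearGroup.coe_mul, Matrix.GeneralLinearGroup.coe_mul,
      Matrix.GeneralLinearGroup.coe_mul, coe_GL_val, coe_GL_val, val_alphaN, hβ, val_upperGL]
    fin_cases i <;> fin_cases j
    · simp [hτ', mkSL]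
      linear_combination ((N : ℝ) * v * (γ 0 1 : ℤ) * N₁) * hcR - ((N : ℝ) * v * (γ 0 1 : ℤ) * c₁) * hNR
        + ((N : ℝ) * v * N₁) * hdetR - ((N : ℝ) * (γ 0 0 : ℤ)) * huvR
    · simp [hτ', mkSL]
      linear_combination ((γ 0 1 : ℤ) : ℝ) * hNR - ((N₁ : ℝ) * (γ 0 1 : ℤ) * g) * huvR
        - ((N₁ : ℝ) * (γ 0 1 : ℤ) * v * (γ 1 1 : ℤ)) * hNR - ((N₁ : ℝ) * (γ 0 1 : ℤ) * u) * hcR
        - ((N₁ : ℝ) * u) * hdetR
    · simp [hτ', mkSL]
      field_simp
      linear_combination (N₁ : ℝ) * hcR - (c₁ : ℝ) * hNR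
    · simp [hτ', mkSL]
      field_simp
  -- slash manipulations
  have hk : ((N : ℂ) ^ 11)⁻¹ ≠ 0 :=
    inv_ne_zero (pow_ne_zero _ (Nat.cast_ne_zero.mpr (NeZero.ne N)))
  have h1 : (Δ ∣[(12 : ℤ)] alphaN N) ∣[(12 : ℤ)] (Matrix.SpecialLinearGroup.mapGL ℝ γ) =
      Δ ∣[(12 : ℤ)] alphaN N := by
    rw [deltaN_eq_smul_slash, ModularForm.smul_slash, sigma_mapGL] at h
    exact smul_right_injective _ hk h
  rw [← SlashAction.slash_mul, hmat, SlashAction.slash_mul] at h1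
  have h2 := slash_injective 12 (alphaN N) h1
  rw [SlashAction.slash_mul] at h2
  have h3 : Δ ∣[(12 : ℤ)] β = Δ := by
    have := congrArg (fun F => F ∣[(12 : ℤ)] (Matrix.SpecialLinearGroup.mapGL ℝ τ'⁻¹)) h2
    simp only [← SlashAction.slash_mul, discriminant_slash_SL] at this
    rw [mul_assoc, ← map_mul, mul_inv_cancel, map_one, mul_one] at this
    exact this
  -- conclude `N₁ = 1`
  have hN₁ : N₁ = 1 := by
    by_contra hne
    have hlt : (1 : ℝ) < N₁ := by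
      have : 1 < N₁ := lt_of_le_of_ne hN₁pos (Ne.symm hne)
      exact_mod_cast this
    refine not_discriminant_scaling (N₁ : ℝ) hlt _ (fun z => β • z)
      (fun z => coe_upperGL_smul _ _ hN₁R z) (fun z => ?_)
    rw [← discriminant_slash_upperGL, ← hβ, h3]
  rw [Gamma0_mem, ZMod.intCast_zmod_eq_zero_iff_dvd, hc, hN, hN₁, mul_one]
  exact Dvd.intro c₁ rfl


theorem deltaN_slash_eq_iff (γ : SL(2, ℤ)) :
    deltaN N ∣[(12 : ℤ)] (Matrix.SpecialLinearGroup.mapGL ℝ γ) = deltaN N ↔ γ ∈ Gamma0 N :=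
  ⟨mem_Gamma0_of_deltaN_slash_eq N γ, deltaN_slash_of_mem N γ⟩

/-- The level `Γ₀(N)` as a subgroup of `GL(2,ℝ)`. -/
abbrev Gam0 : Subgroup (GL (Fin 2) ℝ) := (Gamma0 N).map (Matrix.SpecialLinearGroup.mapGL ℝ)

theorem coe_deltaNForm : (deltaNForm N : ℍ → ℂ) = deltaN N := rfl

theorem mem_Gam0_of_deltaN_slash_eq (g : GL (Fin 2) ℝ) (hg : g ∈ 𝒮ℒ)
    (h : deltaN N ∣[(12 : ℤ)] g = deltaN N) : g ∈ Gam0 N := by
  obtain ⟨γ, rfl⟩ := hg
  exact ⟨γ, mem_Gamma0_of_deltaN_slash_eq N γ h, rfl⟩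

/-- DISTINCTNESS in `quotientFunc` form: the translates of `Δ(N z)` indexed by the cosets
`SL(2,ℤ)/Γ₀(N)` are pairwise distinct. -/
theorem quotientFunc_deltaNForm_injective :
    Function.Injective (SlashInvariantForm.quotientFunc (𝒢 := Gam0 N) (ℋ := 𝒮ℒ) (deltaNForm N)) := by
  intro q q' hqq'
  induction q using Quotient.inductionOn with
  | h a =>
    induction q' using Quotient.inductionOn with
    | h b =>
      simp only [SlashInvariantForm.quotientFunc_mk, coe_deltaNForm] at hqq'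
      apply Quotient.sound
      rw [← Quotient.eq_iff_equiv, Quotient.eq, QuotientGroup.leftRel_apply, Subgroup.mem_subgroupOf]
      apply mem_Gam0_of_deltaN_slash_eq N _ (a⁻¹ * b).2
      have := congrArg (fun F => F ∣[(12 : ℤ)] (b : GL (Fin 2) ℝ)) hqq'
      simp only [← SlashAction.slash_mul] at this
      simpa using this


theorem qParam_alphaN_smul (z : ℍ) : 𝕢 1 ((alphaN N • z : ℍ) : ℂ) = 𝕢 1 (z : ℂ) ^ N := by
  rw [coe_alphaN_smul, Function.Periodic.qParam, Function.Periodic.qParam, ← Complex.exp_nat_mul]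
  congr 1
  simp only [Complex.ofReal_one, div_one]
  ring

/-- The `q`-expansion of `Δ(N z)` is that of `Δ` with `q` replaced by `q ^ N`. -/
theorem qExpansion_deltaN_coeff (n : ℕ) :
    (qExpansion 1 (deltaN N)).coeff n =
      if N ∣ n then (qExpansion 1 Δ).coeff (n / N) else 0 := by
  have hΓ : (1 : ℝ) ∈ (Gam0 N).strictPeriods := CongruenceSubgroup.one_mem_strictPeriods_Gamma0 N
  have key := ModularFormClass.qExpansion_coeff_unique (f := deltaNForm N)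
    (c := fun n => if N ∣ n then (qExpansion 1 Δ).coeff (n / N) else 0) one_pos hΓ ?_ n
  · rw [← coe_deltaNForm]; exact key.symm
  intro τ
  have h1 := ModularForm.hasSum_qExpansion (f := CuspForm.discriminant) one_pos
    (by simp : (1 : ℝ) ∈ (𝒮ℒ : Subgroup (GL (Fin 2) ℝ)).strictPeriods) (alphaN N • τ)
  have hNpos : 0 < N := Nat.pos_of_ne_zero (NeZero.ne N)
  have hinj : Function.Injective (fun m : ℕ => N * m) := fun a b hab =>
    Nat.eq_of_mul_eq_mul_left hNpos hab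
  rw [← hinj.hasSum_iff]
  · have h2 : (deltaNForm N) τ = CuspForm.discriminant (alphaN N • τ) := rfl
    rw [h2]
    have h3 : ((fun m : ℕ => (if N ∣ m then (qExpansion 1 Δ).coeff (m / N) else 0) • 𝕢 1 (τ : ℂ) ^ m) ∘
        fun m : ℕ => N * m) = fun m => (PowerSeries.coeff m) (qExpansion 1 ⇑CuspForm.discriminant) *
          𝕢 1 ↑(alphaN N • τ) ^ m := by
      funext m
      simp only [Function.comp, Nat.mul_div_cancel_left _ hNpos, dvd_mul_right, if_true,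
        smul_eq_mul]
      rw [qParam_alphaN_smul, pow_mul]
      rfl
    rw [h3]
    exact h1
  · intro x hx
    have : ¬ N ∣ x := fun ⟨m, hm⟩ => hx ⟨m, hm.symm⟩
    simp [this]


/-- (3d) in the shape consumed by `lagrange_den_ne_zero`. -/
theorem quotientFunc_deltaNForm_eq_self
    (q : (𝒮ℒ : Subgroup (GL (Fin 2) ℝ)) ⧸ (Gam0 N).subgroupOf 𝒮ℒ)
    (h : SlashInvariantForm.quotientFunc (𝒢 := Gam0 N) (ℋ := 𝒮ℒ) (deltaNForm N) q =
      ⇑(deltaNForm N)) :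
    q = ((1 : (𝒮ℒ : Subgroup (GL (Fin 2) ℝ))) : 𝒮ℒ ⧸ (Gam0 N).subgroupOf 𝒮ℒ) := by
  apply quotientFunc_deltaNForm_injective N
  rw [h]
  show _ = SlashInvariantForm.quotientFunc (𝒢 := Gam0 N) (ℋ := 𝒮ℒ) (deltaNForm N) ⟦1⟧
  rw [SlashInvariantForm.quotientFunc_mk]
  simp

theorem deltaN_qExpansion_rational
    (hΔ : ∀ n, ∃ r : ℚ, (qExpansion 1 Δ).coeff n = (r : ℂ)) (n : ℕ) :
    ∃ r : ℚ, (qExpansion 1 (deltaN N)).coeff n = (r : ℂ) := by
  rw [qExpansion_deltaN_coeff]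
  split_ifs
  · exact hΔ _
  · exact ⟨0, by simp⟩

theorem deltaN_qExpansion_map (σ : ℂ →+* ℂ)
    (hΔ : (qExpansion 1 Δ).map σ = qExpansion 1 Δ) :
    (qExpansion 1 (deltaN N)).map σ = qExpansion 1 (deltaN N) := by
  ext n
  rw [PowerSeries.coeff_map, qExpansion_deltaN_coeff]
  split_ifs
  · have := congrArg (PowerSeries.coeff (n / N)) hΔ
    rwa [PowerSeries.coeff_map] at this
  · simp

theorem deltaN_qExpansion_map_of_rational (σ : ℂ →+* ℂ)
    (hΔ : ∀ n, ∃ r : ℚ, (qExpansion 1 Δ).coeff n = (r : ℂ)) :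
    (qExpansion 1 (deltaN N)).map σ = qExpansion 1 (deltaN N) := by
  apply deltaN_qExpansion_map
  ext n
  obtain ⟨r, hr⟩ := hΔ n
  rw [PowerSeries.coeff_map, hr, map_ratCast]


end Fermat.Agent.S23
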