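/-
S23, piece (2): symmetric functions of the `SL(2,ℤ)`-translates of forms of level `𝒢`
are level-one forms.  Built on Mathlib's `SlashInvariantForm.quotientFunc`.

* `esymmFun f r`, `esymmForm f r : ModularForm 𝒮ℒ (k * r)`, `esymmCuspForm f r hr`;
  `esymm_root`: `f` is a root of `∏_q (X - f_q)`.
* `lagrangeFun f A s`, `lagrangeForm f A s : ModularForm 𝒮ℒ (kf + kA * s)`;
  `lagrange_identity`: `∑_s (-1)^s Λ_s A^(μ-1-s) = f ∏_{q ≠ 1} (A - A_q)`.
* `lagrange_den_ne_zero`.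
-/
import Mathlib

set_option autoImplicit false

open UpperHalfPlane ModularForm SlashInvariantForm Finset
open scoped MatrixGroups ModularForm Manifold Topology

namespace Fermat.Agent.S23

section abstract

variable {ι : Type*}

/-- slash of an elementary symmetric sum, general `g`. -/
lemma esymmSum_slash_GL {k : ℤ} (F : ι → ℍ → ℂ) (g : GL (Fin 2) ℝ) (r : ℕ) (T : Finset ι) :
    (∑ S ∈ powersetCard r T, ∏ q ∈ S, F q) ∣[k * r] g =
      |g.det.val| ^ ((r : ℤ) - 1) • ∑ S ∈ powersetCard r T, ∏ q ∈ S, (F q ∣[k] g) := by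
  rw [SlashAction.sum_slash, Finset.smul_sum]
  refine Finset.sum_congr rfl fun S hS => ?_
  rw [mem_powersetCard] at hS
  rw [← hS.2, ModularForm.prod_slash]

lemma lagrangeSum_slash_GL [DecidableEq ι] {kf kA : ℤ} (F A : ι → ℍ → ℂ) (g : GL (Fin 2) ℝ)
    (s : ℕ) (T : Finset ι) :
    (∑ q ∈ T, F q * ∑ S ∈ powersetCard s (T.erase q), ∏ q' ∈ S, A q') ∣[kf + kA * s] g =
      ∑ q ∈ T, |g.det.val| • ((F q ∣[kf] g) * (|g.det.val| ^ ((s : ℤ) - 1) •
        ∑ S ∈ powersetCard s (T.erase q), ∏ q' ∈ S, (A q' ∣[kA] g))) := by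
  rw [SlashAction.sum_slash]
  refine Finset.sum_congr rfl fun q _ => ?_
  rw [ModularForm.mul_slash, esymmSum_slash_GL]

lemma esymmSum_perm [Fintype ι] (F : ι → ℍ → ℂ) (σ : Equiv.Perm ι) (r : ℕ) :
    ∑ S ∈ powersetCard r (univ : Finset ι), ∏ q ∈ S, F (σ q) =
      ∑ S ∈ powersetCard r (univ : Finset ι), ∏ q ∈ S, F q := by
  conv_rhs => rw [← Finset.map_univ_equiv σ, Finset.powersetCard_map, Finset.sum_map]
  refine Finset.sum_congr rfl fun S _ => ?_
  simp [Finset.prod_map]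

lemma lagrangeSum_perm [Fintype ι] [DecidableEq ι] (F A : ι → ℍ → ℂ) (σ : Equiv.Perm ι) (s : ℕ) :
    ∑ q, F (σ q) * ∑ S ∈ powersetCard s ((univ : Finset ι).erase q), ∏ q' ∈ S, A (σ q') =
      ∑ q, F q * ∑ S ∈ powersetCard s ((univ : Finset ι).erase q), ∏ q' ∈ S, A q' := by
  rw [← Equiv.sum_comp σ (fun q => F q * ∑ S ∈ powersetCard s ((univ : Finset ι).erase q),
    ∏ q' ∈ S, A q')]
  refine Finset.sum_congr rfl fun q _ => ?_
  congr 1
  have : (univ : Finset ι).erase (σ q) = ((univ : Finset ι).erase q).map σ.toEmbedding := by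
    rw [Finset.map_erase, Finset.map_univ_equiv]; rfl
  rw [this, Finset.powersetCard_map, Finset.sum_map]
  refine Finset.sum_congr rfl fun S _ => ?_
  simp [Finset.prod_map]

lemma isBoundedAtImInfty_esymmSum (F : ι → ℍ → ℂ) (hF : ∀ q, IsBoundedAtImInfty (F q))
    (r : ℕ) (T : Finset ι) :
    IsBoundedAtImInfty (∑ S ∈ powersetCard r T, ∏ q ∈ S, F q) := by
  have hF' : ∀ q, F q ∈ Filter.boundedFilterSubalgebra ℂ atImInfty := hF
  have : (∑ S ∈ powersetCard r T, ∏ q ∈ S, F q) ∈ Filter.boundedFilterSubalgebra ℂ atImInfty :=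
    sum_mem fun S _ => prod_mem fun q _ => hF' q
  exact this

lemma isZeroAtImInfty_esymmSum (F : ι → ℍ → ℂ) (hF : ∀ q, IsZeroAtImInfty (F q))
    (r : ℕ) (hr : 0 < r) (T : Finset ι) :
    IsZeroAtImInfty (∑ S ∈ powersetCard r T, ∏ q ∈ S, F q) := by
  unfold IsZeroAtImInfty Filter.ZeroAtFilter
  have h0 : (0 : ℂ) = ∑ S ∈ powersetCard r T, (0 : ℂ) := by simp
  rw [h0]
  simp_rw [Finset.sum_fn, Finset.prod_fn]
  refine tendsto_finsetSum _ fun S hS => ?_
  rw [mem_powersetCard] at hS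
  have h1 : (0 : ℂ) = ∏ q ∈ S, (0 : ℂ) := by
    rw [Finset.prod_const, hS.2, zero_pow hr.ne']
  rw [h1]
  exact tendsto_finsetProd _ fun q _ => hF q

lemma prod_sub_eq_sum_esymmSum (x : ι → ℂ) (T : Finset ι) (a : ℂ) :
    ∏ q ∈ T, (a - x q) =
      ∑ r ∈ range (#T + 1), (-1) ^ r * (∑ S ∈ powersetCard r T, ∏ q ∈ S, x q) * a ^ (#T - r) := by
  have h := congrArg (Polynomial.eval a) (Multiset.prod_X_sub_X_eq_sum_esymm (T.val.map x))
  rw [Polynomial.eval_multiset_prod, Multiset.map_map, Multiset.map_map] at h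
  simp only [Function.comp_def, Polynomial.eval_sub, Polynomial.eval_X, Polynomial.eval_C,
    Multiset.card_map, Finset.card_val, Polynomial.eval_finsetSum, Polynomial.eval_mul,
    Polynomial.eval_pow, Polynomial.eval_neg, Polynomial.eval_one, Finset.esymm_map_val] at h
  rw [Finset.prod_eq_multiset_prod, h]
  refine Finset.sum_congr rfl fun r _ => ?_
  ring

lemma esymmSum_root [Fintype ι] (x : ι → ℂ) (i₀ : ι) :
    ∑ r ∈ range (Fintype.card ι + 1), (-1) ^ r * (∑ S ∈ powersetCard r (univ : Finset ι),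
      ∏ q ∈ S, x q) * x i₀ ^ (Fintype.card ι - r) = 0 := by
  rw [← Finset.card_univ, ← prod_sub_eq_sum_esymmSum]
  exact Finset.prod_eq_zero (mem_univ i₀) (sub_self _)

lemma lagrangeSum_eval [Fintype ι] [DecidableEq ι] (y x : ι → ℂ) (i₀ : ι) :
    ∑ s ∈ range (Fintype.card ι), (-1) ^ s *
      (∑ q, y q * ∑ S ∈ powersetCard s ((univ : Finset ι).erase q), ∏ q' ∈ S, x q') *
        x i₀ ^ (Fintype.card ι - 1 - s) =
      y i₀ * ∏ q ∈ (univ : Finset ι).erase i₀, (x i₀ - x q) := by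
  have hcard : ∀ q : ι, #((univ : Finset ι).erase q) = Fintype.card ι - 1 := fun q => by
    rw [Finset.card_erase_of_mem (mem_univ q), Finset.card_univ]
  have hpos : 0 < Fintype.card ι := Fintype.card_pos_iff.mpr ⟨i₀⟩
  have key : ∀ q : ι, y q * ∏ q' ∈ (univ : Finset ι).erase q, (x i₀ - x q') =
      ∑ s ∈ range (Fintype.card ι), (-1) ^ s * (y q *
        ∑ S ∈ powersetCard s ((univ : Finset ι).erase q), ∏ q' ∈ S, x q') *
          x i₀ ^ (Fintype.card ι - 1 - s) := fun q => by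
    rw [prod_sub_eq_sum_esymmSum, hcard, Nat.sub_add_cancel hpos, Finset.mul_sum]
    refine Finset.sum_congr rfl fun s _ => ?_
    ring
  calc _ = ∑ q, y q * ∏ q' ∈ (univ : Finset ι).erase q, (x i₀ - x q') := by
        simp_rw [key]
        rw [Finset.sum_comm]
        refine Finset.sum_congr rfl fun s _ => ?_
        rw [Finset.mul_sum, Finset.sum_mul]
    _ = _ := by
        rw [Finset.sum_eq_single i₀]
        · intro q _ hq
          rw [Finset.prod_eq_zero (i := i₀) (by simp [hq.symm]) (sub_self _), mul_zero]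
        · simp

end abstract

variable {𝒢 : Subgroup (GL (Fin 2) ℝ)} [𝒢.IsArithmetic] {F : Type*} [FunLike F ℍ ℂ] {k : ℤ}

local notation "𝒬" => 𝒮ℒ ⧸ (𝒢.subgroupOf 𝒮ℒ)

omit [𝒢.IsArithmetic] in
lemma quotientFunc_one [SlashInvariantFormClass F 𝒢 k] (f : F) :
    quotientFunc f ((1 : 𝒮ℒ) : 𝒬) = ⇑f := by
  change quotientFunc f ⟦(1 : 𝒮ℒ)⟧ = ⇑f
  rw [quotientFunc_mk]
  simp

omit [𝒢.IsArithmetic] in
lemma quotientFunc_mdiff [ModularFormClass F 𝒢 k] (f : F) (q : 𝒬) :
    MDiff (quotientFunc f q) := by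
  induction q using Quotient.inductionOn with
  | h r => exact (ModularForm.translate f r.val⁻¹).holo'

lemma quotientFunc_bdd [ModularFormClass F 𝒢 k] (f : F) (q : 𝒬) (g : GL (Fin 2) ℝ)
    (hc : IsCusp (g • OnePoint.infty) 𝒮ℒ) : IsBoundedAtImInfty (quotientFunc f q ∣[k] g) := by
  induction q using Quotient.inductionOn with
  | h r =>
    refine (ModularForm.translate f r.val⁻¹).bdd_at_cusps' ?_ g rfl
    simpa using hc.of_isFiniteRelIndex_conj r.2

lemma quotientFunc_zero_at [CuspFormClass F 𝒢 k] (f : F) (q : 𝒬) (g : GL (Fin 2) ℝ)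
    (hc : IsCusp (g • OnePoint.infty) 𝒮ℒ) : IsZeroAtImInfty (quotientFunc f q ∣[k] g) := by
  induction q using Quotient.inductionOn with
  | h r =>
    refine (CuspForm.translate f r.val⁻¹).zero_at_cusps' ?_ g rfl
    simpa using hc.of_isFiniteRelIndex_conj r.2

/-! ### Elementary symmetric functions -/

/-- The `r`-th elementary symmetric function of the `SL(2,ℤ)`-translates of `f`. -/
noncomputable def esymmFun [SlashInvariantFormClass F 𝒢 k] (f : F) (r : ℕ) : ℍ → ℂ :=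
  letI := Fintype.ofFinite 𝒬
  ∑ S ∈ powersetCard r (univ : Finset 𝒬), ∏ q ∈ S, quotientFunc f q

lemma esymmFun_eq [SlashInvariantFormClass F 𝒢 k] [Fintype 𝒬] (f : F) (r : ℕ) :
    esymmFun f r = ∑ S ∈ powersetCard r (univ : Finset 𝒬), ∏ q ∈ S, quotientFunc f q := by
  unfold esymmFun
  congr!

lemma esymmFun_apply [SlashInvariantFormClass F 𝒢 k] [Fintype 𝒬] (f : F) (r : ℕ) (z : ℍ) :
    esymmFun f r z =
      ∑ S ∈ powersetCard r (univ : Finset 𝒬), ∏ q ∈ S, quotientFunc f q z := by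
  rw [esymmFun_eq, Finset.sum_apply]
  simp_rw [Finset.prod_apply]

lemma esymmFun_zero [SlashInvariantFormClass F 𝒢 k] (f : F) : esymmFun f 0 = 1 := by
  let := Fintype.ofFinite 𝒬
  rw [esymmFun_eq]
  simp

lemma esymmFun_slash [SlashInvariantFormClass F 𝒢 k] (f : F) (r : ℕ) {h : GL (Fin 2) ℝ}
    (hh : h ∈ 𝒮ℒ) : esymmFun f r ∣[k * r] h = esymmFun f r := by
  let := Fintype.ofFinite 𝒬
  rw [esymmFun_eq, esymmSum_slash_GL, Subgroup.HasDetPlusMinusOne.abs_det hh, one_zpow, one_smul]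
  simp_rw [quotientFunc_smul f hh]
  exact esymmSum_perm (fun q => quotientFunc f q) (MulAction.toPerm (⟨h, hh⟩⁻¹ : 𝒮ℒ)) r

lemma esymmFun_mdiff [ModularFormClass F 𝒢 k] (f : F) (r : ℕ) : MDiff (esymmFun f r) := by
  let := Fintype.ofFinite 𝒬
  rw [esymmFun_eq]
  exact .sum fun S _ => .prod fun q _ => quotientFunc_mdiff f q

/-- `esymmFun` as a level-one modular form. -/
noncomputable def esymmForm [ModularFormClass F 𝒢 k] (f : F) (r : ℕ) :
    ModularForm 𝒮ℒ (k * r) where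
  toFun := esymmFun f r
  slash_action_eq' _ hh := esymmFun_slash f r hh
  holo' := esymmFun_mdiff f r
  bdd_at_cusps' {c} hc g hg := by
    let := Fintype.ofFinite 𝒬
    subst hg
    rw [esymmFun_eq, esymmSum_slash_GL]
    exact (isBoundedAtImInfty_esymmSum _ (fun q => quotientFunc_bdd f q g hc) r _).const_smul_left _

@[simp] lemma coe_esymmForm [ModularFormClass F 𝒢 k] (f : F) (r : ℕ) :
    ⇑(esymmForm f r) = esymmFun f r := rfl

/-- `esymmFun` as a level-one cusp form, for `0 < r`. -/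
noncomputable def esymmCuspForm [CuspFormClass F 𝒢 k] (f : F) (r : ℕ) (hr : 0 < r) :
    CuspForm 𝒮ℒ (k * r) where
  toFun := esymmFun f r
  slash_action_eq' _ hh := esymmFun_slash f r hh
  holo' := esymmFun_mdiff f r
  zero_at_cusps' {c} hc g hg := by
    let := Fintype.ofFinite 𝒬
    subst hg
    rw [esymmFun_eq, esymmSum_slash_GL]
    exact (isZeroAtImInfty_esymmSum _ (fun q => quotientFunc_zero_at f q g hc) r hr _).smul _

@[simp] lemma coe_esymmCuspForm [CuspFormClass F 𝒢 k] (f : F) (r : ℕ) (hr : 0 < r) :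
    ⇑(esymmCuspForm f r hr) = esymmFun f r := rfl

/-- `f` is a root of the monic polynomial `∏_q (X - f_q)`, whose coefficients are (up to sign)
the `esymmFun f r`. -/
theorem esymm_root [SlashInvariantFormClass F 𝒢 k] (f : F) (z : ℍ) :
    ∑ r ∈ range (Nat.card 𝒬 + 1), (-1) ^ r * esymmFun f r z * f z ^ (Nat.card 𝒬 - r) = 0 := by
  let := Fintype.ofFinite 𝒬
  have h := esymmSum_root (fun q : 𝒬 => quotientFunc f q z) ((1 : 𝒮ℒ) : 𝒬)
  rw [quotientFunc_one] at h
  rw [Nat.card_eq_fintype_card]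
  simpa only [esymmFun_apply] using h

/-! ### Lagrange interpolation sums -/

variable {F' : Type*} [FunLike F' ℍ ℂ] {kf kA : ℤ}

/-- `Λ_s = ∑_q f_q e_s(A_{q'} : q' ≠ q)`: up to sign the coefficient of `X^(μ-1-s)` in the
Lagrange interpolation numerator `∑_q f_q ∏_{q' ≠ q} (X - A_{q'})`. -/
noncomputable def lagrangeFun [SlashInvariantFormClass F 𝒢 kf] [SlashInvariantFormClass F' 𝒢 kA]
    (f : F) (A : F') (s : ℕ) : ℍ → ℂ :=
  letI := Fintype.ofFinite 𝒬
  letI := Classical.decEq 𝒬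
  ∑ q : 𝒬, quotientFunc f q *
    ∑ S ∈ powersetCard s ((univ : Finset 𝒬).erase q), ∏ q' ∈ S, quotientFunc A q'

lemma lagrangeFun_eq [SlashInvariantFormClass F 𝒢 kf] [SlashInvariantFormClass F' 𝒢 kA]
    [Fintype 𝒬] [DecidableEq 𝒬] (f : F) (A : F') (s : ℕ) :
    lagrangeFun f A s = ∑ q : 𝒬, quotientFunc f q *
      ∑ S ∈ powersetCard s ((univ : Finset 𝒬).erase q), ∏ q' ∈ S, quotientFunc A q' := by
  unfold lagrangeFun
  congr!

lemma lagrangeFun_apply [SlashInvariantFormClass F 𝒢 kf] [SlashInvariantFormClass F' 𝒢 kA]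
    [Fintype 𝒬] [DecidableEq 𝒬] (f : F) (A : F') (s : ℕ) (z : ℍ) :
    lagrangeFun f A s z = ∑ q : 𝒬, quotientFunc f q z *
      ∑ S ∈ powersetCard s ((univ : Finset 𝒬).erase q), ∏ q' ∈ S, quotientFunc A q' z := by
  rw [lagrangeFun_eq, Finset.sum_apply]
  refine Finset.sum_congr rfl fun q _ => ?_
  rw [Pi.mul_apply, Finset.sum_apply]
  simp_rw [Finset.prod_apply]

lemma lagrangeFun_slash [SlashInvariantFormClass F 𝒢 kf] [SlashInvariantFormClass F' 𝒢 kA]
    (f : F) (A : F') (s : ℕ) {h : GL (Fin 2) ℝ} (hh : h ∈ 𝒮ℒ) :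
    lagrangeFun f A s ∣[kf + kA * s] h = lagrangeFun f A s := by
  let := Fintype.ofFinite 𝒬
  let := Classical.decEq 𝒬
  rw [lagrangeFun_eq, lagrangeSum_slash_GL, Subgroup.HasDetPlusMinusOne.abs_det hh]
  simp_rw [one_zpow, one_smul, quotientFunc_smul f hh, quotientFunc_smul A hh]
  exact lagrangeSum_perm (fun q => quotientFunc f q) (fun q => quotientFunc A q)
    (MulAction.toPerm (⟨h, hh⟩⁻¹ : 𝒮ℒ)) s

lemma lagrangeFun_mdiff [ModularFormClass F 𝒢 kf] [ModularFormClass F' 𝒢 kA]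
    (f : F) (A : F') (s : ℕ) : MDiff (lagrangeFun f A s) := by
  let := Fintype.ofFinite 𝒬
  let := Classical.decEq 𝒬
  rw [lagrangeFun_eq]
  exact .sum fun q _ => (quotientFunc_mdiff f q).mul
    (.sum fun S _ => .prod fun q' _ => quotientFunc_mdiff A q')

/-- `lagrangeFun` as a level-one modular form of weight `kf + kA * s`. -/
noncomputable def lagrangeForm [ModularFormClass F 𝒢 kf] [ModularFormClass F' 𝒢 kA]
    (f : F) (A : F') (s : ℕ) : ModularForm 𝒮ℒ (kf + kA * s) where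
  toFun := lagrangeFun f A s
  slash_action_eq' _ hh := lagrangeFun_slash f A s hh
  holo' := lagrangeFun_mdiff f A s
  bdd_at_cusps' {c} hc g hg := by
    let := Fintype.ofFinite 𝒬
    let := Classical.decEq 𝒬
    subst hg
    rw [lagrangeFun_eq, lagrangeSum_slash_GL]
    have hmem : ∀ q ∈ (univ : Finset 𝒬), IsBoundedAtImInfty
        (|g.det.val| • ((quotientFunc f q ∣[kf] g) * (|g.det.val| ^ ((s : ℤ) - 1) •
          ∑ S ∈ powersetCard s ((univ : Finset 𝒬).erase q),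
            ∏ q' ∈ S, (quotientFunc A q' ∣[kA] g)))) := fun q _ =>
      ((quotientFunc_bdd f q g hc).mul ((isBoundedAtImInfty_esymmSum _
        (fun q' => quotientFunc_bdd A q' g hc) s _).const_smul_left _)).const_smul_left _
    exact (Filter.boundedFilterSubalgebra ℂ atImInfty).sum_mem hmem

@[simp] lemma coe_lagrangeForm [ModularFormClass F 𝒢 kf] [ModularFormClass F' 𝒢 kA]
    (f : F) (A : F') (s : ℕ) : ⇑(lagrangeForm f A s) = lagrangeFun f A s := rfl

/-- **Lagrange interpolation identity**: evaluating the interpolation numerator at `X = A`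
leaves only the term of the trivial coset. -/
theorem lagrange_identity [SlashInvariantFormClass F 𝒢 kf] [SlashInvariantFormClass F' 𝒢 kA]
    [Fintype 𝒬] [DecidableEq 𝒬] (f : F) (A : F') (z : ℍ) :
    ∑ s ∈ range (Nat.card 𝒬), (-1) ^ s * lagrangeFun f A s z * A z ^ (Nat.card 𝒬 - 1 - s) =
      f z * ∏ q ∈ (univ : Finset 𝒬).erase ((1 : 𝒮ℒ) : 𝒬), (A z - quotientFunc A q z) := by
  have h := lagrangeSum_eval (fun q : 𝒬 => quotientFunc f q z) (fun q : 𝒬 => quotientFunc A q z)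
    ((1 : 𝒮ℒ) : 𝒬)
  simp only [quotientFunc_one] at h
  rw [Nat.card_eq_fintype_card]
  simpa only [lagrangeFun_apply] using h

omit [𝒢.IsArithmetic] in
/-- If the translates `A_q`, `q ≠ 1`, are all different from `A`, the Lagrange denominator
`∏_{q ≠ 1} (A - A_q)` is not identically zero. -/
theorem lagrange_den_ne_zero [ModularFormClass F' 𝒢 kA] [Fintype 𝒬] [DecidableEq 𝒬] (A : F')
    (hA : ∀ q : 𝒬, quotientFunc A q = ⇑A → q = ((1 : 𝒮ℒ) : 𝒬)) :
    (fun z : ℍ => ∏ q ∈ (univ : Finset 𝒬).erase ((1 : 𝒮ℒ) : 𝒬), (A z - quotientFunc A q z))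
      ≠ 0 := by
  intro h0
  have h1 : ∏ q ∈ (univ : Finset 𝒬).erase ((1 : 𝒮ℒ) : 𝒬), (⇑A - quotientFunc A q) = 0 := by
    ext z
    simpa [Finset.prod_apply] using congrFun h0 z
  rw [UpperHalfPlane.prod_eq_zero_iff
    (fun q _ => (ModularFormClass.holo A).sub (quotientFunc_mdiff A q))] at h1
  obtain ⟨q, hq, hq0⟩ := h1
  exact (Finset.ne_of_mem_erase hq) (hA q (sub_eq_zero.mp hq0).symm)

/-- The Lagrange identity for the constant form `1`: the denominator `∏_{q ≠ 1} (A - A_q)`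
(i.e. `Φ'(A)`) as a polynomial in `A` with level-one coefficients `lagrangeFun 1 A s`. -/
theorem lagrange_identity_one [𝒢.HasDetPlusMinusOne] [SlashInvariantFormClass F' 𝒢 kA]
    [Fintype 𝒬] [DecidableEq 𝒬] (A : F') (z : ℍ) :
    ∑ s ∈ range (Nat.card 𝒬), (-1) ^ s * lagrangeFun (1 : ModularForm 𝒢 0) A s z *
        A z ^ (Nat.card 𝒬 - 1 - s) =
      ∏ q ∈ (univ : Finset 𝒬).erase ((1 : 𝒮ℒ) : 𝒬), (A z - quotientFunc A q z) := by
  rw [lagrange_identity]
  simp

/-! ### Adaptors in the shapes of the S23 interface (E1) -/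

theorem esymmFun_mf [ModularFormClass F 𝒢 k] (g : F) (j : ℕ) :
    ∃ C : ModularForm 𝒮ℒ (k * j), ⇑C = esymmFun g j :=
  ⟨esymmForm g j, rfl⟩

theorem lagrangeFun_mf [ModularFormClass F 𝒢 kf] [ModularFormClass F' 𝒢 kA]
    (f : F) (A : F') (s : ℕ) : ∃ C : ModularForm 𝒮ℒ (kf + kA * s), ⇑C = lagrangeFun f A s :=
  ⟨lagrangeForm f A s, rfl⟩

theorem esymmFun_isZeroAtImInfty [CuspFormClass F 𝒢 k] (g : F) {j : ℕ} (hj : 1 ≤ j) :
    IsZeroAtImInfty (esymmFun g j) := by
  let := Fintype.ofFinite 𝒬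
  rw [esymmFun_eq]
  refine isZeroAtImInfty_esymmSum _ (fun q => ?_) j hj _
  have hc : IsCusp ((1 : GL (Fin 2) ℝ) • OnePoint.infty) 𝒮ℒ := by
    rw [one_smul]
    exact Subgroup.isCusp_of_mem_strictPeriods (h := 1) one_pos (by simp)
  simpa using quotientFunc_zero_at g q 1 hc

end Fermat.Agent.S23
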