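import Mathlib

set_option autoImplicit false

/-!
# Galois descent for finite-dimensional spaces of `q`-expansions

* `exists_ringEquiv_apply_ne`: the fixed field of `Aut(ℂ)` is `ℚ`.
* `span_rational_eq_top`: a finite-dimensional space of sequences which is stable under
  coefficientwise conjugation by every `σ ∈ Aut(ℂ)` is spanned by its rational points.
-/

namespace Fermat.Agent.S23

open MvPolynomial

/-- Extension of automorphisms: an automorphism of the polynomial ring on a transcendence basis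
of `ℂ` over a subfield `A` extends to an automorphism of `ℂ`. -/
theorem exists_ringEquiv_extending {A : Type*} [Field A] [Algebra A ℂ] {ι : Type*} (v : ι → ℂ)
    (hv : IsTranscendenceBasis A v) (e : MvPolynomial ι A ≃+* MvPolynomial ι A) :
    ∃ σ : ℂ ≃+* ℂ, ∀ p : MvPolynomial ι A, σ (aeval v p) = aeval v (e p) := by
  let _ := IsAlgClosed.isAlgClosure_of_transcendence_basis v hv
  let a : MvPolynomial ι A ≃ₐ[A] Algebra.adjoin A (Set.range v) := hv.1.aevalEquiv
  let e' : Algebra.adjoin A (Set.range v) ≃+* Algebra.adjoin A (Set.range v) :=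
    (a.symm.toRingEquiv.trans e).trans a.toRingEquiv
  refine ⟨IsAlgClosure.equivOfEquiv ℂ ℂ e', fun p => ?_⟩
  have h1 : ∀ p : MvPolynomial ι A,
      aeval v p = algebraMap (Algebra.adjoin A (Set.range v)) ℂ (a p) :=
    fun p => (hv.1.algebraMap_aevalEquiv p).symm
  rw [h1 p, IsAlgClosure.equivOfEquiv_algebraMap, h1 (e p)]
  congr 1
  simp [e']

/-- The transcendental case. -/
theorem exists_ringEquiv_apply_ne_of_transcendental (x : ℂ) (hx : Transcendental ℚ x) :
    ∃ σ : ℂ ≃+* ℂ, σ x ≠ x := by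
  classical
  have hs : AlgebraicIndepOn ℚ id ({x} : Set ℂ) := by
    have : AlgebraicIndependent ℚ (fun i : ({x} : Set ℂ) => (i : ℂ)) :=
      (algebraicIndependent_singleton_iff (⟨x, rfl⟩ : ({x} : Set ℂ))).mpr hx
    exact this
  obtain ⟨t, hst, ht⟩ := exists_isTranscendenceBasis_superset hs
  let x0 : t := ⟨x, hst rfl⟩
  let up : MvPolynomial t ℚ →ₐ[ℚ] MvPolynomial t ℚ :=
    aeval fun i => X i + if i = x0 then 1 else 0
  let down : MvPolynomial t ℚ →ₐ[ℚ] MvPolynomial t ℚ :=
    aeval fun i => X i - if i = x0 then 1 else 0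
  have h1 : up.comp down = AlgHom.id ℚ _ := by
    ext i
    simp [up, down]
  have h2 : down.comp up = AlgHom.id ℚ _ := by
    ext i
    simp [up, down]
  let e : MvPolynomial t ℚ ≃ₐ[ℚ] MvPolynomial t ℚ := AlgEquiv.ofAlgHom up down h1 h2
  obtain ⟨σ, hσ⟩ := exists_ringEquiv_extending (fun i : t => (i : ℂ)) ht e.toRingEquiv
  refine ⟨σ, ?_⟩
  have := hσ (X x0)
  simp only [aeval_X] at this
  have h3 : e.toRingEquiv (X x0) = X x0 + 1 := by
    simp [e, up]
  rw [h3] at this
  simp only [map_add, aeval_X, map_one] at this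
  change σ x = x + 1 at this
  rw [this]
  simp

/-- The algebraic case. -/
theorem exists_ringEquiv_apply_ne_of_isAlgebraic (x : ℂ) (hx : IsAlgebraic ℚ x)
    (hx' : x ∉ Set.range ((↑) : ℚ → ℂ)) : ∃ σ : ℂ ≃+* ℂ, σ x ≠ x := by
  classical
  let A : IntermediateField ℚ ℂ := algebraicClosure ℚ ℂ
  have hxA : x ∈ A := (mem_algebraicClosure_iff).mpr hx
  have : IsAlgClosure ℚ A := algebraicClosure.isAlgClosure ℚ ℂ
  have : IsGalois ℚ A := inferInstance
  obtain ⟨τ, hτ⟩ : ∃ τ : A ≃ₐ[ℚ] A, τ ⟨x, hxA⟩ ≠ ⟨x, hxA⟩ := by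
    by_contra hcon
    push Not at hcon
    have hbot : (⟨x, hxA⟩ : A) ∈ (⊥ : IntermediateField ℚ A) :=
      (InfiniteGalois.mem_bot_iff_fixed _).mpr hcon
    rw [IntermediateField.mem_bot] at hbot
    obtain ⟨r, hr⟩ := hbot
    apply hx'
    refine ⟨r, ?_⟩
    have := congrArg (Subtype.val) hr
    simpa using this
  obtain ⟨s, hs⟩ := exists_isTranscendenceBasis A ℂ
  obtain ⟨σ, hσ⟩ := exists_ringEquiv_extending (fun i : s => (i : ℂ)) hs
    (MvPolynomial.mapEquiv s τ.toRingEquiv)
  refine ⟨σ, ?_⟩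
  have := hσ (C ⟨x, hxA⟩)
  simp only [aeval_C, MvPolynomial.mapEquiv_apply, map_C] at this
  have h1 : algebraMap A ℂ ⟨x, hxA⟩ = x := rfl
  rw [h1] at this
  rw [this]
  intro h
  apply hτ
  apply Subtype.ext
  exact h

/-- **The fixed field of `Aut(ℂ)` is `ℚ`.** -/
theorem exists_ringEquiv_apply_ne (x : ℂ) (hx : x ∉ Set.range ((↑) : ℚ → ℂ)) :
    ∃ σ : ℂ ≃+* ℂ, σ x ≠ x := by
  by_cases h : IsAlgebraic ℚ x
  · exact exists_ringEquiv_apply_ne_of_isAlgebraic x h hx
  · exact exists_ringEquiv_apply_ne_of_transcendental x h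

/-- A complex number fixed by all field automorphisms of `ℂ` is rational. -/
theorem exists_rat_eq_of_forall_ringEquiv (x : ℂ) (h : ∀ σ : ℂ ≃+* ℂ, σ x = x) :
    ∃ r : ℚ, x = (r : ℂ) := by
  by_contra hcon
  obtain ⟨σ, hσ⟩ := exists_ringEquiv_apply_ne x (by
    rintro ⟨r, hr⟩
    exact hcon ⟨r, hr.symm⟩)
  exact hσ (h σ)


/-- **Galois descent.** A finite-dimensional space of sequences `ℕ → ℂ` stable under the
coefficientwise action of all `σ ∈ Aut(ℂ)` is spanned by its rational points. -/
theorem span_rational_eq_top {V : Type*} [AddCommGroup V] [Module ℂ V] [FiniteDimensional ℂ V]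
    (Q : V →ₗ[ℂ] (ℕ → ℂ)) (hQ : Function.Injective Q)
    (hσ : ∀ (σ : ℂ ≃+* ℂ) (f : V), ∃ g : V, ∀ n, Q g n = σ (Q f n)) :
    Submodule.span ℂ {f : V | ∀ n, ∃ r : ℚ, Q f n = (r : ℂ)} = ⊤ := by
  classical
  -- the coordinate functionals
  let φ : ℕ → Module.Dual ℂ V := fun n => (LinearMap.proj n).comp Q
  have hφ : ∀ n f, φ n f = Q f n := fun n f => rfl
  -- they span the dual
  have hφspan : Submodule.span ℂ (Set.range φ) = ⊤ := by
    rw [← Subspace.dualCoannihilator_dualAnnihilator_eq (W := Submodule.span ℂ (Set.range φ))]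
    have : (Submodule.span ℂ (Set.range φ)).dualCoannihilator = ⊥ := by
      rw [eq_bot_iff]
      intro f hf
      rw [Submodule.mem_dualCoannihilator] at hf
      rw [Submodule.mem_bot]
      apply hQ
      ext n
      rw [map_zero]
      exact hf (φ n) (Submodule.subset_span ⟨n, rfl⟩)
    rw [this, Submodule.dualAnnihilator_bot]
  obtain ⟨b, hbsub, hbspan, hbli⟩ := exists_linearIndependent ℂ (Set.range φ)
  rw [hφspan] at hbspan
  have hbfin : b.Finite := hbli.setFinite
  have : Fintype b := hbfin.fintype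
  let B : Module.Basis b ℂ (Module.Dual ℂ V) := Module.Basis.mk hbli (by
    rw [Subtype.range_coe_subtype, Set.ofPred_mem_eq, hbspan])
  have hcard : Fintype.card b = Module.finrank ℂ V := by
    rw [← Subspace.dual_finrank_eq, Module.finrank_eq_card_basis B]
  -- evaluation at the chosen functionals
  let ev : V →ₗ[ℂ] (b → ℂ) := LinearMap.pi fun l => (l : Module.Dual ℂ V)
  have hev : ∀ f (l : b), ev f l = (l : Module.Dual ℂ V) f := fun f l => rfl
  have hev_inj : Function.Injective ev := by
    rw [← LinearMap.ker_eq_bot, LinearMap.ker_eq_bot']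
    intro f hf
    -- every functional vanishes on `f`
    have h1 : ∀ l : Module.Dual ℂ V, l f = 0 := by
      intro l
      have hl : l ∈ Submodule.span ℂ b := by rw [hbspan]; trivial
      induction hl using Submodule.span_induction with
      | mem x hx => exact congrFun hf ⟨x, hx⟩
      | zero => simp
      | add x y _ _ hx hy => rw [LinearMap.add_apply, hx, hy, add_zero]
      | smul c x _ hx => rw [LinearMap.smul_apply, hx, smul_zero]
    apply hQ
    ext n
    rw [map_zero]
    exact h1 (φ n)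
  have hev_surj : Function.Surjective ev :=
    (LinearMap.injective_iff_surjective_of_finrank_eq_finrank (by simp [hcard])).mp hev_inj
  -- the pivot basis
  choose e he using fun i : b => hev_surj (Pi.single i 1)
  -- indices of the chosen functionals
  have hidx : ∀ l : b, ∃ n, φ n = (l : Module.Dual ℂ V) := fun l => hbsub l.2
  choose idx hidx' using hidx
  -- pivot vectors are rational
  have hrat : ∀ i : b, ∀ n, ∃ r : ℚ, Q (e i) n = (r : ℂ) := by
    intro i n
    apply exists_rat_eq_of_forall_ringEquiv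
    intro σ
    obtain ⟨g, hg⟩ := hσ σ (e i)
    have hge : g = e i := by
      apply hev_inj
      ext l
      rw [hev, hev, ← hidx' l, hφ, hφ, hg]
      have : Q (e i) (idx l) = (Pi.single i (1 : ℂ) : b → ℂ) l := by
        rw [← he i, hev, ← hidx' l]
        exact (hφ _ _).symm
      rw [this]
      by_cases hli : l = i
      · subst hli
        simp
      · simp [Pi.single_eq_of_ne hli]
    rw [← hg n, hge]
  -- they span
  rw [eq_top_iff]
  intro f _
  have hf : f = ∑ i : b, ((i : Module.Dual ℂ V) f) • e i := by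
    apply hev_inj
    ext l
    rw [map_sum, Finset.sum_apply]
    simp only [map_smul, Pi.smul_apply, he, smul_eq_mul]
    rw [Finset.sum_eq_single l]
    · simp [hev]
    · intro i _ hil
      simp [Pi.single_eq_of_ne (Ne.symm hil)]
    · intro h
      exact absurd (Finset.mem_univ l) h
  rw [hf]
  exact Submodule.sum_mem _ fun i _ => Submodule.smul_mem _ _ (Submodule.subset_span (hrat i))

end Fermat.Agent.S23
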