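import Mathlib

set_option autoImplicit false

/-!
# S23 assembly, base layer

`Asm.IsQFun F` : `F : ℍ → ℂ` is holomorphic, `1`-periodic and bounded at `i∞`.  On such functions
`qExpansion 1` is an injective ring homomorphism.
`Asm.LevelOneFun k F` : function-level version of "`F` is a modular form of weight `k`, level one".
(Everything lives in the namespace `Fermat.Agent.S23.Asm`; it is independent of the `QF` API.)
-/

open UpperHalfPlane ModularForm Filter Topology Complex Set Function
open scoped MatrixGroups Manifold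

namespace Fermat.Agent.S23.Asm

/-- Holomorphic, `1`-periodic, bounded at `i∞`. -/
structure IsQFun (F : ℍ → ℂ) : Prop where
  holo : MDiff F
  per : Periodic (F ∘ ofComplex) 1
  bdd : IsBoundedAtImInfty F

namespace IsQFun

variable {F G : ℍ → ℂ}

theorem analyticAt (hF : IsQFun F) : AnalyticAt ℂ (cuspFunction 1 F) 0 :=
  analyticAt_cuspFunction_zero one_pos hF.per hF.holo hF.bdd

theorem of_modularForm {Γ : Subgroup (GL (Fin 2) ℝ)} {k : ℤ} {T : Type*} [FunLike T ℍ ℂ]
    [ModularFormClass T Γ k] (hΓ : (1 : ℝ) ∈ Γ.strictPeriods) (f : T) : IsQFun (f : ℍ → ℂ) where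
  holo := ModularFormClass.holo f
  per := SlashInvariantFormClass.periodic_comp_ofComplex f hΓ
  bdd := by
    have : Fact (IsCusp OnePoint.infty Γ) := ⟨Γ.isCusp_of_mem_strictPeriods one_pos hΓ⟩
    exact ModularFormClass.bdd_at_infty f

theorem zero : IsQFun (0 : ℍ → ℂ) where
  holo := mdifferentiable_const
  per := fun _ => rfl
  bdd := by
    have : (0 : ℍ → ℂ) = fun _ => (0 : ℂ) := rfl
    rw [this]
    exact Filter.const_boundedAtFilter _ _

theorem const (a : ℂ) : IsQFun (fun _ : ℍ => a) where
  holo := mdifferentiable_const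
  per := fun _ => rfl
  bdd := Filter.const_boundedAtFilter _ _

theorem one : IsQFun (1 : ℍ → ℂ) := const 1

theorem add (hF : IsQFun F) (hG : IsQFun G) : IsQFun (F + G) where
  holo := hF.holo.add hG.holo
  per := fun z => by
    have h1 := hF.per z
    have h2 := hG.per z
    simp only [comp_apply, Pi.add_apply] at h1 h2 ⊢
    rw [h1, h2]
  bdd := hF.bdd.add hG.bdd

theorem mul (hF : IsQFun F) (hG : IsQFun G) : IsQFun (F * G) where
  holo := hF.holo.mul hG.holo
  per := fun z => by
    have h1 := hF.per z
    have h2 := hG.per z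
    simp only [comp_apply, Pi.mul_apply] at h1 h2 ⊢
    rw [h1, h2]
  bdd := hF.bdd.mul hG.bdd

theorem pow (hF : IsQFun F) (n : ℕ) : IsQFun (F ^ n) := by
  induction n with
  | zero => simpa using one
  | succ n ih => rw [pow_succ]; exact ih.mul hF

theorem sum {ι : Type*} (s : Finset ι) {F : ι → ℍ → ℂ} (h : ∀ i ∈ s, IsQFun (F i)) :
    IsQFun (∑ i ∈ s, F i) := by
  classical
  induction s using Finset.induction_on with
  | empty => simpa using zero
  | insert a s ha ih =>
    rw [Finset.sum_insert ha]
    exact (h a (Finset.mem_insert_self a s)).add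
      (ih fun i hi => h i (Finset.mem_insert_of_mem hi))

theorem qExpansion_add (hF : IsQFun F) (hG : IsQFun G) :
    qExpansion 1 (F + G) = qExpansion 1 F + qExpansion 1 G :=
  UpperHalfPlane.qExpansion_add hF.analyticAt hG.analyticAt

theorem qExpansion_mul (hF : IsQFun F) (hG : IsQFun G) :
    qExpansion 1 (F * G) = qExpansion 1 F * qExpansion 1 G :=
  UpperHalfPlane.qExpansion_mul hF.analyticAt hG.analyticAt

theorem qExpansion_pow (hF : IsQFun F) (n : ℕ) :
    qExpansion 1 (F ^ n) = qExpansion 1 F ^ n := by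
  induction n with
  | zero => simpa using qExpansion_one 1
  | succ n ih => rw [pow_succ, pow_succ, (hF.pow n).qExpansion_mul hF, ih]

theorem qExpansion_sum {ι : Type*} (s : Finset ι) {F : ι → ℍ → ℂ} (h : ∀ i ∈ s, IsQFun (F i)) :
    qExpansion 1 (∑ i ∈ s, F i) = ∑ i ∈ s, qExpansion 1 (F i) := by
  classical
  induction s using Finset.induction_on with
  | empty => simpa using qExpansion_zero 1
  | insert a s ha ih =>
    rw [Finset.sum_insert ha, Finset.sum_insert ha,
      (h a (Finset.mem_insert_self a s)).qExpansion_add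
        (sum s fun i hi => h i (Finset.mem_insert_of_mem hi)),
      ih fun i hi => h i (Finset.mem_insert_of_mem hi)]

theorem eq_zero_of_qExpansion_eq_zero (hF : IsQFun F) (h : qExpansion 1 F = 0) : F = 0 :=
  (qExpansion_eq_zero_iff one_pos hF.per hF.holo hF.bdd).1 h

theorem qExpansion_ne_zero (hF : IsQFun F) (h : F ≠ 0) : qExpansion 1 F ≠ 0 :=
  fun h0 => h (hF.eq_zero_of_qExpansion_eq_zero h0)

end IsQFun

/-- Function-level "modular form of weight `k` and level one". -/
structure LevelOneFun (k : ℤ) (F : ℍ → ℂ) : Prop where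
  holo : MDiff F
  inv : ∀ γ : SL(2, ℤ), F ∣[k] γ = F
  bdd : IsBoundedAtImInfty F

namespace LevelOneFun

variable {k : ℤ} {F : ℍ → ℂ}

theorem of_modularForm {T : Type*} [FunLike T ℍ ℂ] [ModularFormClass T 𝒮ℒ k] (f : T) :
    LevelOneFun k (f : ℍ → ℂ) where
  holo := ModularFormClass.holo f
  inv := fun γ => SlashInvariantForm.slash_action_eqn f _ ⟨γ, rfl⟩
  bdd := ModularFormClass.bdd_at_infty f

theorem zero (k : ℤ) : LevelOneFun k (0 : ℍ → ℂ) where
  holo := mdifferentiable_const
  inv := fun _ => SlashAction.zero_slash _ _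
  bdd := IsQFun.zero.bdd

/-- Bundle a `LevelOneFun` as a slash invariant form. -/
def toSIF (hF : LevelOneFun k F) : SlashInvariantForm 𝒮ℒ k where
  toFun := F
  slash_action_eq' := by
    rintro γ ⟨γ', rfl⟩
    exact hF.inv γ'

theorem isQFun (hF : LevelOneFun k F) : IsQFun F where
  holo := hF.holo
  per := SlashInvariantFormClass.periodic_comp_ofComplex hF.toSIF one_mem_strictPeriods_SL
  bdd := hF.bdd

theorem cast {k' : ℤ} (hF : LevelOneFun k F) (h : k = k') : LevelOneFun k' F := h ▸ hF

end LevelOneFun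

end Fermat.Agent.S23.Asm
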