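import Mathlib
import Fermat.Prelude.Thm_CongruenceSubgroup_one_mem_strictPeriods_Gamma0

set_option autoImplicit false

/-!
# S23, piece (4): an integral quotient of modular forms is a cusp form

If `num / den` (a quotient of modular forms for `Γ₀(N)` of weights `2 + w` and `w`) satisfies a
monic polynomial equation whose lower coefficients are level-one cusp forms `c j` of weight `2 j`,
then `num / den` extends to a cusp form of weight `2` for `Γ₀(N)`.
-/

open UpperHalfPlane ModularForm Filter Topology Complex Set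
open scoped MatrixGroups Manifold

namespace Fermat.Agent.S23

namespace IQ

/-- Bound on the roots of a monic polynomial in terms of its coefficients. -/
theorem norm_le_of_monic {d : ℕ} (hd : 0 < d) {x : ℂ} {a : ℕ → ℂ} {R : ℝ} (hR : 0 < R)
    (h : ∑ j ∈ Finset.range d, ‖a (j + 1)‖ * R ^ (d - 1 - j) < R ^ d)
    (hx : x ^ d + ∑ j ∈ Finset.range d, a (j + 1) * x ^ (d - 1 - j) = 0) : ‖x‖ ≤ R := by
  by_contra hlt
  push Not at hlt
  set r := ‖x‖ with hr
  have hr0 : 0 < r := hR.trans hlt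
  -- `r ^ d ≤ ∑ ‖a‖ r^(d-1-j)`
  have h1 : r ^ d ≤ ∑ j ∈ Finset.range d, ‖a (j + 1)‖ * r ^ (d - 1 - j) := by
    have hx' : x ^ d = - ∑ j ∈ Finset.range d, a (j + 1) * x ^ (d - 1 - j) :=
      eq_neg_of_add_eq_zero_left hx
    calc r ^ d = ‖x ^ d‖ := by rw [norm_pow]
      _ = ‖∑ j ∈ Finset.range d, a (j + 1) * x ^ (d - 1 - j)‖ := by rw [hx', norm_neg]
      _ ≤ ∑ j ∈ Finset.range d, ‖a (j + 1) * x ^ (d - 1 - j)‖ := norm_sum_le _ _
      _ = ∑ j ∈ Finset.range d, ‖a (j + 1)‖ * r ^ (d - 1 - j) := by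
        simp only [norm_mul, norm_pow, hr]
  -- termwise comparison
  have h2 : ∀ j ∈ Finset.range d,
      R ^ (d - 1) * (‖a (j + 1)‖ * r ^ (d - 1 - j)) ≤
        r ^ (d - 1) * (‖a (j + 1)‖ * R ^ (d - 1 - j)) := by
    intro j hj
    have hj' : j < d := Finset.mem_range.1 hj
    have e1 : R ^ (d - 1) = R ^ (d - 1 - j) * R ^ j := by
      rw [← pow_add]; congr 1; omega
    have e2 : r ^ (d - 1) = r ^ (d - 1 - j) * r ^ j := by
      rw [← pow_add]; congr 1; omega
    have h3 : R ^ j ≤ r ^ j := pow_le_pow_left₀ hR.le hlt.le j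
    rw [e1, e2]
    have hA : 0 ≤ ‖a (j + 1)‖ := norm_nonneg _
    have hB : 0 ≤ R ^ (d - 1 - j) := by positivity
    have hC : 0 ≤ r ^ (d - 1 - j) := by positivity
    calc R ^ (d - 1 - j) * R ^ j * (‖a (j + 1)‖ * r ^ (d - 1 - j))
        = (‖a (j + 1)‖ * R ^ (d - 1 - j) * r ^ (d - 1 - j)) * R ^ j := by ring
      _ ≤ (‖a (j + 1)‖ * R ^ (d - 1 - j) * r ^ (d - 1 - j)) * r ^ j :=
        mul_le_mul_of_nonneg_left h3 (by positivity)
      _ = r ^ (d - 1 - j) * r ^ j * (‖a (j + 1)‖ * R ^ (d - 1 - j)) := by ring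
  have h4 : R ^ (d - 1) * r ^ d < r ^ (d - 1) * R ^ d := by
    calc R ^ (d - 1) * r ^ d
        ≤ R ^ (d - 1) * ∑ j ∈ Finset.range d, ‖a (j + 1)‖ * r ^ (d - 1 - j) :=
          mul_le_mul_of_nonneg_left h1 (by positivity)
      _ = ∑ j ∈ Finset.range d, R ^ (d - 1) * (‖a (j + 1)‖ * r ^ (d - 1 - j)) := by
          rw [Finset.mul_sum]
      _ ≤ ∑ j ∈ Finset.range d, r ^ (d - 1) * (‖a (j + 1)‖ * R ^ (d - 1 - j)) :=
          Finset.sum_le_sum h2
      _ = r ^ (d - 1) * ∑ j ∈ Finset.range d, ‖a (j + 1)‖ * R ^ (d - 1 - j) := by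
          rw [Finset.mul_sum]
      _ < r ^ (d - 1) * R ^ d := mul_lt_mul_of_pos_left h (by positivity)
  have e3 : r ^ d = r ^ (d - 1) * r := by
    rw [← pow_succ]; congr 1; omega
  have e4 : R ^ d = R ^ (d - 1) * R := by
    rw [← pow_succ]; congr 1; omega
  rw [e3, e4] at h4
  have h5 : (R ^ (d - 1) * r ^ (d - 1)) * r < (R ^ (d - 1) * r ^ (d - 1)) * R := by
    calc (R ^ (d - 1) * r ^ (d - 1)) * r = R ^ (d - 1) * (r ^ (d - 1) * r) := by ring
      _ < r ^ (d - 1) * (R ^ (d - 1) * R) := h4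
      _ = (R ^ (d - 1) * r ^ (d - 1)) * R := by ring
  have h6 : r < R := lt_of_mul_lt_mul_left h5 (by positivity)
  exact absurd h6 (not_lt.2 hlt.le)

/-- Cauchy bound. -/
theorem norm_le_one_add_sum {d : ℕ} (hd : 0 < d) {x : ℂ} {a : ℕ → ℂ}
    (hx : x ^ d + ∑ j ∈ Finset.range d, a (j + 1) * x ^ (d - 1 - j) = 0) :
    ‖x‖ ≤ 1 + ∑ j ∈ Finset.range d, ‖a (j + 1)‖ := by
  set S := ∑ j ∈ Finset.range d, ‖a (j + 1)‖ with hS
  have hS0 : 0 ≤ S := Finset.sum_nonneg fun _ _ => norm_nonneg _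
  have hR : 0 < 1 + S := by linarith
  refine norm_le_of_monic hd hR ?_ hx
  have e4 : (1 + S) ^ d = (1 + S) ^ (d - 1) * (1 + S) := by
    rw [← pow_succ]; congr 1; omega
  have h1 : ∀ j ∈ Finset.range d,
      ‖a (j + 1)‖ * (1 + S) ^ (d - 1 - j) ≤ ‖a (j + 1)‖ * (1 + S) ^ (d - 1) := by
    intro j _
    refine mul_le_mul_of_nonneg_left ?_ (norm_nonneg _)
    exact pow_le_pow_right₀ (by linarith) (by omega)
  calc ∑ j ∈ Finset.range d, ‖a (j + 1)‖ * (1 + S) ^ (d - 1 - j)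
      ≤ ∑ j ∈ Finset.range d, ‖a (j + 1)‖ * (1 + S) ^ (d - 1) := Finset.sum_le_sum h1
    _ = S * (1 + S) ^ (d - 1) := by rw [← Finset.sum_mul]
    _ < (1 + S) ^ d := by
        rw [e4, mul_comm]
        exact mul_lt_mul_of_pos_left (by linarith) (by positivity)

/-- Small coefficients force a small root. -/
theorem norm_le_of_small_coeff {d : ℕ} (hd : 0 < d) {x : ℂ} {a : ℕ → ℂ} {ε δ : ℝ}
    (hε : 0 < ε) (hε1 : ε ≤ 1) (hδ : δ * d < ε ^ d)
    (ha : ∀ j < d, ‖a (j + 1)‖ ≤ δ)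
    (hx : x ^ d + ∑ j ∈ Finset.range d, a (j + 1) * x ^ (d - 1 - j) = 0) : ‖x‖ ≤ ε := by
  refine norm_le_of_monic hd hε ?_ hx
  have h1 : ∀ j ∈ Finset.range d, ‖a (j + 1)‖ * ε ^ (d - 1 - j) ≤ δ * 1 := by
    intro j hj
    have hj' : j < d := Finset.mem_range.1 hj
    have : ε ^ (d - 1 - j) ≤ 1 := pow_le_one₀ hε.le hε1
    exact mul_le_mul (ha j hj') this (by positivity) ((norm_nonneg _).trans (ha j hj'))
  calc ∑ j ∈ Finset.range d, ‖a (j + 1)‖ * ε ^ (d - 1 - j)
      ≤ ∑ j ∈ Finset.range d, δ * 1 := Finset.sum_le_sum h1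
    _ = δ * d := by simp [mul_comm]
    _ < ε ^ d := hδ

/-- A holomorphic function on a preconnected open set which vanishes near a point vanishes. -/
theorem eq_zero_of_eventually_eq_zero {U : Set ℂ} (hU : IsOpen U) (hUc : IsPreconnected U)
    {g : ℂ → ℂ} (hg : DifferentiableOn ℂ g U) {z₀ : ℂ} (hz₀ : z₀ ∈ U)
    (h : ∀ᶠ z in 𝓝 z₀, g z = 0) : ∀ z ∈ U, g z = 0 := by
  have han : AnalyticOnNhd ℂ g U := hg.analyticOnNhd hU
  have := han.eqOn_zero_of_preconnected_of_eventuallyEq_zero hUc hz₀ h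
  intro z hz
  simpa using this hz

/-- Quotients of holomorphic functions which are locally bounded are holomorphic. -/
theorem exists_differentiableOn_quotient {U : Set ℂ} (hU : IsOpen U) (hUc : IsPreconnected U)
    {n dd : ℂ → ℂ} (hn : DifferentiableOn ℂ n U) (hdd : DifferentiableOn ℂ dd U)
    (hne : ∃ z ∈ U, dd z ≠ 0)
    {B : ℂ → ℝ} (hB : ContinuousOn B U)
    (hbd : ∀ z ∈ U, dd z ≠ 0 → ‖n z / dd z‖ ≤ B z)
    (hzero : ∀ z ∈ U, dd z = 0 → n z = 0) :
    ∃ G : ℂ → ℂ, DifferentiableOn ℂ G U ∧ ∀ z ∈ U, G z * dd z = n z := by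
  classical
  set f : ℂ → ℂ := fun z => n z / dd z with hf
  refine ⟨fun z => if dd z = 0 then limUnder (𝓝[≠] z) f else f z, ?_, ?_⟩
  · intro z₀ hz₀
    refine DifferentiableAt.differentiableWithinAt ?_
    have hUn : U ∈ 𝓝 z₀ := hU.mem_nhds hz₀
    by_cases h0 : dd z₀ = 0
    · -- isolated zero
      have han : AnalyticAt ℂ dd z₀ := (hdd.analyticOnNhd hU) z₀ hz₀
      rcases han.eventually_eq_zero_or_eventually_ne_zero with h1 | h1
      · obtain ⟨z, hz, hzne⟩ := hne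
        exact absurd (eq_zero_of_eventually_eq_zero hU hUc hdd hz₀ h1 z hz) hzne
      · -- a good neighbourhood
        have hBev : ∀ᶠ z in 𝓝 z₀, B z < B z₀ + 1 :=
          (hB.continuousAt hUn).eventually (gt_mem_nhds (by linarith))
        have h1' : ∀ᶠ z in 𝓝 z₀, z ≠ z₀ → dd z ≠ 0 := by
          rw [eventually_nhdsWithin_iff] at h1
          exact h1
        have hUev : ∀ᶠ z in 𝓝 z₀, z ∈ U := hUn
        have hall : ∀ᶠ z in 𝓝 z₀, z ∈ U ∧ B z < B z₀ + 1 ∧ (z ≠ z₀ → dd z ≠ 0) :=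
          hUev.and (hBev.and h1')
        obtain ⟨r, hr, hball⟩ := Metric.eventually_nhds_iff_ball.1 hall
        set s := Metric.ball z₀ r with hs
        have hsn : s ∈ 𝓝 z₀ := Metric.ball_mem_nhds z₀ hr
        have hdf : DifferentiableOn ℂ f (s \ {z₀}) := by
          intro z hz
          obtain ⟨hzs, hzne⟩ := hz
          have hz' := hball z hzs
          have hzne' : z ≠ z₀ := by simpa using hzne
          have hUz : U ∈ 𝓝 z := hU.mem_nhds hz'.1
          exact (((hn z hz'.1).differentiableAt hUz).div ((hdd z hz'.1).differentiableAt hUz)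
            (hz'.2.2 hzne')).differentiableWithinAt
        have hbdd : BddAbove (norm ∘ f '' (s \ {z₀})) := by
          refine ⟨B z₀ + 1, ?_⟩
          rintro _ ⟨z, ⟨hzs, hzne⟩, rfl⟩
          have hz' := hball z hzs
          have hzne' : z ≠ z₀ := by simpa using hzne
          exact (hbd z hz'.1 (hz'.2.2 hzne')).trans hz'.2.1.le
        have hdiff := Complex.differentiableOn_update_limUnder_of_bddAbove hsn hdf hbdd
        have hda := hdiff.differentiableAt hsn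
        refine hda.congr_of_eventuallyEq ?_
        filter_upwards [hsn] with z hzs
        by_cases hzz : z = z₀
        · subst hzz
          simp [h0]
        · have hz' := hball z hzs
          simp [Function.update_of_ne hzz, hz'.2.2 hzz]
    · -- nonvanishing denominator
      have hUz : U ∈ 𝓝 z₀ := hUn
      have hcont : ContinuousAt dd z₀ := ((hdd z₀ hz₀).differentiableAt hUz).continuousAt
      have hne' : ∀ᶠ z in 𝓝 z₀, dd z ≠ 0 := hcont.eventually_ne h0
      have hfd : DifferentiableAt ℂ f z₀ :=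
        ((hn z₀ hz₀).differentiableAt hUz).div ((hdd z₀ hz₀).differentiableAt hUz) h0
      refine hfd.congr_of_eventuallyEq ?_
      filter_upwards [hne'] with z hz
      simp [hz]
  · intro z hz
    by_cases h0 : dd z = 0
    · simp [h0, hzero z hz h0]
    · simp only [h0, if_false, hf]
      field_simp

/-- The normalised monic relation satisfied by the quotient. -/
theorem monic_of_rel {d : ℕ} {c : ℕ → ℂ} {x y : ℂ} (hy : y ≠ 0)
    (h : x ^ d + ∑ j ∈ Finset.range d, c (j + 1) * x ^ (d - 1 - j) * y ^ (j + 1) = 0) :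
    (x / y) ^ d + ∑ j ∈ Finset.range d, c (j + 1) * (x / y) ^ (d - 1 - j) = 0 := by
  have hyd : y ^ d ≠ 0 := pow_ne_zero _ hy
  have e : ∀ j ∈ Finset.range d, c (j + 1) * (x / y) ^ (d - 1 - j) =
      c (j + 1) * x ^ (d - 1 - j) * y ^ (j + 1) / y ^ d := by
    intro j hj
    have hj' : j < d := Finset.mem_range.1 hj
    have : y ^ d = y ^ (d - 1 - j) * y ^ (j + 1) := by
      rw [← pow_add]; congr 1; omega
    rw [this, div_pow]
    field_simp
  rw [Finset.sum_congr rfl e, div_pow, ← Finset.sum_div, ← add_div, h, zero_div]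

/-- Holomorphic quotient on the upper half plane. -/
theorem exists_mdiff_quotient {num den : ℍ → ℂ} (hnum : MDiff num) (hden : MDiff den)
    (hne : ∃ τ, den τ ≠ 0) {d : ℕ} (hd : 0 < d) {c : ℕ → ℍ → ℂ} (hc : ∀ j, MDiff (c j))
    (hrel : ∀ z : ℍ, num z ^ d +
      ∑ j ∈ Finset.range d, c (j + 1) z * num z ^ (d - 1 - j) * den z ^ (j + 1) = 0) :
    ∃ F : ℍ → ℂ, MDiff F ∧ ∀ τ, F τ * den τ = num τ := by
  have hnum' := UpperHalfPlane.mdifferentiable_iff.1 hnum
  have hden' := UpperHalfPlane.mdifferentiable_iff.1 hden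
  have hc' := fun j => UpperHalfPlane.mdifferentiable_iff.1 (hc j)
  have hUo : IsOpen {z : ℂ | 0 < z.im} := isOpen_upperHalfPlaneSet
  have hUc : IsPreconnected {z : ℂ | 0 < z.im} := (convex_halfSpace_im_gt 0).isPreconnected
  obtain ⟨τ₀, hτ₀⟩ := hne
  have h1 : ∃ z ∈ {z : ℂ | 0 < z.im}, (den ∘ ofComplex) z ≠ 0 :=
    ⟨(τ₀ : ℂ), τ₀.im_pos, by simpa [ofComplex_apply] using hτ₀⟩
  have h2 : ContinuousOn (fun z : ℂ => 1 + ∑ j ∈ Finset.range d, ‖c (j + 1) (ofComplex z)‖)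
      {z : ℂ | 0 < z.im} := by
    refine continuousOn_const.add (continuousOn_finsetSum _ fun j _ => ?_)
    exact (hc' (j + 1)).continuousOn.norm
  have h3 : ∀ z ∈ {z : ℂ | 0 < z.im}, (den ∘ ofComplex) z ≠ 0 →
      ‖(num ∘ ofComplex) z / (den ∘ ofComplex) z‖ ≤
        (fun z : ℂ => 1 + ∑ j ∈ Finset.range d, ‖c (j + 1) (ofComplex z)‖) z := by
    intro z hz hdz
    have h := hrel (ofComplex z)
    simp only [Function.comp_apply] at hdz ⊢
    have h' := monic_of_rel (c := fun j => c j (ofComplex z)) hdz h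
    exact norm_le_one_add_sum hd (a := fun j => c j (ofComplex z)) h'
  have h4 : ∀ z ∈ {z : ℂ | 0 < z.im}, (den ∘ ofComplex) z = 0 → (num ∘ ofComplex) z = 0 := by
    intro z hz hdz
    have h := hrel (ofComplex z)
    simp only [Function.comp_apply] at hdz ⊢
    rw [hdz] at h
    have : ∑ j ∈ Finset.range d, c (j + 1) (ofComplex z) * num (ofComplex z) ^ (d - 1 - j) *
        (0 : ℂ) ^ (j + 1) = 0 := by
      refine Finset.sum_eq_zero fun j _ => ?_
      simp
    rw [this, add_zero] at h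
    exact pow_eq_zero_iff hd.ne' |>.1 h
  obtain ⟨G, hG, hGmul⟩ := exists_differentiableOn_quotient hUo hUc hnum' hden' h1 h2 h3 h4
  refine ⟨fun τ => G τ, ?_, ?_⟩
  · rw [UpperHalfPlane.mdifferentiable_iff]
    refine hG.congr fun z hz => ?_
    simp only [Function.comp_apply]
    rw [ofComplex_apply_of_im_pos hz]
  · intro τ
    have := hGmul τ τ.im_pos
    simpa [ofComplex_apply] using this

/-- The monic relation is inherited by slashes with elements of `SL(2, ℤ)`. -/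
theorem monic_slash {F : ℍ → ℂ} {d : ℕ} {c : ℕ → ℍ → ℂ}
    (hc_inv : ∀ (j : ℕ) (γ : SL(2, ℤ)), c j ∣[(2 * (j : ℤ))] γ = c j)
    (hP : ∀ τ, F τ ^ d + ∑ j ∈ Finset.range d, c (j + 1) τ * F τ ^ (d - 1 - j) = 0)
    (γ : SL(2, ℤ)) (τ : ℍ) :
    (F ∣[(2 : ℤ)] γ) τ ^ d +
      ∑ j ∈ Finset.range d, c (j + 1) τ * (F ∣[(2 : ℤ)] γ) τ ^ (d - 1 - j) = 0 := by
  have hD : denom γ τ ≠ 0 := denom_ne_zero γ τ
  set D := denom γ τ with hDdef
  have hF : (F ∣[(2 : ℤ)] γ) τ = F (γ • τ) * D ^ (-(2 : ℤ)) := by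
    rw [SL_slash_apply]
  have hcj : ∀ j : ℕ, c j (γ • τ) = c j τ * D ^ (2 * j) := by
    intro j
    have h1 := congrFun (hc_inv j γ) τ
    rw [SL_slash_apply] at h1
    have h2 : D ^ (-(2 * j : ℤ)) * D ^ (2 * j) = 1 := by
      rw [zpow_neg, ← zpow_natCast]
      push_cast
      exact inv_mul_cancel₀ (zpow_ne_zero _ hD)
    calc c j (γ • τ) = c j (γ • τ) * (D ^ (-(2 * j : ℤ)) * D ^ (2 * j)) := by rw [h2, mul_one]
      _ = (c j (γ • τ) * D ^ (-(2 * j : ℤ))) * D ^ (2 * j) := by ring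
      _ = c j τ * D ^ (2 * j) := by rw [h1]
  have h := hP (γ • τ)
  have hy : F (γ • τ) = (F ∣[(2 : ℤ)] γ) τ * D ^ 2 := by
    rw [hF, mul_assoc, zpow_neg, ← zpow_natCast]
    push_cast
    rw [inv_mul_cancel₀ (zpow_ne_zero _ hD), mul_one]
  set y := (F ∣[(2 : ℤ)] γ) τ with hydef
  rw [hy] at h
  have key : (y * D ^ 2) ^ d + ∑ j ∈ Finset.range d, c (j + 1) (γ • τ) * (y * D ^ 2) ^ (d - 1 - j)
      = D ^ (2 * d) * (y ^ d + ∑ j ∈ Finset.range d, c (j + 1) τ * y ^ (d - 1 - j)) := by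
    rw [mul_add, Finset.mul_sum]
    congr 1
    · rw [mul_pow, ← pow_mul]; ring
    · refine Finset.sum_congr rfl fun j hj => ?_
      have hj' : j < d := Finset.mem_range.1 hj
      rw [hcj (j + 1), mul_pow, ← pow_mul]
      have : D ^ (2 * d) = D ^ (2 * (j + 1)) * D ^ (2 * (d - 1 - j)) := by
        rw [← pow_add]; congr 1; omega
      rw [this]
      ring
  rw [key] at h
  rcases mul_eq_zero.1 h with h0 | h0
  · exact absurd h0 (pow_ne_zero _ hD)
  · exact h0

/-- Vanishing at infinity from the monic relation. -/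
theorem isZeroAtImInfty_of_monic {f : ℍ → ℂ} {d : ℕ} (hd : 0 < d) {c : ℕ → ℍ → ℂ}
    (hc_zero : ∀ j, 1 ≤ j → IsZeroAtImInfty (c j))
    (hP : ∀ τ, f τ ^ d + ∑ j ∈ Finset.range d, c (j + 1) τ * f τ ^ (d - 1 - j) = 0) :
    IsZeroAtImInfty f := by
  rw [IsZeroAtImInfty, ZeroAtFilter, Metric.tendsto_nhds]
  intro ε hε
  set ε' := min ε 1 / 2 with hε'
  have hε'0 : 0 < ε' := by positivity
  have hε'1 : ε' ≤ 1 := by
    have : min ε 1 ≤ 1 := min_le_right _ _
    linarith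
  have hε'2 : ε' < ε := by
    have : min ε 1 ≤ ε := min_le_left _ _
    linarith
  set δ := ε' ^ d / (2 * d) with hδ
  have hd' : (0 : ℝ) < d := by exact_mod_cast hd
  have hδ0 : 0 < δ := by positivity
  have hδd : δ * d < ε' ^ d := by
    rw [hδ]
    have : ε' ^ d / (2 * d) * d = ε' ^ d / 2 := by field_simp
    rw [this]
    have : 0 < ε' ^ d := by positivity
    linarith
  have hev : ∀ᶠ τ in atImInfty, ∀ j ∈ Finset.range d, ‖c (j + 1) τ‖ < δ := by
    rw [Filter.eventually_all_finset]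
    intro j _
    have := hc_zero (j + 1) (by omega)
    rw [IsZeroAtImInfty, ZeroAtFilter, Metric.tendsto_nhds] at this
    filter_upwards [this δ hδ0] with τ hτ
    simpa [dist_eq_norm] using hτ
  filter_upwards [hev] with τ hτ
  rw [dist_eq_norm, sub_zero]
  refine lt_of_le_of_lt ?_ hε'2
  exact norm_le_of_small_coeff hd (a := fun j => c j τ) hε'0 hε'1 hδd
    (fun j hj => (hτ j (Finset.mem_range.2 hj)).le) (hP τ)

/-- The monic relation holds for the holomorphic quotient. -/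
theorem monic_of_quotient {num den F : ℍ → ℂ} (hden : MDiff den) (hF : MDiff F)
    (hne : ∃ τ, den τ ≠ 0) {d : ℕ} {c : ℕ → ℍ → ℂ} (hc : ∀ j, MDiff (c j))
    (hFmul : ∀ τ, F τ * den τ = num τ)
    (hrel : ∀ z : ℍ, num z ^ d +
      ∑ j ∈ Finset.range d, c (j + 1) z * num z ^ (d - 1 - j) * den z ^ (j + 1) = 0) :
    ∀ τ, F τ ^ d + ∑ j ∈ Finset.range d, c (j + 1) τ * F τ ^ (d - 1 - j) = 0 := by
  have h1 : MDiff (fun τ => den τ ^ d) := hden.pow d
  have h2 : MDiff (fun τ => F τ ^ d + ∑ j ∈ Finset.range d, c (j + 1) τ * F τ ^ (d - 1 - j)) := by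
    refine (hF.pow d).add ?_
    have : (fun τ => ∑ j ∈ Finset.range d, c (j + 1) τ * F τ ^ (d - 1 - j)) =
        ∑ j ∈ Finset.range d, fun τ => c (j + 1) τ * F τ ^ (d - 1 - j) := by
      ext τ; simp
    rw [this]
    exact MDifferentiable.sum fun j _ => (hc (j + 1)).mul (hF.pow _)
  have h3 : (fun τ => den τ ^ d) *
      (fun τ => F τ ^ d + ∑ j ∈ Finset.range d, c (j + 1) τ * F τ ^ (d - 1 - j)) = 0 := by
    ext τ
    have h := hrel τ
    rw [← hFmul τ] at h
    simp only [Pi.mul_apply, Pi.zero_apply]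
    rw [← h, mul_add, Finset.mul_sum, mul_pow]
    congr 1
    · ring
    · refine Finset.sum_congr rfl fun j hj => ?_
      have hj' : j < d := Finset.mem_range.1 hj
      have : den τ ^ d = den τ ^ (d - 1 - j) * den τ ^ (j + 1) := by
        rw [← pow_add]; congr 1; omega
      rw [this, mul_pow]
      ring
  rcases (UpperHalfPlane.mul_eq_zero_iff h1 h2).1 h3 with h | h
  · obtain ⟨τ₀, hτ₀⟩ := hne
    exact absurd (congrFun h τ₀) (pow_ne_zero _ hτ₀)
  · exact fun τ => congrFun h τ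

end IQ

open CongruenceSubgroup in
/-- **Piece (4) of S23.** If `num / den` is integral over the ring of holomorphic functions via a
monic equation whose lower coefficients are level-one cusp forms, it is a cusp form. -/
theorem exists_cuspForm_of_monic_relation {N : ℕ} [NeZero N] {w : ℤ}
    (num : ModularForm (Gamma0 N) (2 + w)) (den : ModularForm (Gamma0 N) w) (hden : den ≠ 0)
    (d : ℕ) (hd : 0 < d) (c : ℕ → ℍ → ℂ) (hc_holo : ∀ j, MDiff (c j))
    (hc_inv : ∀ (j : ℕ) (γ : SL(2, ℤ)), c j ∣[(2 * (j : ℤ))] γ = c j)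
    (hc_zero : ∀ j, 1 ≤ j → IsZeroAtImInfty (c j))
    (hrel : ∀ z : ℍ, num z ^ d +
      ∑ j ∈ Finset.range d, c (j + 1) z * num z ^ (d - 1 - j) * den z ^ (j + 1) = 0) :
    ∃ F : CuspForm (Gamma0 N) 2, ∀ z, F z * den z = num z := by
  have hne : ∃ τ, den τ ≠ 0 := by
    by_contra h
    push Not at h
    exact hden (DFunLike.ext _ _ h)
  have hnumM : MDiff (num : ℍ → ℂ) := ModularFormClass.holo num
  have hdenM : MDiff (den : ℍ → ℂ) := ModularFormClass.holo den
  obtain ⟨F, hF, hFmul⟩ := IQ.exists_mdiff_quotient hnumM hdenM hne hd hc_holo hrel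
  have hP := IQ.monic_of_quotient hdenM hF hne hc_holo hFmul hrel
  -- invariance
  have hinv : ∀ γ ∈ Gamma0 N, F ∣[(2 : ℤ)] γ = F := by
    intro γ hγ
    have hγ' : (Matrix.SpecialLinearGroup.mapGL ℝ γ) ∈
        ((Gamma0 N : Subgroup SL(2, ℤ)) : Subgroup (GL (Fin 2) ℝ)) :=
      Subgroup.mem_map_of_mem _ hγ
    have hnum_inv : (num : ℍ → ℂ) ∣[(2 + w : ℤ)] γ = num :=
      SlashInvariantForm.slash_action_eqn num _ hγ'
    have hden_inv : (den : ℍ → ℂ) ∣[w] γ = den :=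
      SlashInvariantForm.slash_action_eqn den _ hγ'
    have hmul : F * (den : ℍ → ℂ) = num := funext hFmul
    have h1 : (F ∣[(2 : ℤ)] γ) * (den : ℍ → ℂ) = num := by
      rw [← hnum_inv, ← hmul, mul_slash_SL2, hden_inv]
    have h2 : (den : ℍ → ℂ) * (F ∣[(2 : ℤ)] γ - F) = 0 := by
      rw [mul_sub, mul_comm, h1, mul_comm, hmul, sub_self]
    have hFs : MDiff (F ∣[(2 : ℤ)] γ) := hF.slash 2 _
    rcases (UpperHalfPlane.mul_eq_zero_iff hdenM (hFs.sub hF)).1 h2 with h | h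
    · obtain ⟨τ₀, hτ₀⟩ := hne
      exact absurd (congrFun h τ₀) hτ₀
    · exact sub_eq_zero.1 h
  refine ⟨{ toFun := F, slash_action_eq' := ?_, holo' := hF, zero_at_cusps' := ?_ }, hFmul⟩
  · rintro γ ⟨γ', hγ', rfl⟩
    exact hinv γ' hγ'
  · intro c' hc'
    have hc'' := (Subgroup.IsArithmetic.isCusp_iff_isCusp_SL2Z _).1 hc'
    rw [OnePoint.isZeroAt_iff_forall_SL2Z hc'']
    intro γ _
    exact IQ.isZeroAtImInfty_of_monic hd hc_zero (IQ.monic_slash hc_inv hP γ)


open CongruenceSubgroup in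
/-- Version of `exists_cuspForm_of_monic_relation` with the `q`-expansion identity. -/
theorem exists_cuspForm_of_monic_relation_qExpansion {N : ℕ} [NeZero N] {w : ℤ}
    (num : ModularForm (Gamma0 N) (2 + w)) (den : ModularForm (Gamma0 N) w) (hden : den ≠ 0)
    (d : ℕ) (hd : 0 < d) (c : ℕ → ℍ → ℂ) (hc_holo : ∀ j, MDiff (c j))
    (hc_inv : ∀ (j : ℕ) (γ : SL(2, ℤ)), c j ∣[(2 * (j : ℤ))] γ = c j)
    (hc_zero : ∀ j, 1 ≤ j → IsZeroAtImInfty (c j))
    (hrel : ∀ z : ℍ, num z ^ d +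
      ∑ j ∈ Finset.range d, c (j + 1) z * num z ^ (d - 1 - j) * den z ^ (j + 1) = 0) :
    ∃ F : CuspForm (Gamma0 N) 2, (∀ z, F z * den z = num z) ∧
      qExpansion 1 F * qExpansion 1 den = qExpansion 1 num := by
  obtain ⟨F, hF⟩ := exists_cuspForm_of_monic_relation num den hden d hd c hc_holo hc_inv hc_zero hrel
  refine ⟨F, hF, ?_⟩
  have h1 := ModularForm.qExpansion_mul_coe one_pos
    (CongruenceSubgroup.one_mem_strictPeriods_Gamma0 N) F den
  rw [← h1]
  congr 1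
  exact funext hF

end Fermat.Agent.S23
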