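import Mathlib
import Fermat.Agent.S23.IntegralQuotient
import Fermat.Agent.S23.AsmBase

set_option autoImplicit false

/-!
# S23, piece (7a): abstract assembly of the conjugate cusp form

Given level-one data (coefficients of the characteristic polynomial of `f`, and of the Lagrange
interpolation numerator / denominator with respect to a primitive element `A` with `σ`-fixed
`q`-expansion) together with their `σ`-conjugates, we construct `g ∈ S₂(Γ₀(N))` with
`qExpansion g = σ (qExpansion f)`.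
-/

open UpperHalfPlane ModularForm Filter Topology Complex Set Function Finset
open scoped MatrixGroups Manifold

namespace Fermat.Agent.S23

open Asm

namespace Asm

theorem one_slash_SL2 (γ : SL(2, ℤ)) : (1 : ℍ → ℂ) ∣[(0 : ℤ)] γ = 1 := by
  ext z
  simp [SL_slash_apply]

theorem pow_slash_SL2 (k : ℤ) (m : ℕ) (γ : SL(2, ℤ)) (f : ℍ → ℂ) :
    (f ^ m) ∣[k * (m : ℤ)] γ = (f ∣[k] γ) ^ m := by
  induction m with
  | zero => simpa using one_slash_SL2 γ
  | succ m ih =>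
    have : k * ((m + 1 : ℕ) : ℤ) = k * (m : ℤ) + k := by push_cast; ring
    rw [this, pow_succ, mul_slash_SL2, ih, pow_succ]

end Asm

open CongruenceSubgroup in
/-- Function-level version of `exists_cuspForm_of_monic_relation`: `num` and `den` only need to be
holomorphic and `Γ₀(N)`-invariant (no condition at the cusps). -/
theorem exists_cuspForm_of_monic_relation_fun {N : ℕ} [NeZero N] {w : ℤ} {num den : ℍ → ℂ}
    (hnumM : MDiff num) (hdenM : MDiff den)
    (hnum_inv : ∀ γ ∈ Gamma0 N, num ∣[(2 + w : ℤ)] γ = num)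
    (hden_inv : ∀ γ ∈ Gamma0 N, den ∣[w] γ = den)
    (hne : ∃ τ, den τ ≠ 0)
    {d : ℕ} (hd : 0 < d) {c : ℕ → ℍ → ℂ} (hc_holo : ∀ j, MDiff (c j))
    (hc_inv : ∀ (j : ℕ) (γ : SL(2, ℤ)), c j ∣[(2 * (j : ℤ))] γ = c j)
    (hc_zero : ∀ j, 1 ≤ j → IsZeroAtImInfty (c j))
    (hrel : ∀ z : ℍ, num z ^ d +
      ∑ j ∈ Finset.range d, c (j + 1) z * num z ^ (d - 1 - j) * den z ^ (j + 1) = 0) :
    ∃ F : CuspForm (Gamma0 N) 2, ∀ z, F z * den z = num z := by
  obtain ⟨F, hF, hFmul⟩ := IQ.exists_mdiff_quotient hnumM hdenM hne hd hc_holo hrel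
  have hP := IQ.monic_of_quotient hdenM hF hne hc_holo hFmul hrel
  have hinv : ∀ γ ∈ Gamma0 N, F ∣[(2 : ℤ)] γ = F := by
    intro γ hγ
    have hmul : F * den = num := funext hFmul
    have h1 : (F ∣[(2 : ℤ)] γ) * den = num := by
      rw [← hnum_inv γ hγ, ← hmul, mul_slash_SL2, hden_inv γ hγ]
    have h2 : den * (F ∣[(2 : ℤ)] γ - F) = 0 := by
      rw [mul_sub, mul_comm, h1, mul_comm, hmul, sub_self]
    have hFs : MDiff (F ∣[(2 : ℤ)] γ) := hF.slash 2 _
    rcases (UpperHalfPlane.mul_eq_zero_iff hdenM (hFs.sub hF)).1 h2 with h | h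
    · obtain ⟨τ₀, hτ₀⟩ := hne
      exact absurd (congrFun h τ₀) hτ₀
    · exact sub_eq_zero.1 h
  refine ⟨{ toFun := F, slash_action_eq' := ?_, holo' := hF, zero_at_cusps' := ?_ }, hFmul⟩
  · rintro γ ⟨γ', hγ', rfl⟩
    exact hinv γ' hγ'
  · intro c' hc'
    have hc'' := (Subgroup.IsArithmetic.isCusp_iff_isCusp_SL2Z _).1 hc'
    rw [OnePoint.isZeroAt_iff_forall_SL2Z hc'']
    intro γ _
    exact IQ.isZeroAtImInfty_of_monic hd hc_zero (IQ.monic_slash hc_inv hP γ)

namespace Asm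

variable {σ : ℂ →+* ℂ}

/-- `map σ` is injective on power series. -/
theorem map_eq_zero_iff (σ : ℂ →+* ℂ) (p : PowerSeries ℂ) : p.map σ = 0 ↔ p = 0 := by
  constructor
  · intro h
    ext n
    have := congrArg (PowerSeries.coeff n) h
    simpa using this
  · rintro rfl
    simp

/-- The polynomial expression `∑_{s<μ} X_s A^(μ-1-s)`. -/
noncomputable def polyA (μ : ℕ) (A : ℍ → ℂ) (X : ℕ → ℍ → ℂ) : ℍ → ℂ :=
  ∑ s ∈ range μ, X s * A ^ (μ - 1 - s)

theorem polyA_apply (μ : ℕ) (A : ℍ → ℂ) (X : ℕ → ℍ → ℂ) (z : ℍ) :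
    polyA μ A X z = ∑ s ∈ range μ, X s z * A z ^ (μ - 1 - s) := by
  simp [polyA, Finset.sum_apply]

theorem polyA_isQFun {μ : ℕ} {A : ℍ → ℂ} {X : ℕ → ℍ → ℂ} (hA : IsQFun A)
    (hX : ∀ s, IsQFun (X s)) : IsQFun (polyA μ A X) :=
  IsQFun.sum _ fun s _ => (hX s).mul (hA.pow _)

theorem qExpansion_polyA {μ : ℕ} {A : ℍ → ℂ} {X : ℕ → ℍ → ℂ} (hA : IsQFun A)
    (hX : ∀ s, IsQFun (X s)) :
    qExpansion 1 (polyA μ A X) =
      ∑ s ∈ range μ, qExpansion 1 (X s) * qExpansion 1 A ^ (μ - 1 - s) := by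
  rw [polyA, IsQFun.qExpansion_sum _ fun s _ => (hX s).mul (hA.pow _)]
  refine Finset.sum_congr rfl fun s _ => ?_
  rw [(hX s).qExpansion_mul (hA.pow _), hA.qExpansion_pow]

theorem qExpansion_polyA_map {μ : ℕ} {A : ℍ → ℂ} {X X' : ℕ → ℍ → ℂ} (hA : IsQFun A)
    (hAσ : (qExpansion 1 A).map σ = qExpansion 1 A)
    (hX : ∀ s, IsQFun (X s)) (hX' : ∀ s, IsQFun (X' s))
    (hσ : ∀ s, qExpansion 1 (X' s) = (qExpansion 1 (X s)).map σ) :
    qExpansion 1 (polyA μ A X') = (qExpansion 1 (polyA μ A X)).map σ := by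
  rw [qExpansion_polyA hA hX', qExpansion_polyA hA hX, map_sum]
  refine Finset.sum_congr rfl fun s _ => ?_
  rw [map_mul, map_pow, hAσ, hσ s]

/-- The monic relation expression. -/
noncomputable def relFun (μ : ℕ) (num den : ℍ → ℂ) (e : ℕ → ℍ → ℂ) : ℍ → ℂ :=
  num ^ μ + ∑ j ∈ range μ, e (j + 1) * num ^ (μ - 1 - j) * den ^ (j + 1)

theorem relFun_apply (μ : ℕ) (num den : ℍ → ℂ) (e : ℕ → ℍ → ℂ) (z : ℍ) :
    relFun μ num den e z =
      num z ^ μ + ∑ j ∈ range μ, e (j + 1) z * num z ^ (μ - 1 - j) * den z ^ (j + 1) := by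
  simp [relFun, Finset.sum_apply]

theorem relFun_isQFun {μ : ℕ} {num den : ℍ → ℂ} {e : ℕ → ℍ → ℂ} (hn : IsQFun num)
    (hd : IsQFun den) (he : ∀ j, IsQFun (e j)) : IsQFun (relFun μ num den e) :=
  (hn.pow _).add (IsQFun.sum _ fun _ _ => ((he _).mul (hn.pow _)).mul (hd.pow _))

theorem qExpansion_relFun {μ : ℕ} {num den : ℍ → ℂ} {e : ℕ → ℍ → ℂ} (hn : IsQFun num)
    (hd : IsQFun den) (he : ∀ j, IsQFun (e j)) :
    qExpansion 1 (relFun μ num den e) = qExpansion 1 num ^ μ +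
      ∑ j ∈ range μ, qExpansion 1 (e (j + 1)) * qExpansion 1 num ^ (μ - 1 - j) *
        qExpansion 1 den ^ (j + 1) := by
  rw [relFun, (hn.pow _).qExpansion_add
    (IsQFun.sum _ fun j _ => ((he _).mul (hn.pow _)).mul (hd.pow _)), hn.qExpansion_pow,
    IsQFun.qExpansion_sum _ fun j _ => ((he _).mul (hn.pow _)).mul (hd.pow _)]
  congr 1
  refine Finset.sum_congr rfl fun j _ => ?_
  rw [((he _).mul (hn.pow _)).qExpansion_mul (hd.pow _), (he _).qExpansion_mul (hn.pow _),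
    hn.qExpansion_pow, hd.qExpansion_pow]

theorem qExpansion_relFun_map {μ : ℕ} {num den num' den' : ℍ → ℂ} {e e' : ℕ → ℍ → ℂ}
    (hn : IsQFun num) (hd : IsQFun den) (he : ∀ j, IsQFun (e j))
    (hn' : IsQFun num') (hd' : IsQFun den') (he' : ∀ j, IsQFun (e' j))
    (hσn : qExpansion 1 num' = (qExpansion 1 num).map σ)
    (hσd : qExpansion 1 den' = (qExpansion 1 den).map σ)
    (hσe : ∀ j, qExpansion 1 (e' j) = (qExpansion 1 (e j)).map σ) :
    qExpansion 1 (relFun μ num' den' e') = (qExpansion 1 (relFun μ num den e)).map σ := by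
  rw [qExpansion_relFun hn' hd' he', qExpansion_relFun hn hd he, map_add, map_pow, map_sum, hσn]
  congr 1
  refine Finset.sum_congr rfl fun j _ => ?_
  rw [map_mul, map_mul, map_pow, map_pow, hσd, hσe]

theorem polyA_slash {μ : ℕ} {l t : ℤ} {A : ℍ → ℂ} {X : ℕ → ℍ → ℂ} (γ : SL(2, ℤ))
    (hA : A ∣[l] γ = A) (hX : ∀ s : ℕ, X s ∣[t + l * (s : ℤ)] γ = X s) :
    polyA μ A X ∣[t + l * ((μ : ℤ) - 1)] γ = polyA μ A X := by
  rw [polyA, SlashAction.sum_slash]
  refine Finset.sum_congr rfl fun s hs => ?_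
  have hs' : s < μ := Finset.mem_range.1 hs
  have hw : t + l * ((μ : ℤ) - 1) = (t + l * (s : ℤ)) + l * ((μ - 1 - s : ℕ) : ℤ) := by
    have : ((μ - 1 - s : ℕ) : ℤ) = (μ : ℤ) - 1 - s := by omega
    rw [this]; ring
  rw [hw, mul_slash_SL2, pow_slash_SL2, hA, hX]

end Asm

open CongruenceSubgroup in
/-- **Piece (7a) of S23**: abstract assembly.  `e j` (weight `2 j`, level one) are the lower
coefficients of a monic polynomial of degree `μ` killing `f`; `L s`, `D s` (level one, weights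
`2 + l s` and `l s`) are the coefficients of the Lagrange numerator and denominator with respect to
the primitive element `A` (weight `l`, `σ`-fixed `q`-expansion); primed data are `σ`-conjugates. -/
theorem exists_cuspForm_conj {N : ℕ} [NeZero N] (σ : ℂ →+* ℂ) (f : CuspForm (Gamma0 N) 2)
    {l : ℤ} {T : Type*} [FunLike T ℍ ℂ]
    [ModularFormClass T ((Gamma0 N : Subgroup SL(2, ℤ)) : Subgroup (GL (Fin 2) ℝ)) l] (A : T)
    (hAσ : (qExpansion 1 A).map σ = qExpansion 1 A)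
    {μ : ℕ} (hμ : 0 < μ) {e e' L L' D D' : ℕ → ℍ → ℂ}
    (he : ∀ j : ℕ, LevelOneFun (2 * (j : ℤ)) (e j))
    (he' : ∀ j : ℕ, LevelOneFun (2 * (j : ℤ)) (e' j))
    (he'0 : ∀ j, 1 ≤ j → IsZeroAtImInfty (e' j))
    (hL : ∀ s : ℕ, LevelOneFun (2 + l * (s : ℤ)) (L s))
    (hL' : ∀ s : ℕ, LevelOneFun (2 + l * (s : ℤ)) (L' s))
    (hD : ∀ s : ℕ, LevelOneFun (0 + l * (s : ℤ)) (D s))
    (hD' : ∀ s : ℕ, LevelOneFun (0 + l * (s : ℤ)) (D' s))
    (hσe : ∀ j, qExpansion 1 (e' j) = (qExpansion 1 (e j)).map σ)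
    (hσL : ∀ s, qExpansion 1 (L' s) = (qExpansion 1 (L s)).map σ)
    (hσD : ∀ s, qExpansion 1 (D' s) = (qExpansion 1 (D s)).map σ)
    (hmonic : ∀ z, f z ^ μ + ∑ j ∈ range μ, e (j + 1) z * f z ^ (μ - 1 - j) = 0)
    (hlag : ∀ z, f z * ∑ s ∈ range μ, D s z * A z ^ (μ - 1 - s) =
      ∑ s ∈ range μ, L s z * A z ^ (μ - 1 - s))
    (hden : ∃ z, ∑ s ∈ range μ, D s z * A z ^ (μ - 1 - s) ≠ 0) :
    ∃ g : CuspForm (Gamma0 N) 2, qExpansion 1 g = (qExpansion 1 f).map σ := by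
  have h1 := CongruenceSubgroup.one_mem_strictPeriods_Gamma0 N
  have hAq : IsQFun (A : ℍ → ℂ) := IsQFun.of_modularForm h1 A
  have hfq : IsQFun (f : ℍ → ℂ) := IsQFun.of_modularForm h1 f
  set num := Asm.polyA μ A L with hnum
  set den := Asm.polyA μ A D with hden_def
  set num' := Asm.polyA μ A L' with hnum'
  set den' := Asm.polyA μ A D' with hden'
  have hnumq : IsQFun num := Asm.polyA_isQFun hAq fun s => (hL s).isQFun
  have hdenq : IsQFun den := Asm.polyA_isQFun hAq fun s => (hD s).isQFun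
  have hnumq' : IsQFun num' := Asm.polyA_isQFun hAq fun s => (hL' s).isQFun
  have hdenq' : IsQFun den' := Asm.polyA_isQFun hAq fun s => (hD' s).isQFun
  have hσnum : qExpansion 1 num' = (qExpansion 1 num).map σ :=
    Asm.qExpansion_polyA_map hAq hAσ (fun s => (hL s).isQFun) (fun s => (hL' s).isQFun) hσL
  have hσden : qExpansion 1 den' = (qExpansion 1 den).map σ :=
    Asm.qExpansion_polyA_map hAq hAσ (fun s => (hD s).isQFun) (fun s => (hD' s).isQFun) hσD
  -- `num = f * den`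
  have hfd : (f : ℍ → ℂ) * den = num := by
    ext z
    simp only [Pi.mul_apply, hnum, hden_def, Asm.polyA_apply]
    exact hlag z
  -- `den ≠ 0`, hence `den' ≠ 0`
  have hden0 : den ≠ 0 := by
    obtain ⟨z, hz⟩ := hden
    intro h
    apply hz
    have := congrFun h z
    simpa [hden_def, Asm.polyA_apply] using this
  have hqden0 : (qExpansion 1 den).map σ ≠ 0 := by
    rw [Ne, Asm.map_eq_zero_iff]
    exact hdenq.qExpansion_ne_zero hden0
  have hden'0 : ∃ τ, den' τ ≠ 0 := by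
    by_contra h
    push Not at h
    have : den' = 0 := funext h
    rw [this, qExpansion_zero] at hσden
    exact hqden0 hσden.symm
  -- the monic relation
  have hR : Asm.relFun μ num den e = 0 := by
    ext z
    rw [Asm.relFun_apply, ← hfd]
    simp only [Pi.mul_apply, Pi.zero_apply]
    have hm := hmonic z
    have : (f z * den z) ^ μ +
        ∑ j ∈ range μ, e (j + 1) z * (f z * den z) ^ (μ - 1 - j) * den z ^ (j + 1) =
        den z ^ μ * (f z ^ μ + ∑ j ∈ range μ, e (j + 1) z * f z ^ (μ - 1 - j)) := by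
      rw [mul_add, Finset.mul_sum, mul_pow]
      congr 1
      · ring
      · refine Finset.sum_congr rfl fun j hj => ?_
        have hj' : j < μ := Finset.mem_range.1 hj
        have : den z ^ μ = den z ^ (μ - 1 - j) * den z ^ (j + 1) := by
          rw [← pow_add]; congr 1; omega
        rw [this, mul_pow]
        ring
    rw [this, hm, mul_zero]
  have hR' : Asm.relFun μ num' den' e' = 0 := by
    refine (Asm.relFun_isQFun hnumq' hdenq' fun j => (he' j).isQFun).eq_zero_of_qExpansion_eq_zero ?_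
    rw [Asm.qExpansion_relFun_map hnumq hdenq (fun j => (he j).isQFun) hnumq' hdenq'
      (fun j => (he' j).isQFun) hσnum hσden hσe, hR, qExpansion_zero, map_zero]
  have hrel' : ∀ z : ℍ, num' z ^ μ +
      ∑ j ∈ Finset.range μ, e' (j + 1) z * num' z ^ (μ - 1 - j) * den' z ^ (j + 1) = 0 := by
    intro z
    have := congrFun hR' z
    rwa [Asm.relFun_apply] at this
  -- invariance
  have hAinv : ∀ γ ∈ Gamma0 N, (A : ℍ → ℂ) ∣[l] γ = A := fun γ hγ =>
    SlashInvariantForm.slash_action_eqn A _ (Subgroup.mem_map_of_mem _ hγ)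
  have hnum_inv : ∀ γ ∈ Gamma0 N, num' ∣[(2 + l * ((μ : ℤ) - 1) : ℤ)] γ = num' := fun γ hγ =>
    Asm.polyA_slash γ (hAinv γ hγ) fun s => (hL' s).inv γ
  have hden_inv : ∀ γ ∈ Gamma0 N, den' ∣[(l * ((μ : ℤ) - 1) : ℤ)] γ = den' := fun γ hγ => by
    have := Asm.polyA_slash (t := 0) (μ := μ) γ (hAinv γ hγ) fun s => (hD' s).inv γ
    rwa [zero_add] at this
  obtain ⟨g, hg⟩ := exists_cuspForm_of_monic_relation_fun hnumq'.holo hdenq'.holo hnum_inv hden_inv
    hden'0 hμ (fun j => (he' j).holo) (fun j γ => (he' j).inv γ) he'0 hrel'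
  refine ⟨g, ?_⟩
  have hgq : IsQFun (g : ℍ → ℂ) := IsQFun.of_modularForm h1 g
  have hgd : (g : ℍ → ℂ) * den' = num' := funext hg
  have e1 : qExpansion 1 g * qExpansion 1 den' = (qExpansion 1 f).map σ * qExpansion 1 den' := by
    rw [← hgq.qExpansion_mul hdenq', hgd, hσnum, ← hfd, hfq.qExpansion_mul hdenq, map_mul, hσden]
  have hq0 : qExpansion 1 den' ≠ 0 := by rw [hσden]; exact hqden0
  exact mul_right_cancel₀ hq0 e1

end Fermat.Agent.S23
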