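import Mathlib
import Fermat.Prelude.Thm_CongruenceSubgroup_one_mem_strictPeriods_Gamma0

/-!
# S23: basic definitions shared by all pieces

* `G0 N`     : `Γ₀(N)` as a subgroup of `GL₂(ℝ)` (what `CuspForm (Gamma0 N) k` elaborates to);
* `IsQNice`  : functions on `ℍ` having a `q`-expansion in `q = e^{2πiz}`;
* `IsConj`   : `F'` is the `σ`-conjugate of `F` (coefficientwise on `q`-expansions), both being
               modular forms of weight `k` on `Γ₀(N)`.
-/

set_option autoImplicit false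

open UpperHalfPlane ModularForm CongruenceSubgroup ModularFormClass
open scoped MatrixGroups Manifold

namespace Fermat.Agent.S23

/-- `Γ₀(N)` as a subgroup of `GL₂(ℝ)`. -/
abbrev G0 (N : ℕ) : Subgroup (GL (Fin 2) ℝ) :=
  Subgroup.map (Matrix.SpecialLinearGroup.mapGL ℝ) (Gamma0 N)

theorem cuspForm_G0_eq (N : ℕ) (k : ℤ) : CuspForm (Gamma0 N) k = CuspForm (G0 N) k := rfl

theorem one_mem_strictPeriods_G0 (N : ℕ) : (1 : ℝ) ∈ (G0 N).strictPeriods :=
  CongruenceSubgroup.one_mem_strictPeriods_Gamma0 N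

/-- `F` is `1`-periodic, holomorphic and bounded at `i∞`. -/
structure IsQNice (F : ℍ → ℂ) : Prop where
  per : Function.Periodic (F ∘ ofComplex) 1
  holo : MDiff F
  bdd : IsBoundedAtImInfty F

/-- `F'` is a `σ`-conjugate of `F`; both are (the functions underlying) modular forms of
weight `k` on `Γ₀(N)`. -/
structure IsConj (σ : ℂ →+* ℂ) (N : ℕ) (k : ℤ) (F F' : ℍ → ℂ) : Prop where
  mf : ∃ G : ModularForm (G0 N) k, ⇑G = F
  mf' : ∃ G' : ModularForm (G0 N) k, ⇑G' = F'
  qexp : qExpansion 1 F' = (qExpansion 1 F).map σ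

end Fermat.Agent.S23
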