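import Mathlib
import Fermat.Agent.S23.Defs
import Fermat.Agent.S23.SymmForms
import Fermat.Agent.S23.Assembly

set_option autoImplicit false

/-!
# S23, piece (7): the conjugate of a cusp form of weight `2` on `Γ₀(N)`

`exists_conj_of_levelOne_of_primitive`: given
* conjugation of level-one forms (piece (1)), and
* a form `A` on `Γ₀(N)` with `σ`-fixed `q`-expansion whose `SL(2,ℤ)`-translates are pairwise
  distinct (piece (3)),
every `f ∈ S₂(Γ₀(N))` has a `σ`-conjugate `g ∈ S₂(Γ₀(N))`.
-/

open UpperHalfPlane ModularForm Filter Topology Complex Set Function Finset SlashInvariantForm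
open scoped MatrixGroups Manifold

namespace Fermat.Agent.S23

open Asm CongruenceSubgroup

namespace Asm

/-- A level-one form whose `q`-expansion has vanishing constant term is zero at `i∞`. -/
theorem isZeroAtImInfty_of_coeff_zero {k : ℤ} (F : ModularForm 𝒮ℒ k)
    (h : (qExpansion 1 F).coeff 0 = 0) : IsZeroAtImInfty F := by
  have hc : IsCusp OnePoint.infty 𝒮ℒ :=
    Subgroup.isCusp_of_mem_strictPeriods (h := 1) one_pos one_mem_strictPeriods_SL
  exact OnePoint.isZeroAt_infty_iff.mp (ModularForm.isZeroAt_of_coeffZero_eq_zero F h hc)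

/-- The constant term of the `q`-expansion of a level-one form vanishing at `i∞` is zero. -/
theorem coeff_zero_of_isZeroAtImInfty {k : ℤ} (F : ModularForm 𝒮ℒ k)
    (h : IsZeroAtImInfty F) : (qExpansion 1 F).coeff 0 = 0 := by
  rw [qExpansion_coeff_zero one_pos
    (ModularFormClass.analyticAt_cuspFunction_zero F one_pos one_mem_strictPeriods_SL)
    (SlashInvariantFormClass.periodic_comp_ofComplex F one_mem_strictPeriods_SL)]
  exact h.valueAtInfty_eq_zero

end Asm

variable {N : ℕ} [NeZero N]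

local notation "𝒬" => 𝒮ℒ ⧸ (Subgroup.subgroupOf (G0 N) 𝒮ℒ)

/-- **Piece (7) of S23**, relative to pieces (1) and (3). -/
theorem exists_conj_of_levelOne_of_primitive
    (hL1 : ∀ (σ : ℂ →+* ℂ) (k : ℤ) (F : ModularForm 𝒮ℒ k),
      ∃ F' : ModularForm 𝒮ℒ k, qExpansion 1 F' = (qExpansion 1 F).map σ)
    {l : ℤ} {T : Type*} [FunLike T ℍ ℂ] [ModularFormClass T (G0 N) l] (A : T)
    (hAσ : ∀ σ : ℂ →+* ℂ, (qExpansion 1 A).map σ = qExpansion 1 A)
    (hAdist : ∀ q : 𝒬, quotientFunc A q = ⇑A → q = ((1 : 𝒮ℒ) : 𝒬))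
    (σ : ℂ →+* ℂ) (f : CuspForm (Gamma0 N) 2) :
    ∃ g : CuspForm (Gamma0 N) 2, qExpansion 1 g = (qExpansion 1 f).map σ := by
  classical
  let _ : Fintype 𝒬 := Fintype.ofFinite 𝒬
  set μ := Nat.card 𝒬 with hμdef
  have hμ : 0 < μ := Nat.card_pos
  -- the level-one forms
  let E : ∀ j : ℕ, ModularForm 𝒮ℒ (2 * (j : ℤ)) := fun j => ((-1 : ℂ) ^ j) • esymmForm f j
  let Lf : ∀ s : ℕ, ModularForm 𝒮ℒ (2 + l * (s : ℤ)) := fun s =>
    ((-1 : ℂ) ^ s) • lagrangeForm f A s
  let Df : ∀ s : ℕ, ModularForm 𝒮ℒ (0 + l * (s : ℤ)) := fun s =>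
    ((-1 : ℂ) ^ s) • lagrangeForm (1 : ModularForm (G0 N) 0) A s
  choose E' hE' using fun j => hL1 σ _ (E j)
  choose Lf' hLf' using fun s => hL1 σ _ (Lf s)
  choose Df' hDf' using fun s => hL1 σ _ (Df s)
  have hEapp : ∀ j z, E j z = (-1 : ℂ) ^ j * esymmFun f j z := fun j z => by
    simp [E]
  have hLapp : ∀ s z, Lf s z = (-1 : ℂ) ^ s * lagrangeFun f A s z := fun s z => by
    simp [Lf]
  have hDapp : ∀ s z, Df s z = (-1 : ℂ) ^ s * lagrangeFun (1 : ModularForm (G0 N) 0) A s z :=
    fun s z => by simp [Df]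
  refine exists_cuspForm_conj σ f A (hAσ σ) hμ
    (e := fun j => E j) (e' := fun j => E' j) (L := fun s => Lf s) (L' := fun s => Lf' s)
    (D := fun s => Df s) (D' := fun s => Df' s)
    (fun j => LevelOneFun.of_modularForm (E j)) (fun j => LevelOneFun.of_modularForm (E' j))
    ?_ (fun s => LevelOneFun.of_modularForm (Lf s)) (fun s => LevelOneFun.of_modularForm (Lf' s))
    (fun s => LevelOneFun.of_modularForm (Df s)) (fun s => LevelOneFun.of_modularForm (Df' s))
    hE' hLf' hDf' ?_ ?_ ?_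
  · -- conjugates of cusp forms are cusp forms
    intro j hj
    refine isZeroAtImInfty_of_coeff_zero (E' j) ?_
    rw [hE' j, PowerSeries.coeff_map]
    have : IsZeroAtImInfty (E j) := by
      have h0 := esymmFun_isZeroAtImInfty f hj
      have : (E j : ℍ → ℂ) = ((-1 : ℂ) ^ j) • esymmFun f j := by
        ext z; simp [hEapp]
      rw [this]
      exact h0.smul _
    rw [coeff_zero_of_isZeroAtImInfty (E j) this, map_zero]
  · -- the monic relation
    intro z
    have h := esymm_root f z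
    rw [Finset.sum_range_succ'] at h
    simp only [pow_zero, one_mul, esymmFun_zero, Pi.one_apply, Nat.sub_zero] at h
    rw [add_comm] at h
    rw [← h]
    congr 1
    refine Finset.sum_congr rfl fun j _ => ?_
    rw [hEapp]
    congr 2
    change μ - 1 - j = μ - (j + 1)
    omega
  · -- the Lagrange identity
    intro z
    have h1 := lagrange_identity f A z
    have h2 := lagrange_identity_one (𝒢 := G0 N) A z
    have e1 : ∑ s ∈ range μ, Df s z * A z ^ (μ - 1 - s) =
        ∏ q ∈ (univ : Finset 𝒬).erase ((1 : 𝒮ℒ) : 𝒬), (A z - quotientFunc A q z) := by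
      rw [← h2]
      exact Finset.sum_congr rfl fun s _ => by rw [hDapp]
    have e2 : ∑ s ∈ range μ, Lf s z * A z ^ (μ - 1 - s) =
        f z * ∏ q ∈ (univ : Finset 𝒬).erase ((1 : 𝒮ℒ) : 𝒬), (A z - quotientFunc A q z) := by
      rw [← h1]
      exact Finset.sum_congr rfl fun s _ => by rw [hLapp]
    rw [e1, e2]
  · -- the denominator is not identically zero
    have h := lagrange_den_ne_zero A hAdist
    by_contra hcon
    push Not at hcon
    apply h
    ext z
    have h2 := lagrange_identity_one (𝒢 := G0 N) A z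
    rw [Pi.zero_apply, ← h2, ← hcon z]
    exact Finset.sum_congr rfl fun s _ => by rw [hDapp]

end Fermat.Agent.S23
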