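import Mathlib

/-!
# S23, piece (1): conjugation of level-one modular forms

For every ring homomorphism `σ : ℂ →+* ℂ` and every level-one modular form `F` of weight `k`
there is a level-one modular form `F'` of the same weight whose `q`-expansion is the
coefficientwise `σ`-conjugate of the `q`-expansion of `F`.

Proof: induction on the weight through `F = a₀ E_k + Δ · H` with `H` of weight `k - 12`;
`E_k` and `Δ` have rational `q`-expansions.
-/

set_option autoImplicit false

open UpperHalfPlane ModularForm ModularFormClass EisensteinSeries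
open scoped MatrixGroups Manifold

namespace Fermat.Agent.S23

namespace LOC

/-- a power series with rational coefficients is fixed by coefficientwise conjugation -/
theorem map_eq_self_of_rational {p : PowerSeries ℂ} (h : ∀ n, ∃ r : ℚ, p.coeff n = (r : ℂ))
    (σ : ℂ →+* ℂ) : p.map σ = p := by
  ext n
  obtain ⟨r, hr⟩ := h n
  rw [PowerSeries.coeff_map, hr, map_ratCast]

theorem E_qExpansion_rational {k : ℕ} (hk : 3 ≤ k) (hk2 : Even k) (n : ℕ) :
    ∃ r : ℚ, (qExpansion 1 (E hk)).coeff n = (r : ℂ) := by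
  rw [E_qExpansion_coeff hk hk2]
  split_ifs with h
  · exact ⟨1, by simp⟩
  · exact ⟨-(2 * k / bernoulli k) * (ArithmeticFunction.sigma (k - 1) n : ℚ), by push_cast; ring⟩

theorem rational_mul {p q : PowerSeries ℂ} (hp : ∀ n, ∃ r : ℚ, p.coeff n = (r : ℂ))
    (hq : ∀ n, ∃ r : ℚ, q.coeff n = (r : ℂ)) : ∀ n, ∃ r : ℚ, (p * q).coeff n = (r : ℂ) := by
  intro n
  rw [PowerSeries.coeff_mul]
  choose a ha using hp
  choose b hb using hq
  exact ⟨∑ x ∈ Finset.HasAntidiagonal.antidiagonal n, a x.1 * b x.2, by push_cast; simp [ha, hb]⟩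

theorem rational_sub {p q : PowerSeries ℂ} (hp : ∀ n, ∃ r : ℚ, p.coeff n = (r : ℂ))
    (hq : ∀ n, ∃ r : ℚ, q.coeff n = (r : ℂ)) : ∀ n, ∃ r : ℚ, (p - q).coeff n = (r : ℂ) := by
  intro n
  obtain ⟨a, ha⟩ := hp n
  obtain ⟨b, hb⟩ := hq n
  exact ⟨a - b, by rw [map_sub, ha, hb]; push_cast; ring⟩

/-- `E₄³ - E₆²` as a level-one form of weight 12 -/
noncomputable def e4e6 : ModularForm 𝒮ℒ 12 :=
  ModularForm.mcast (by decide) (E₄.pow 3) - ModularForm.mcast (by decide) (E₆.pow 2)

theorem e4e6_apply (z : ℍ) : e4e6 z = E₄ z ^ 3 - E₆ z ^ 2 := by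
  simp only [e4e6, coe_mcast, coe_pow, sub_apply, Pi.pow_apply]

theorem e4e6_qExpansion :
    qExpansion 1 e4e6 = qExpansion 1 E₄ * qExpansion 1 E₄ * qExpansion 1 E₄ -
      qExpansion 1 E₆ * qExpansion 1 E₆ := by
  simp only [e4e6, FunLike.coe_sub, coe_mcast,
    ModularForm.qExpansion_sub one_pos one_mem_strictPeriods_SL,
    ModularForm.qExpansion_pow one_pos one_mem_strictPeriods_SL]
  ring

theorem discriminant_qExpansion_rational (n : ℕ) :
    ∃ r : ℚ, (qExpansion 1 ModularForm.discriminant).coeff n = (r : ℂ) := by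
  have h4 := E_qExpansion_rational (k := 4) (by norm_num) ⟨2, rfl⟩
  have h6 := E_qExpansion_rational (k := 6) (by norm_num) ⟨3, rfl⟩
  have hfun : (ModularForm.discriminant : ℍ → ℂ) = (1 / 1728 : ℂ) • ⇑e4e6 := by
    ext z
    rw [discriminant_eq_E₄_cube_sub_E₆_sq z, Pi.smul_apply, e4e6_apply, smul_eq_mul]
    ring
  rw [hfun, ModularForm.qExpansion_smul one_pos one_mem_strictPeriods_SL, e4e6_qExpansion]
  obtain ⟨r, hr⟩ := rational_sub (rational_mul (rational_mul h4 h4) h4) (rational_mul h6 h6) n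
  exact ⟨(1 / 1728) * r, by rw [PowerSeries.coeff_smul, hr]; push_cast; ring⟩

theorem conj_of_coe_eq_zero (σ : ℂ →+* ℂ) {k : ℤ} (F : ModularForm 𝒮ℒ k) (hF : (F : ℍ → ℂ) = 0) :
    ∃ F' : ModularForm 𝒮ℒ k, qExpansion 1 F' = (qExpansion 1 F).map σ :=
  ⟨0, by rw [hF, FunLike.coe_zero, qExpansion_zero, map_zero]⟩

end LOC

open LOC in
/-- **Conjugation of level-one forms.** -/
theorem exists_conj_levelOne (σ : ℂ →+* ℂ) {k : ℤ} (F : ModularForm 𝒮ℒ k) :
    ∃ F' : ModularForm 𝒮ℒ k, qExpansion 1 F' = (qExpansion 1 F).map σ := by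
  induction hn : k.toNat using Nat.strong_induction_on generalizing k with
  | _ n ih =>
  rcases lt_trichotomy k 0 with hk | hk | hk
  · -- negative weight
    exact conj_of_coe_eq_zero σ F (levelOne_neg_weight_eq_zero hk F)
  · -- weight zero: constants
    subst hk
    obtain ⟨c, hc⟩ := levelOne_weight_zero_const F
    refine ⟨σ c • (1 : ModularForm 𝒮ℒ 0), ?_⟩
    have h1 : (F : ℍ → ℂ) = c • ⇑(1 : ModularForm 𝒮ℒ 0) := by
      rw [hc]; ext z; simp
    rw [h1, FunLike.coe_smul, ModularForm.qExpansion_smul one_pos one_mem_strictPeriods_SL,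
      ModularForm.qExpansion_smul one_pos one_mem_strictPeriods_SL, ModularForm.qExpansion_one]
    ext m
    simp [PowerSeries.coeff_one, apply_ite σ]
  · -- positive weight
    rcases Int.even_or_odd k with hev | hodd
    swap
    · exact conj_of_coe_eq_zero σ F (by rw [levelOne_odd_weight_eq_zero hodd F]; rfl)
    obtain ⟨m, rfl⟩ : ∃ m : ℕ, k = (m : ℤ) := ⟨k.toNat, (Int.toNat_of_nonneg hk.le).symm⟩
    have hm2 : Even m := by exact_mod_cast hev
    have hm0 : 0 < m := by exact_mod_cast hk
    rcases Nat.lt_or_ge m 3 with hm3 | hm3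
    · -- weight 2
      obtain rfl : m = 2 := by
        obtain ⟨t, ht⟩ := hm2
        omega
      have : F = 0 := rank_zero_iff_forall_zero.mp levelOne_weight_two_rank_zero F
      exact conj_of_coe_eq_zero σ F (by rw [this]; rfl)
    · -- weight ≥ 4
      set a0 : ℂ := (qExpansion 1 F).coeff 0 with ha0
      have hE0 : (qExpansion 1 (E hm3)).coeff 0 = 1 := E_qExpansion_coeff_zero hm3 hm2
      set G : ModularForm 𝒮ℒ (m : ℤ) := F - a0 • E hm3 with hG
      have hGq : qExpansion 1 G = qExpansion 1 F - a0 • qExpansion 1 (E hm3) := by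
        rw [hG, FunLike.coe_sub, ModularForm.qExpansion_sub one_pos one_mem_strictPeriods_SL,
          FunLike.coe_smul, ModularForm.qExpansion_smul one_pos one_mem_strictPeriods_SL]
      have hG0 : (qExpansion 1 G).coeff 0 = 0 := by
        rw [hGq, map_sub, PowerSeries.coeff_smul, hE0]
        simp [ha0]
      set H : ModularForm 𝒮ℒ ((m : ℤ) - 12) := CuspForm.discriminantEquiv (toCuspForm G hG0)
        with hH
      have hGH : qExpansion 1 G = qExpansion 1 ModularForm.discriminant * qExpansion 1 H :=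
        qExpansion_eq_qExpansion_discriminant_mul G hG0
      obtain ⟨H', hH'⟩ := ih ((m : ℤ) - 12).toNat (by omega) H rfl
      refine ⟨σ a0 • E hm3 + CuspForm.toModularFormₗ (CuspForm.ofMulDiscriminant H'), ?_⟩
      have hcoe : (⇑(CuspForm.toModularFormₗ (CuspForm.ofMulDiscriminant H')) : ℍ → ℂ) =
          ⇑CuspForm.discriminant * ⇑H' := by
        ext z
        simp [CuspForm.toModularFormₗ_apply, CuspForm.coe_discriminant]
      have hF : qExpansion 1 F = a0 • qExpansion 1 (E hm3) +
          qExpansion 1 ModularForm.discriminant * qExpansion 1 H := by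
        rw [← hGH, hGq]; ring
      rw [FunLike.coe_add, ModularForm.qExpansion_add one_pos one_mem_strictPeriods_SL,
        FunLike.coe_smul, ModularForm.qExpansion_smul one_pos one_mem_strictPeriods_SL, hcoe,
        ModularForm.qExpansion_mul_coe one_pos one_mem_strictPeriods_SL, CuspForm.coe_discriminant,
        hH', hF, map_add, map_mul,
        map_eq_self_of_rational discriminant_qExpansion_rational σ]
      congr 1
      ext j
      rw [PowerSeries.coeff_map, PowerSeries.coeff_smul, PowerSeries.coeff_smul, smul_eq_mul,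
        smul_eq_mul, map_mul]
      congr 1
      obtain ⟨r, hr⟩ := E_qExpansion_rational hm3 hm2 j
      rw [hr, map_ratCast]

/-- Conjugation of level-one forms preserves vanishing at `i∞`. -/
theorem exists_conj_levelOne_cusp (σ : ℂ →+* ℂ) {k : ℤ} (F : ModularForm 𝒮ℒ k)
    (hF : IsZeroAtImInfty F) :
    ∃ F' : ModularForm 𝒮ℒ k, qExpansion 1 F' = (qExpansion 1 F).map σ ∧ IsZeroAtImInfty F' := by
  obtain ⟨F', hF'⟩ := exists_conj_levelOne σ F
  refine ⟨F', hF', ?_⟩
  have h0 : (qExpansion 1 F).coeff 0 = 0 := by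
    rw [qExpansion_coeff_zero one_pos
      (ModularFormClass.analyticAt_cuspFunction_zero F one_pos one_mem_strictPeriods_SL)
      (SlashInvariantFormClass.periodic_comp_ofComplex F one_mem_strictPeriods_SL)]
    exact hF.valueAtInfty_eq_zero
  have h0' : (qExpansion 1 F').coeff 0 = 0 := by
    rw [hF', PowerSeries.coeff_map, h0, map_zero]
  have := isZeroAt_of_coeffZero_eq_zero F' h0'
    (c := OnePoint.infty) (Subgroup.isCusp_of_mem_strictPeriods one_pos one_mem_strictPeriods_SL)
  simpa using (OnePoint.isZeroAt_infty_iff).mp this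

end Fermat.Agent.S23
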