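import Mathlib
import Fermat.Prelude.Def_FLTPrelim_Modularity
import Fermat.Agent.S23.ConjAssembly
import Fermat.Agent.S23.LevelOneConj
import Fermat.Agent.S23.DeltaN

set_option autoImplicit false

/-!
# S23, piece (7), final form: `S₂(Γ₀(N))` is stable under `Aut(ℂ)` acting on `q`-expansions
-/

open UpperHalfPlane ModularForm CongruenceSubgroup ModularFormClass
open scoped MatrixGroups Manifold

namespace Fermat.Agent.S23

/-- Every ring endomorphism `σ` of `ℂ` acts on `S₂(Γ₀(N))` through `q`-expansions. -/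
theorem exists_conj_cuspForm (N : ℕ) [NeZero N] (σ : ℂ →+* ℂ) (f : CuspForm (Gamma0 N) 2) :
    ∃ g : CuspForm (Gamma0 N) 2, qExpansion 1 g = (qExpansion 1 f).map σ :=
  exists_conj_of_levelOne_of_primitive (fun σ _ F => exists_conj_levelOne σ F) (deltaNForm N)
    (fun σ => deltaN_qExpansion_map_of_rational N σ LOC.discriminant_qExpansion_rational)
    (quotientFunc_deltaNForm_eq_self N) σ f

/-- **Piece (7)**: stability of `S₂(Γ₀(N))` under `Aut(ℂ)`. -/
theorem hconj (N : ℕ) [NeZero N] (σ : ℂ ≃+* ℂ) (f : CuspForm (Gamma0 N) 2) :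
    ∃ g : CuspForm (Gamma0 N) 2, ∀ n, qCoeff ⇑g n = σ (qCoeff ⇑f n) := by
  obtain ⟨g, hg⟩ := exists_conj_cuspForm N (σ : ℂ →+* ℂ) f
  refine ⟨g, fun n => ?_⟩
  simp only [qCoeff, hg, PowerSeries.coeff_map]
  rfl

end Fermat.Agent.S23
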