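import Mathlib
import Fermat.Prelude.Def_CuspForm_IntegralStructure
import Fermat.Agent.S49.Basic

set_option autoImplicit false

open CuspForm CongruenceSubgroup ModularFormClass UpperHalfPlane

namespace Fermat.Agent.S23

open Fermat.Agent.S49

variable {N : ℕ} [NeZero N]

/-- The Hecke operator `T_n` inside the full Hecke algebra: its first coefficient functional
reads off the `n`-th coefficient. -/
theorem exists_hecke_coeff (n : ℕ) (hn : 0 < n) :
    ∃ t : heckeAlgebra N 2 (∅ : Set ℕ), ∀ f : CuspForm (Gamma0 N) 2,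
      qCoeff ⇑((t : Module.End ℂ (CuspForm (Gamma0 N) 2)) f) 1 = qCoeff ⇑f n := by
  induction n using Nat.strong_induction_on with
  | _ n ih =>
    rcases eq_or_lt_of_le (Nat.one_le_of_lt hn) with h1 | h1
    · subst h1
      exact ⟨1, fun f => rfl⟩
    · -- n > 1
      set p := n.minFac with hp_def
      have hp : p.Prime := Nat.minFac_prime (by omega)
      have hpn : p ∣ n := Nat.minFac_dvd n
      obtain ⟨m, hm⟩ := hpn
      have hm0 : 0 < m := by
        rcases Nat.eq_zero_or_pos m with h | h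
        · rw [h, mul_zero] at hm; omega
        · exact h
      have hmn : m < n := by
        rw [hm]
        exact lt_mul_of_one_lt_left hm0 hp.one_lt
      obtain ⟨tm, htm⟩ := ih m hmn hm0
      have hnm : n = m * p := by rw [hm, mul_comm]
      by_cases hpN : p ∣ N
      · -- U operator
        refine ⟨tm * heckeAlgebra.U hp hpN (Set.notMem_empty p), fun f => ?_⟩
        have : ((tm * heckeAlgebra.U hp hpN (Set.notMem_empty p) : heckeAlgebra N 2 (∅ : Set ℕ)) :
            Module.End ℂ (CuspForm (Gamma0 N) 2)) f =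
            (tm : Module.End ℂ (CuspForm (Gamma0 N) 2)) (heckeULin 2 hpN f) := rfl
        rw [this, htm, qc_heckeU hp hpN, hnm]
      · -- T operator
        by_cases hpm : p ∣ m
        · obtain ⟨m', hm'⟩ := hpm
          have hm'0 : 0 < m' := by
            rcases Nat.eq_zero_or_pos m' with h | h
            · rw [h, mul_zero] at hm'; omega
            · exact h
          have hm'n : m' < n := by
            have : m' ≤ m := by rw [hm']; exact Nat.le_mul_of_pos_left m' hp.pos
            omega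
          obtain ⟨tm', htm'⟩ := ih m' hm'n hm'0
          refine ⟨tm * heckeAlgebra.T hp hpN (Set.notMem_empty p) - (p : ℤ) • tm', fun f => ?_⟩
          have h1 : ((tm * heckeAlgebra.T hp hpN (Set.notMem_empty p) - (p : ℤ) • tm' :
              heckeAlgebra N 2 (∅ : Set ℕ)) : Module.End ℂ (CuspForm (Gamma0 N) 2)) f =
              (tm : Module.End ℂ (CuspForm (Gamma0 N) 2)) (heckeTLin 2 hp hpN f) -
                (p : ℤ) • ((tm' : Module.End ℂ (CuspForm (Gamma0 N) 2)) f) := rfl
          have hsub : ∀ a b : CuspForm (Gamma0 N) 2, qCoeff ⇑(a - b) 1 = qCoeff ⇑a 1 - qCoeff ⇑b 1 :=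
            fun a b => map_sub (qcLin N 2 1) a b
          have hzs : ∀ (z : ℤ) (a : CuspForm (Gamma0 N) 2), qCoeff ⇑(z • a) 1 = z * qCoeff ⇑a 1 := by
            intro z a
            have := map_zsmul (qcLin N 2 1) z a
            rw [qcLin_apply, qcLin_apply, zsmul_eq_mul] at this
            exact this
          rw [h1, hsub, hzs, htm, htm', qc_heckeT hp hpN, if_pos ⟨m', hm'⟩, hnm]
          have : m / p = m' := by rw [hm']; exact Nat.mul_div_cancel_left m' hp.pos
          rw [this]
          push_cast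
          ring
        · refine ⟨tm * heckeAlgebra.T hp hpN (Set.notMem_empty p), fun f => ?_⟩
          have : ((tm * heckeAlgebra.T hp hpN (Set.notMem_empty p) : heckeAlgebra N 2 (∅ : Set ℕ)) :
              Module.End ℂ (CuspForm (Gamma0 N) 2)) f =
              (tm : Module.End ℂ (CuspForm (Gamma0 N) 2)) (heckeTLin 2 hp hpN f) := rfl
          rw [this, htm, qc_heckeT hp hpN, if_neg hpm, add_zero, hnm]


/-- A finitely generated `ℤ`-submodule of `ℂ` consisting of rational numbers has a common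
denominator. -/
theorem exists_common_denominator {M : Submodule ℤ ℂ} (hM : M.FG)
    (hrat : ∀ x ∈ M, ∃ r : ℚ, x = (r : ℂ)) :
    ∃ D : ℕ, 0 < D ∧ ∀ x ∈ M, ∃ m : ℤ, (D : ℂ) * x = (m : ℂ) := by
  obtain ⟨G, hG⟩ := hM
  have hG' : ∀ g ∈ G, ∃ d : ℕ, 0 < d ∧ ∃ m : ℤ, (d : ℂ) * g = (m : ℂ) := by
    intro g hg
    obtain ⟨r, hr⟩ := hrat g (hG ▸ Submodule.subset_span hg)
    refine ⟨r.den, r.den_pos, r.num, ?_⟩
    rw [hr]
    have := Rat.den_mul_eq_num r
    exact_mod_cast this
  choose! d hd using hG'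
  refine ⟨∏ g ∈ G, d g, Finset.prod_pos fun g hg => (hd g hg).1, fun x hx => ?_⟩
  rw [← hG] at hx
  induction hx using Submodule.span_induction with
  | mem g hg =>
    obtain ⟨m, hm⟩ := (hd g hg).2
    refine ⟨(∏ g' ∈ G.erase g, d g' : ℕ) * m, ?_⟩
    rw [← Finset.mul_prod_erase G d hg]
    push_cast
    rw [← hm]
    ring
  | zero => exact ⟨0, by simp⟩
  | add a b _ _ ha hb =>
    obtain ⟨m, hm⟩ := ha
    obtain ⟨m', hm'⟩ := hb
    exact ⟨m + m', by rw [mul_add, hm, hm']; push_cast; ring⟩
  | smul z a _ ha =>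
    obtain ⟨m, hm⟩ := ha
    exact ⟨z * m, by rw [zsmul_eq_mul, mul_left_comm, hm]; push_cast; ring⟩

/-- Bounded denominators: a cusp form with rational `q`-expansion has a positive integer
multiple with integral `q`-expansion, provided the Hecke algebra is finite over `ℤ`. -/
theorem exists_pos_nat_smul_integral
    (hfin : Module.Finite ℤ (heckeAlgebra N 2 (∅ : Set ℕ))) (f : CuspForm (Gamma0 N) 2)
    (hf : ∀ n, ∃ r : ℚ, qCoeff ⇑f n = (r : ℂ)) :
    ∃ D : ℕ, 0 < D ∧ ∀ n, ∃ m : ℤ, qCoeff ⇑((D : ℂ) • f) n = (m : ℂ) := by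
  -- the functional t ↦ a_1(t f)
  let φ : heckeAlgebra N 2 (∅ : Set ℕ) →ₗ[ℤ] ℂ :=
    { toFun := fun t => qCoeff ⇑((t : Module.End ℂ (CuspForm (Gamma0 N) 2)) f) 1
      map_add' := fun s t => by
        show qCoeff ⇑(((s : Module.End ℂ (CuspForm (Gamma0 N) 2)) +
          (t : Module.End ℂ (CuspForm (Gamma0 N) 2))) f) 1 = _
        rw [LinearMap.add_apply]
        exact map_add (qcLin N 2 1) _ _
      map_smul' := fun z t => by
        show qCoeff ⇑((z • (t : Module.End ℂ (CuspForm (Gamma0 N) 2))) f) 1 = _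
        rw [LinearMap.smul_apply]
        have := map_zsmul (qcLin N 2 1) z ((t : Module.End ℂ (CuspForm (Gamma0 N) 2)) f)
        rw [qcLin_apply, qcLin_apply] at this
        rw [this]; rfl }
  have hMfg : (LinearMap.range φ).FG := by
    have : (⊤ : Submodule ℤ (heckeAlgebra N 2 (∅ : Set ℕ))).FG := hfin.fg_top
    rw [LinearMap.range_eq_map]
    exact this.map φ
  set A : Submodule ℤ ℂ := Submodule.span ℤ (Set.range fun n : ℕ => qCoeff ⇑f n) with hA
  have hAle : A ≤ LinearMap.range φ := by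
    rw [hA, Submodule.span_le]
    rintro _ ⟨n, rfl⟩
    rcases Nat.eq_zero_or_pos n with h0 | hpos
    · subst h0
      show qCoeff ⇑f 0 ∈ LinearMap.range φ
      rw [qc_coeff_zero]
      exact Submodule.zero_mem _
    · obtain ⟨t, ht⟩ := exists_hecke_coeff (N := N) n hpos
      exact ⟨t, ht f⟩
  have hAfg : A.FG := Submodule.FG.of_le hMfg hAle
  have hArat : ∀ x ∈ A, ∃ r : ℚ, x = (r : ℂ) := by
    intro x hx
    induction hx using Submodule.span_induction with
    | mem y hy =>
      obtain ⟨n, rfl⟩ := hy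
      exact hf n
    | zero => exact ⟨0, by simp⟩
    | add a b _ _ ha hb =>
      obtain ⟨r, hr⟩ := ha
      obtain ⟨r', hr'⟩ := hb
      exact ⟨r + r', by rw [hr, hr']; push_cast; ring⟩
    | smul z a _ ha =>
      obtain ⟨r, hr⟩ := ha
      exact ⟨z * r, by rw [zsmul_eq_mul, hr]; push_cast; ring⟩
  obtain ⟨D, hD, hDint⟩ := exists_common_denominator hAfg hArat
  refine ⟨D, hD, fun n => ?_⟩
  obtain ⟨m, hm⟩ := hDint (qCoeff ⇑f n) (Submodule.subset_span ⟨n, rfl⟩)
  exact ⟨m, by rw [qc_smul, hm]⟩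

/-- If the forms with rational `q`-expansion span, then there is an integral structure. -/
theorem hasIntegralStructure_of_rational_span
    (hfin : Module.Finite ℤ (heckeAlgebra N 2 (∅ : Set ℕ)))
    (hspan : Submodule.span ℂ {f : CuspForm (Gamma0 N) 2 | ∀ n, ∃ r : ℚ, qCoeff ⇑f n = (r : ℂ)}
      = ⊤) : CuspForm.HasIntegralStructure N 2 := by
  rw [CuspForm.HasIntegralStructure, eq_top_iff, ← hspan, Submodule.span_le]
  intro f hf
  obtain ⟨D, hD, hDint⟩ := exists_pos_nat_smul_integral hfin f hf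
  have hmem : ((D : ℂ) • f) ∈ CuspForm.intLattice N 2 := (mem_intLattice_iff' _).mpr hDint
  have hD0 : (D : ℂ) ≠ 0 := by exact_mod_cast hD.ne'
  have : f = (D : ℂ)⁻¹ • ((D : ℂ) • f) := by rw [smul_smul, inv_mul_cancel₀ hD0, one_smul]
  rw [this]
  exact Submodule.smul_mem _ _ (Submodule.subset_span hmem)

end Fermat.Agent.S23
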