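import Mathlib
import Fermat.Prelude.Thm_ModularForm_sturm_bound_Gamma0
import Fermat.Agent.S49.Basic
import Fermat.Agent.S23.GaloisDescent

set_option autoImplicit false

/-!
# Rational forms span, given conjugation

`rational_span_of_conj`: if `S₂(Γ₀(N))` is stable under conjugation of `q`-expansions by every
`σ ∈ Aut(ℂ)`, then it is spanned by forms with rational `q`-expansion coefficients.
-/

namespace Fermat.Agent.S23

open CongruenceSubgroup ModularFormClass UpperHalfPlane
open Fermat.Agent.S49

/-- The `q`-expansion coefficient map as a linear map to sequences. -/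
noncomputable def qSeqLin (N : ℕ) (k : ℤ) : CuspForm (Gamma0 N) k →ₗ[ℂ] (ℕ → ℂ) :=
  LinearMap.pi fun n => qcLin N k n

@[simp] theorem qSeqLin_apply (N : ℕ) (k : ℤ) (f : CuspForm (Gamma0 N) k) (n : ℕ) :
    qSeqLin N k f n = qCoeff ⇑f n := rfl

theorem qSeqLin_injective (N : ℕ) (k : ℤ) : Function.Injective (qSeqLin N k) := by
  intro f g h
  exact qc_ext fun n => congrFun h n

/-- Spaces of cusp forms on `Γ₀(N)` are finite-dimensional (Sturm bound). -/
theorem finiteDimensional_cuspForm (N : ℕ) [NeZero N] (k : ℤ) :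
    FiniteDimensional ℂ (CuspForm (Gamma0 N) k) := by
  let B : ℕ := (k * (Gamma0 N).index).toNat / 12
  let T : CuspForm (Gamma0 N) k →ₗ[ℂ] (Fin (B + 1) → ℂ) :=
    LinearMap.pi fun n => qcLin N k (n : ℕ)
  have hT : Function.Injective T := by
    rw [← LinearMap.ker_eq_bot, LinearMap.ker_eq_bot']
    intro f hf
    have hF : ModularFormClass.modularForm f = 0 := by
      apply ModularForm.sturm_bound_Gamma0 N (ModularFormClass.modularForm f)
      intro n hn
      have := congrFun hf ⟨n, Nat.lt_succ_of_le hn⟩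
      exact this
    ext z
    exact DFunLike.congr_fun hF z
  exact FiniteDimensional.of_injective T hT

/-- If `S₂(Γ₀(N))` is stable under conjugating `q`-expansions by all automorphisms of `ℂ`, then
the forms with rational `q`-expansion span it. -/
theorem rational_span_of_conj (N : ℕ) [NeZero N] (k : ℤ)
    (hconj : ∀ (σ : ℂ ≃+* ℂ) (f : CuspForm (Gamma0 N) k),
      ∃ g : CuspForm (Gamma0 N) k, ∀ n, qCoeff ⇑g n = σ (qCoeff ⇑f n)) :
    Submodule.span ℂ {f : CuspForm (Gamma0 N) k | ∀ n, ∃ r : ℚ, qCoeff ⇑f n = (r : ℂ)} = ⊤ := by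
  have := finiteDimensional_cuspForm N k
  exact span_rational_eq_top (qSeqLin N k) (qSeqLin_injective N k) hconj

end Fermat.Agent.S23
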