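import Fermat.Agent.S23.Conj
import Fermat.Prelude.Thm_CongruenceSubgroup_one_mem_strictPeriods_Gamma0

set_option autoImplicit false

open UpperHalfPlane hiding I
open Complex Filter Topology Function Matrix.SpecialLinearGroup CongruenceSubgroup
open scoped Manifold MatrixGroups ModularForm

namespace Fermat.Agent.S23.QF

theorem slash_eq_of_mul_eq (k w : ℤ) (γ : SL(2, ℤ)) (g B C : ℍ → ℂ) (hg : MDiff g)
    (hC : MDiff C) (hC0 : C ≠ 0) (hgC : g * C = B) (hB : B ∣[k + w] γ = B)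
    (hCγ : C ∣[w] γ = C) : g ∣[k] γ = g := by
  have h1 : (g ∣[k] γ) * C = g * C := by
    have := ModularForm.mul_slash_SL2 k w γ g C
    rw [hgC, hB, hCγ] at this
    rw [← this, hgC]
  have h2 : (g ∣[k] γ - g) * C = 0 := by rw [sub_mul, h1, sub_self]
  have hmd : MDiff (g ∣[k] γ) := hg.slash k γ
  exact sub_eq_zero.mp
    (((UpperHalfPlane.mul_eq_zero_iff (hmd.sub hg) hC).mp h2).resolve_right hC0)

theorem monic_rel_slash {n : ℕ} (k : ℤ) (γ : SL(2, ℤ)) (g : ℍ → ℂ) (c : Fin n → ℍ → ℂ)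
    (hrel : g ^ n + ∑ r : Fin n, c r * g ^ (r : ℕ) = 0) :
    (g ∣[k] γ) ^ n +
      ∑ r : Fin n, (c r ∣[((n : ℤ) - ((r : ℕ) : ℤ)) * k] γ) * (g ∣[k] γ) ^ (r : ℕ) = 0 := by
  ext z
  have h := congrFun hrel (γ • z)
  simp only [Pi.add_apply, Pi.pow_apply, Finset.sum_apply, Pi.mul_apply, Pi.zero_apply] at h ⊢
  simp only [ModularForm.SL_slash_apply]
  set d : ℂ := denom γ z with hd
  have hd0 : d ≠ 0 := denom_ne_zero γ z
  have key : (g (γ • z) * d ^ (-k)) ^ n + ∑ r : Fin n,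
      c r (γ • z) * d ^ (-(((n : ℤ) - ((r : ℕ) : ℤ)) * k)) * (g (γ • z) * d ^ (-k)) ^ (r : ℕ) =
      d ^ (-((n : ℤ) * k)) * (g (γ • z) ^ n + ∑ r : Fin n, c r (γ • z) * g (γ • z) ^ (r : ℕ)) := by
    rw [mul_add, Finset.mul_sum]
    congr 1
    · rw [mul_pow, ← zpow_natCast (d ^ (-k)) n, ← zpow_mul]
      ring_nf
    · refine Finset.sum_congr rfl fun r _ => ?_
      rw [mul_pow, ← zpow_natCast (d ^ (-k)) (r : ℕ), ← zpow_mul]
      have : d ^ (-((n : ℤ) * k)) =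
          d ^ (-(((n : ℤ) - ((r : ℕ) : ℤ)) * k)) * d ^ (-k * ((r : ℕ) : ℤ)) := by
        rw [← zpow_add₀ hd0]
        congr 1
        ring
      rw [this]
      ring
  rw [key, h, mul_zero]

theorem isZeroAtImInfty_slash_of_monic {n : ℕ} (k : ℤ) (γ : SL(2, ℤ)) (g : ℍ → ℂ)
    (c : Fin n → ℍ → ℂ) (hrel : g ^ n + ∑ r : Fin n, c r * g ^ (r : ℕ) = 0)
    (hcγ : ∀ r : Fin n, c r ∣[((n : ℤ) - ((r : ℕ) : ℤ)) * k] γ = c r)
    (hc0 : ∀ r, IsZeroAtImInfty (c r)) : IsZeroAtImInfty (g ∣[k] γ) := by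
  have h := monic_rel_slash k γ g c hrel
  simp only [hcγ] at h
  exact isZeroAtImInfty_of_monic _ c hc0 h

/-- Package a quotient as a cusp form. -/
theorem exists_cuspForm_of_div (N : ℕ) [NeZero N] (k w : ℤ) {n : ℕ} (g B C : ℍ → ℂ)
    (c : Fin n → ℍ → ℂ) (hg : MDiff g) (hC : MDiff C) (hC0 : C ≠ 0) (hgC : g * C = B)
    (hB : ∀ γ ∈ Gamma0 N, B ∣[k + w] γ = B) (hCγ : ∀ γ ∈ Gamma0 N, C ∣[w] γ = C)
    (hrel : g ^ n + ∑ r : Fin n, c r * g ^ (r : ℕ) = 0)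
    (hcγ : ∀ (r : Fin n) (γ : SL(2, ℤ)), c r ∣[((n : ℤ) - ((r : ℕ) : ℤ)) * k] γ = c r)
    (hc0 : ∀ r, IsZeroAtImInfty (c r)) :
    ∃ G : CuspForm (Gamma0 N) k, (G : ℍ → ℂ) = g := by
  refine ⟨{ toFun := g
            slash_action_eq' := ?_
            holo' := hg
            zero_at_cusps' := ?_ }, rfl⟩
  · intro γ hγ
    obtain ⟨γ₀, hγ₀, rfl⟩ := Subgroup.mem_map.mp hγ
    exact slash_eq_of_mul_eq k w γ₀ g B C hg hC hC0 hgC (hB γ₀ hγ₀) (hCγ γ₀ hγ₀)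
  · intro cusp hcusp
    rw [Subgroup.IsArithmetic.isCusp_iff_isCusp_SL2Z] at hcusp
    rw [OnePoint.isZeroAt_iff_forall_SL2Z hcusp]
    intro δ _
    exact isZeroAtImInfty_slash_of_monic k δ g c hrel (fun r => hcγ r δ) hc0

theorem isQFun_cuspForm (N : ℕ) [NeZero N] {k : ℤ} (f : CuspForm (Gamma0 N) k) : IsQFun (f : ℍ → ℂ) where
  mdiff := CuspFormClass.holo f
  periodic := by
    have := SlashInvariantFormClass.periodic_comp_ofComplex f (one_mem_strictPeriods_Gamma0 N)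
    simpa using this
  bdd := (CuspFormClass.zero_at_infty f).isBoundedAtImInfty

/-- The conjugation theorem for cusp forms on `Γ₀(N)`. -/
theorem exists_cuspForm_conj (N : ℕ) [NeZero N] (k w : ℤ) (σ : ℂ →+* ℂ) {n : ℕ}
    (f : CuspForm (Gamma0 N) k) (B C B' C' : ℍ → ℂ) (c c' : Fin n → ℍ → ℂ)
    (hB : IsQFun B) (hC : IsQFun C) (hc : ∀ r, IsQFun (c r))
    (hB' : IsQFun B') (hC' : IsQFun C') (hc' : ∀ r, IsQFun (c' r))
    (hBσ : IsConj σ B B') (hCσ : IsConj σ C C') (hcσ : ∀ r, IsConj σ (c r) (c' r))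
    (hC0 : C ≠ 0) (hfC : (f : ℍ → ℂ) * C = B)
    (hrel : (f : ℍ → ℂ) ^ n + ∑ r : Fin n, c r * (f : ℍ → ℂ) ^ (r : ℕ) = 0)
    (hB'γ : ∀ γ ∈ Gamma0 N, B' ∣[k + w] γ = B') (hC'γ : ∀ γ ∈ Gamma0 N, C' ∣[w] γ = C')
    (hc'γ : ∀ (r : Fin n) (γ : SL(2, ℤ)), c' r ∣[((n : ℤ) - ((r : ℕ) : ℤ)) * k] γ = c' r)
    (hc'0 : ∀ r, IsZeroAtImInfty (c' r)) :
    ∃ g : CuspForm (Gamma0 N) k,
      ∀ m, ModularFormClass.qCoeff g m = σ (ModularFormClass.qCoeff f m) := by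
  obtain ⟨g, hgQ, hgσ, hgC, hgrel⟩ := exists_conj_of_div σ f B C B' C' c c'
    (isQFun_cuspForm N f) hB hC hc hB' hC' hc' hBσ hCσ hcσ hC0 hfC hrel
  obtain ⟨G, hG⟩ := exists_cuspForm_of_div N k w g B' C' c' hgQ.mdiff hC'.mdiff
    (hCσ.ne_zero hC hC0) hgC hB'γ hC'γ hgrel hc'γ hc'0
  refine ⟨G, ?_⟩
  rw [hG]
  exact (isConj_iff_qCoeff σ f g).mp hgσ

end Fermat.Agent.S23.QF
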