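import Fermat.Agent.S22
import Fermat.Agent.S23.BoundedDenominators
import Fermat.Agent.S23.RationalSpan

set_option autoImplicit false

/-!
# Reduction of S23 to stability under conjugation

`hasIntegralStructure_of_conj`: `S₂(Γ₀(N))` has an integral structure as soon as it is stable
under conjugating `q`-expansions by every automorphism of `ℂ`.
-/

namespace Fermat.Agent.S23

open CongruenceSubgroup ModularFormClass

theorem hasIntegralStructure_of_conj (N : ℕ) [NeZero N]
    (hconj : ∀ (σ : ℂ ≃+* ℂ) (f : CuspForm (Gamma0 N) 2),
      ∃ g : CuspForm (Gamma0 N) 2, ∀ n, qCoeff ⇑g n = σ (qCoeff ⇑f n)) :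
    CuspForm.HasIntegralStructure N 2 :=
  hasIntegralStructure_of_rational_span (Fermat.Agent.S22.result N 2 ∅)
    (rational_span_of_conj N 2 hconj)

end Fermat.Agent.S23
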