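import Fermat.Agent.S23.Division
import Fermat.Agent.S23.QFun

set_option autoImplicit false

open UpperHalfPlane Complex Filter Topology Function
open scoped Manifold

namespace Fermat.Agent.S23.QF

theorem isBoundedAtImInfty_of_monic {n : ℕ} (g : ℍ → ℂ) (c : Fin n → ℍ → ℂ)
    (hc : ∀ r, IsBoundedAtImInfty (c r))
    (hrel : g ^ n + ∑ r : Fin n, c r * g ^ (r : ℕ) = 0) : IsBoundedAtImInfty g := by
  have hb : ∀ r, ∃ M : ℝ, ∀ᶠ τ in atImInfty, ‖c r τ‖ ≤ M := by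
    intro r
    obtain ⟨M, hM⟩ := (hc r).bound
    exact ⟨M, hM.mono fun τ hτ => by simpa using hτ⟩
  choose M hM using hb
  have hall : ∀ᶠ τ in atImInfty, ∀ r, ‖c r τ‖ ≤ M r := eventually_all.mpr hM
  refine Asymptotics.IsBigO.of_bound (max 1 (∑ r, M r)) ?_
  filter_upwards [hall] with τ hτ
  have h1 : g τ ^ n + ∑ r : Fin n, c r τ * g τ ^ (r : ℕ) = 0 := by
    simpa using congrFun hrel τ
  have := norm_le_of_monic_root (g τ) (fun r => c r τ) h1
  simp only [Pi.one_apply, norm_one, mul_one]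
  exact this.trans (max_le_max le_rfl (Finset.sum_le_sum fun r _ => hτ r))

theorem isZeroAtImInfty_of_monic {n : ℕ} (g : ℍ → ℂ) (c : Fin n → ℍ → ℂ)
    (hc : ∀ r, IsZeroAtImInfty (c r))
    (hrel : g ^ n + ∑ r : Fin n, c r * g ^ (r : ℕ) = 0) : IsZeroAtImInfty g := by
  have hn : n ≠ 0 := by
    rintro rfl
    simpa using congrFun hrel I
  have hS : Tendsto (fun τ : ℍ => ∑ r, ‖c r τ‖) atImInfty (𝓝 0) := by
    have : Tendsto (fun τ : ℍ => ∑ r : Fin n, ‖c r τ‖) atImInfty (𝓝 (∑ _r : Fin n, (0 : ℝ))) :=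
      tendsto_finsetSum _ fun r _ => tendsto_zero_iff_norm_tendsto_zero.mp (hc r)
    simpa using this
  show Tendsto g atImInfty (𝓝 0)
  rw [Metric.tendsto_nhds]
  intro ε hε
  set ε' : ℝ := min ε 1 with hε'
  have hε'pos : 0 < ε' := lt_min hε one_pos
  have hε'1 : ε' ≤ 1 := min_le_right _ _
  have hpow : 0 < ε' ^ n := pow_pos hε'pos n
  have hpow1 : ε' ^ n ≤ 1 := pow_le_one₀ hε'pos.le hε'1
  have hev : ∀ᶠ τ in atImInfty, ∑ r, ‖c r τ‖ < ε' ^ n := by
    have := (Metric.tendsto_nhds.mp hS) (ε' ^ n) hpow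
    refine this.mono fun τ hτ => ?_
    rw [Real.dist_eq, sub_zero] at hτ
    exact lt_of_abs_lt hτ
  filter_upwards [hev] with τ hτ
  have h1 : g τ ^ n + ∑ r : Fin n, c r τ * g τ ^ (r : ℕ) = 0 := by
    simpa using congrFun hrel τ
  have h2 := norm_pow_le_of_monic_root (g τ) (fun r => c r τ) h1 (hτ.le.trans hpow1)
  have h3 : ‖g τ‖ ^ n < ε' ^ n := lt_of_le_of_lt h2 hτ
  have h4 : ‖g τ‖ < ε' := lt_of_pow_lt_pow_left₀ n hε'pos.le h3
  rw [dist_zero_right]
  exact lt_of_lt_of_le h4 (min_le_left _ _)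

theorem periodic_of_mul_eq (g B C : ℍ → ℂ) (hg : MDiff g) (hC : MDiff C) (hC0 : C ≠ 0)
    (hBp : Periodic (B ∘ ofComplex) (1 : ℂ)) (hCp : Periodic (C ∘ ofComplex) (1 : ℂ))
    (h : g * C = B) : Periodic (g ∘ ofComplex) (1 : ℂ) := by
  set g₁ : ℍ → ℂ := fun τ => g (ofComplex ((τ : ℂ) + 1)) with hg₁
  have hmd : MDiff g₁ := by
    rw [mdifferentiable_iff]
    have hG : DifferentiableOn ℂ (g ∘ ofComplex) {z | 0 < z.im} := mdifferentiable_iff.mp hg
    have hcomp : DifferentiableOn ℂ ((g ∘ ofComplex) ∘ fun z : ℂ => z + 1) {z | 0 < z.im} := by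
      refine hG.comp (by fun_prop) ?_
      intro z hz
      simpa using hz
    refine hcomp.congr fun z hz => ?_
    simp [hg₁, ofComplex_apply_of_im_pos hz]
  have hzero : (g₁ - g) * C = 0 := by
    ext τ
    have him : 0 < ((τ : ℂ) + 1).im := by simpa using τ.im_pos
    have e1 : C (ofComplex ((τ : ℂ) + 1)) = C τ := by
      have := hCp (τ : ℂ)
      simpa [ofComplex_apply] using this
    have e2 : B (ofComplex ((τ : ℂ) + 1)) = B τ := by
      have := hBp (τ : ℂ)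
      simpa [ofComplex_apply] using this
    have e3 : g (ofComplex ((τ : ℂ) + 1)) * C (ofComplex ((τ : ℂ) + 1)) =
        B (ofComplex ((τ : ℂ) + 1)) := congrFun h _
    have e4 : g τ * C τ = B τ := congrFun h τ
    simp only [Pi.mul_apply, Pi.sub_apply, Pi.zero_apply, hg₁]
    rw [sub_mul, ← e1, e3, e2, e1, e4, sub_self]
  have hsub : g₁ - g = 0 :=
    ((UpperHalfPlane.mul_eq_zero_iff (hmd.sub hg) hC).mp hzero).resolve_right hC0
  intro w
  by_cases hw : 0 < w.im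
  · have := congrFun hsub ⟨w, hw⟩
    simp only [Pi.sub_apply, Pi.zero_apply, hg₁, sub_eq_zero] at this
    simp only [comp_apply, ofComplex_apply_of_im_pos hw]
    exact this
  · push Not at hw
    have hw' : (w + 1).im ≤ 0 := by simpa using hw
    simp only [comp_apply, ofComplex_apply_of_im_nonpos hw', ofComplex_apply_of_im_nonpos hw]

/-- Main conjugation theorem: if `f = B / C` is integral over the ring of `q`-functions
(monic relation with coefficients `c r`), and `B`, `C`, `c r` all have `σ`-conjugates, then so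
does `f`; the conjugate satisfies the conjugate relations. -/
theorem exists_conj_of_div (σ : ℂ →+* ℂ) {n : ℕ} (f B C B' C' : ℍ → ℂ) (c c' : Fin n → ℍ → ℂ)
    (hf : IsQFun f) (hB : IsQFun B) (hC : IsQFun C) (hc : ∀ r, IsQFun (c r))
    (hB' : IsQFun B') (hC' : IsQFun C') (hc' : ∀ r, IsQFun (c' r))
    (hBσ : IsConj σ B B') (hCσ : IsConj σ C C') (hcσ : ∀ r, IsConj σ (c r) (c' r))
    (hC0 : C ≠ 0) (hfC : f * C = B)
    (hrel : f ^ n + ∑ r : Fin n, c r * f ^ (r : ℕ) = 0) :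
    ∃ g : ℍ → ℂ, IsQFun g ∧ IsConj σ f g ∧ g * C' = B' ∧
      g ^ n + ∑ r : Fin n, c' r * g ^ (r : ℕ) = 0 := by
  -- relation between B and C
  have hrelBC : B ^ n + ∑ r : Fin n, c r * B ^ (r : ℕ) * C ^ (n - (r : ℕ)) = 0 := by
    have h1 : (f ^ n + ∑ r : Fin n, c r * f ^ (r : ℕ)) * C ^ n = 0 := by rw [hrel, zero_mul]
    rw [← h1, ← hfC, add_mul, Finset.sum_mul, mul_pow]
    congr 1
    refine Finset.sum_congr rfl fun r _ => ?_
    have hr : (r : ℕ) ≤ n := r.2.le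
    have : C ^ n = C ^ (r : ℕ) * C ^ (n - (r : ℕ)) := by
      rw [← pow_add, Nat.add_sub_cancel' hr]
    rw [this, mul_pow]
    ring
  -- conjugate relation
  have hterm : ∀ r : Fin n, IsQFun (c r * B ^ (r : ℕ) * C ^ (n - (r : ℕ))) :=
    fun r => ((hc r).mul (hB.pow _)).mul (hC.pow _)
  have hterm' : ∀ r : Fin n, IsQFun (c' r * B' ^ (r : ℕ) * C' ^ (n - (r : ℕ))) :=
    fun r => ((hc' r).mul (hB'.pow _)).mul (hC'.pow _)
  have hconjterm : ∀ r : Fin n, IsConj σ (c r * B ^ (r : ℕ) * C ^ (n - (r : ℕ)))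
      (c' r * B' ^ (r : ℕ) * C' ^ (n - (r : ℕ))) := fun r =>
    IsConj.mul ((hc r).mul (hB.pow _)) (hC.pow _) ((hc' r).mul (hB'.pow _)) (hC'.pow _)
      (IsConj.mul (hc r) (hB.pow _) (hc' r) (hB'.pow _) (hcσ r) (hBσ.pow hB hB' _))
      (hCσ.pow hC hC' _)
  have hL' : IsQFun (B' ^ n + ∑ r : Fin n, c' r * B' ^ (r : ℕ) * C' ^ (n - (r : ℕ))) :=
    (hB'.pow n).add (IsQFun.sum _ fun r _ => hterm' r)
  have hconjL : IsConj σ (B ^ n + ∑ r : Fin n, c r * B ^ (r : ℕ) * C ^ (n - (r : ℕ)))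
      (B' ^ n + ∑ r : Fin n, c' r * B' ^ (r : ℕ) * C' ^ (n - (r : ℕ))) :=
    IsConj.add (hB.pow n) (IsQFun.sum _ fun r _ => hterm r) (hB'.pow n)
      (IsQFun.sum _ fun r _ => hterm' r) (hBσ.pow hB hB' n)
      (IsConj.sum _ (fun r _ => hterm r) (fun r _ => hterm' r) fun r _ => hconjterm r)
  have hrelBC' : B' ^ n + ∑ r : Fin n, c' r * B' ^ (r : ℕ) * C' ^ (n - (r : ℕ)) = 0 :=
    hconjL.eq_zero hL' hrelBC
  have hC0' : C' ≠ 0 := hCσ.ne_zero hC hC0
  obtain ⟨g, hgmd, hgC, hgrel⟩ := exists_mdiff_div B' C' c' hB'.mdiff hC'.mdiff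
    (fun r => (hc' r).mdiff) hC0' hrelBC'
  have hgQ : IsQFun g :=
    ⟨hgmd, periodic_of_mul_eq g B' C' hgmd hC'.mdiff hC0' hB'.periodic hC'.periodic hgC,
      isBoundedAtImInfty_of_monic g c' (fun r => (hc' r).bdd) hgrel⟩
  refine ⟨g, hgQ, ?_, hgC, hgrel⟩
  -- the conjugation property
  unfold IsConj at *
  have h1 : qExpansion 1 g * qExpansion 1 C' = qExpansion 1 B' := by
    rw [← qExpansion_mul hgQ.analyticAt hC'.analyticAt, hgC]
  have h2 : qExpansion 1 f * qExpansion 1 C = qExpansion 1 B := by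
    rw [← qExpansion_mul hf.analyticAt hC.analyticAt, hfC]
  have hne : qExpansion 1 C' ≠ 0 := fun h0 => hC0' (hC'.qExpansion_eq_zero_iff.mp h0)
  have h3 : qExpansion 1 g * qExpansion 1 C' =
      (qExpansion 1 f).map σ * qExpansion 1 C' := by
    rw [h1, hBσ, ← h2, map_mul, hCσ]
  exact mul_right_cancel₀ hne h3

end Fermat.Agent.S23.QF
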