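import Mathlib

set_option autoImplicit false

open UpperHalfPlane Complex Filter Topology Function
open scoped Manifold

namespace Fermat.Agent.S23.QF

/-- Cauchy-type bound for a root of a monic polynomial. -/
theorem norm_le_of_monic_root {n : ℕ} (x : ℂ) (a : Fin n → ℂ)
    (h : x ^ n + ∑ r : Fin n, a r * x ^ (r : ℕ) = 0) :
    ‖x‖ ≤ max 1 (∑ r, ‖a r‖) := by
  rcases le_or_gt ‖x‖ 1 with h1 | h1
  · exact le_max_of_le_left h1
  · refine le_max_of_le_right ?_
    have hn : n ≠ 0 := by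
      rintro rfl
      simp at h
    obtain ⟨m, rfl⟩ : ∃ m, n = m + 1 := Nat.exists_eq_succ_of_ne_zero hn
    have hx : x ^ (m + 1) = -∑ r : Fin (m + 1), a r * x ^ (r : ℕ) := eq_neg_of_add_eq_zero_left h
    have h2 : ‖x‖ ^ (m + 1) ≤ (∑ r, ‖a r‖) * ‖x‖ ^ m := by
      calc ‖x‖ ^ (m + 1) = ‖x ^ (m + 1)‖ := (norm_pow _ _).symm
        _ = ‖∑ r : Fin (m + 1), a r * x ^ (r : ℕ)‖ := by rw [hx, norm_neg]
        _ ≤ ∑ r : Fin (m + 1), ‖a r * x ^ (r : ℕ)‖ := norm_sum_le _ _
        _ ≤ ∑ r : Fin (m + 1), ‖a r‖ * ‖x‖ ^ m := by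
            refine Finset.sum_le_sum fun r _ => ?_
            rw [norm_mul, norm_pow]
            refine mul_le_mul_of_nonneg_left ?_ (norm_nonneg _)
            exact pow_le_pow_right₀ h1.le (Nat.lt_succ_iff.mp r.2)
        _ = (∑ r, ‖a r‖) * ‖x‖ ^ m := by rw [Finset.sum_mul]
    have h3 : 0 < ‖x‖ ^ m := pow_pos (lt_trans zero_lt_one h1) m
    rw [pow_succ, mul_comm] at h2
    exact le_of_mul_le_mul_right h2 h3

theorem norm_pow_le_of_monic_root {n : ℕ} (x : ℂ) (a : Fin n → ℂ)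
    (h : x ^ n + ∑ r : Fin n, a r * x ^ (r : ℕ) = 0) (hS : ∑ r, ‖a r‖ ≤ 1) :
    ‖x‖ ^ n ≤ ∑ r, ‖a r‖ := by
  have h1 : ‖x‖ ≤ 1 := by
    have := norm_le_of_monic_root x a h
    rwa [max_eq_left hS] at this
  have hx : x ^ n = -∑ r : Fin n, a r * x ^ (r : ℕ) := eq_neg_of_add_eq_zero_left h
  calc ‖x‖ ^ n = ‖x ^ n‖ := (norm_pow _ _).symm
    _ = ‖∑ r : Fin n, a r * x ^ (r : ℕ)‖ := by rw [hx, norm_neg]
    _ ≤ ∑ r : Fin n, ‖a r * x ^ (r : ℕ)‖ := norm_sum_le _ _
    _ ≤ ∑ r : Fin n, ‖a r‖ := by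
        refine Finset.sum_le_sum fun r _ => ?_
        rw [norm_mul, norm_pow]
        exact mul_le_of_le_one_right (norm_nonneg _) (pow_le_one₀ (norm_nonneg _) h1)

/-- Division lemma: a quotient of holomorphic functions which is integral over the
ring of holomorphic functions is holomorphic (Riemann removable singularities). -/
theorem exists_differentiableOn_div {U : Set ℂ} (hU : IsOpen U) (hUc : IsPreconnected U) {n : ℕ}
    (B C : ℂ → ℂ) (c : Fin n → ℂ → ℂ) (hB : DifferentiableOn ℂ B U)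
    (hC : DifferentiableOn ℂ C U) (hc : ∀ r, DifferentiableOn ℂ (c r) U)
    (hC0 : ∃ z ∈ U, C z ≠ 0)
    (hrel : ∀ z ∈ U, B z ^ n + ∑ r : Fin n, c r z * B z ^ (r : ℕ) * C z ^ (n - (r : ℕ)) = 0) :
    ∃ g : ℂ → ℂ, DifferentiableOn ℂ g U ∧ ∀ z ∈ U, g z * C z = B z := by
  classical
  have hn : n ≠ 0 := by
    rintro rfl
    obtain ⟨z, hz, -⟩ := hC0
    simpa using hrel z hz
  set g₀ : ℂ → ℂ := fun z => B z / C z with hg₀
  -- the monic relation for g₀ away from zeros of C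
  have hrel₀ : ∀ z ∈ U, C z ≠ 0 →
      g₀ z ^ n + ∑ r : Fin n, c r z * g₀ z ^ (r : ℕ) = 0 := by
    intro z hz hCz
    have h1 : (g₀ z ^ n + ∑ r : Fin n, c r z * g₀ z ^ (r : ℕ)) * C z ^ n = 0 := by
      rw [← hrel z hz, add_mul, Finset.sum_mul]
      congr 1
      · simp only [hg₀, div_pow]
        field_simp
      · refine Finset.sum_congr rfl fun r _ => ?_
        have hr : (r : ℕ) ≤ n := r.2.le
        have : C z ^ n = C z ^ (r : ℕ) * C z ^ (n - (r : ℕ)) := by
          rw [← pow_add, Nat.add_sub_cancel' hr]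
        rw [this]
        simp only [hg₀, div_pow]
        field_simp
    exact (mul_eq_zero.mp h1).resolve_right (pow_ne_zero _ hCz)
  refine ⟨fun z => if C z = 0 then limUnder (𝓝[≠] z) g₀ else g₀ z, ?_, ?_⟩
  · intro z₁ hz₁
    refine DifferentiableAt.differentiableWithinAt ?_
    have hUn : U ∈ 𝓝 z₁ := hU.mem_nhds hz₁
    by_cases hCz : C z₁ = 0
    · -- zero of C: removable singularity
      have hCan : AnalyticAt ℂ C z₁ := hC.analyticAt hUn
      have hne : ∀ᶠ z in 𝓝[≠] z₁, C z ≠ 0 := by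
        rcases hCan.eventually_eq_zero_or_eventually_ne_zero with h0 | h0
        · exfalso
          obtain ⟨w, hw, hCw⟩ := hC0
          have hCn : AnalyticOnNhd ℂ C U := hC.analyticOnNhd hU
          exact hCw (hCn.eqOn_zero_of_preconnected_of_eventuallyEq_zero hUc hz₁ h0 hw)
        · exact h0
      rw [eventually_nhdsWithin_iff] at hne
      have hbd : ∀ r, ∀ᶠ z in 𝓝 z₁, ‖c r z‖ ≤ ‖c r z₁‖ + 1 := by
        intro r
        have hcont : ContinuousAt (c r) z₁ := ((hc r).differentiableAt hUn).continuousAt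
        have := hcont.norm.eventually (gt_mem_nhds (lt_add_one ‖c r z₁‖))
        exact this.mono fun z hz => hz.le
      have hall : ∀ᶠ z in 𝓝 z₁, z ∈ U ∧ (z ∈ ({z₁}ᶜ : Set ℂ) → C z ≠ 0) ∧
          ∀ r, ‖c r z‖ ≤ ‖c r z₁‖ + 1 :=
        (eventually_of_mem hUn fun z hz => hz).and (hne.and (eventually_all.mpr hbd))
      set s : Set ℂ := {z | z ∈ U ∧ (z ∈ ({z₁}ᶜ : Set ℂ) → C z ≠ 0) ∧
          ∀ r, ‖c r z‖ ≤ ‖c r z₁‖ + 1} with hs
      have hsn : s ∈ 𝓝 z₁ := hall
      have hd : DifferentiableOn ℂ g₀ (s \ {z₁}) := by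
        intro z hz
        have hzU : z ∈ U := hz.1.1
        have hCz' : C z ≠ 0 := hz.1.2.1 hz.2
        exact (((hB.differentiableAt (hU.mem_nhds hzU)).div
          (hC.differentiableAt (hU.mem_nhds hzU)) hCz')).differentiableWithinAt
      have hb : BddAbove (norm ∘ g₀ '' (s \ {z₁})) := by
        refine ⟨max 1 (∑ r, (‖c r z₁‖ + 1)), ?_⟩
        rintro _ ⟨z, hz, rfl⟩
        have hzU : z ∈ U := hz.1.1
        have hCz' : C z ≠ 0 := hz.1.2.1 hz.2
        have := norm_le_of_monic_root (g₀ z) (fun r => c r z) (hrel₀ z hzU hCz')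
        refine this.trans (max_le_max le_rfl ?_)
        exact Finset.sum_le_sum fun r _ => hz.1.2.2 r
      have hup := Complex.differentiableOn_update_limUnder_of_bddAbove hsn hd hb
      have hupd : DifferentiableAt ℂ (update g₀ z₁ (limUnder (𝓝[≠] z₁) g₀)) z₁ :=
        hup.differentiableAt hsn
      refine hupd.congr_of_eventuallyEq ?_
      filter_upwards [hsn] with z hz
      by_cases hzz : z = z₁
      · subst hzz
        simp [hCz]
      · have hCz' : C z ≠ 0 := hz.2.1 hzz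
        simp [hCz', update_of_ne hzz]
    · -- C z₁ ≠ 0
      have hCcont : ContinuousAt C z₁ := (hC.differentiableAt hUn).continuousAt
      have hev : ∀ᶠ z in 𝓝 z₁, C z ≠ 0 := hCcont.eventually_ne hCz
      have hd : DifferentiableAt ℂ g₀ z₁ :=
        (hB.differentiableAt hUn).div (hC.differentiableAt hUn) hCz
      refine hd.congr_of_eventuallyEq ?_
      filter_upwards [hev] with z hz
      simp [hz]
  · intro z hz
    by_cases hCz : C z = 0
    · have hB0 : B z ^ n = 0 := by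
        have h := hrel z hz
        have hsum : ∑ r : Fin n, c r z * B z ^ (r : ℕ) * C z ^ (n - (r : ℕ)) = 0 := by
          refine Finset.sum_eq_zero fun r _ => ?_
          have : n - (r : ℕ) ≠ 0 := Nat.sub_ne_zero_of_lt r.2
          rw [hCz, zero_pow this, mul_zero]
        rwa [hsum, add_zero] at h
      have hBz : B z = 0 := pow_eq_zero_iff hn |>.mp hB0
      simp [hCz, hBz]
    · simp only [hCz, if_false, hg₀]
      field_simp

/-- Upper half plane version of the division lemma, with the monic relation transported. -/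
theorem exists_mdiff_div {n : ℕ} (B C : ℍ → ℂ) (c : Fin n → ℍ → ℂ) (hB : MDiff B)
    (hC : MDiff C) (hc : ∀ r, MDiff (c r)) (hC0 : C ≠ 0)
    (hrel : B ^ n + ∑ r : Fin n, c r * B ^ (r : ℕ) * C ^ (n - (r : ℕ)) = 0) :
    ∃ g : ℍ → ℂ, MDiff g ∧ g * C = B ∧ g ^ n + ∑ r : Fin n, c r * g ^ (r : ℕ) = 0 := by
  have hU : IsOpen {z : ℂ | 0 < z.im} := isOpen_upperHalfPlaneSet
  have hUc : IsPreconnected {z : ℂ | 0 < z.im} :=
    (Complex.isConnected_of_upperHalfPlane subset_rfl (by grind)).isPreconnected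
  have hC0' : ∃ z ∈ {z : ℂ | 0 < z.im}, (C ∘ ofComplex) z ≠ 0 := by
    by_contra hcon
    push Not at hcon
    apply hC0
    ext τ
    have := hcon τ τ.im_pos
    simpa [ofComplex_apply] using this
  have hrel' : ∀ z ∈ {z : ℂ | 0 < z.im}, (B ∘ ofComplex) z ^ n +
      ∑ r : Fin n, (fun r => c r ∘ ofComplex) r z * (B ∘ ofComplex) z ^ (r : ℕ) *
        (C ∘ ofComplex) z ^ (n - (r : ℕ)) = 0 := by
    intro z _
    have := congrFun hrel (ofComplex z)
    simpa using this
  obtain ⟨gC, hgC, hgC'⟩ := exists_differentiableOn_div hU hUc (B ∘ ofComplex) (C ∘ ofComplex)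
    (fun r => c r ∘ ofComplex) (mdifferentiable_iff.mp hB) (mdifferentiable_iff.mp hC)
    (fun r => mdifferentiable_iff.mp (hc r)) hC0' hrel'
  have hg : MDiff (fun τ : ℍ => gC (τ : ℂ)) := by
    rw [mdifferentiable_iff]
    refine hgC.congr fun z hz => ?_
    simp [ofComplex_apply_of_im_pos hz]
  have hmul : (fun τ : ℍ => gC (τ : ℂ)) * C = B := by
    ext τ
    have := hgC' τ τ.im_pos
    simpa [ofComplex_apply] using this
  refine ⟨fun τ : ℍ => gC (τ : ℂ), hg, hmul, ?_⟩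
  set g : ℍ → ℂ := fun τ : ℍ => gC (τ : ℂ) with hgdef
  have hCn : C ^ n ≠ 0 := pow_ne_zero _ hC0
  have hprod : (g ^ n + ∑ r : Fin n, c r * g ^ (r : ℕ)) * C ^ n = 0 := by
    rw [← hrel, ← hmul, add_mul, Finset.sum_mul, mul_pow]
    congr 1
    refine Finset.sum_congr rfl fun r _ => ?_
    have hr : (r : ℕ) ≤ n := r.2.le
    have : C ^ n = C ^ (r : ℕ) * C ^ (n - (r : ℕ)) := by
      rw [← pow_add, Nat.add_sub_cancel' hr]
    rw [this, mul_pow]
    ring
  have hmd : MDiff (g ^ n + ∑ r : Fin n, c r * g ^ (r : ℕ)) := by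
    refine (hg.pow n).add ?_
    have : ∀ r ∈ (Finset.univ : Finset (Fin n)), MDiff (c r * g ^ (r : ℕ)) :=
      fun r _ => (hc r).mul (hg.pow _)
    exact MDifferentiable.sum this
  exact ((UpperHalfPlane.mul_eq_zero_iff hmd (hC.pow n)).mp hprod).resolve_right hCn

end Fermat.Agent.S23.QF
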